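import Mathlib.AlgebraicGeometry.EllipticCurve.Affine.AddSubMap
import Mathlib.Tactic.FieldSimp
import Mathlib.Tactic.FinCases
import Mathlib.Tactic.LinearCombination

/-!
# The addition-and-subtraction map does what it is claimed to do

For nonsingular points `P`, `Q` of a (possibly singular) Weierstrass cubic over a field,
`addSubMap (sym2x P Q)` is a nonzero multiple of `sym2x (P + Q) (P - Q)`.

This is the step of the Montgomery ladder for the `x`-coordinate of `n • P`.
-/

noncomputable section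

namespace Fermat.Agent.EC

open WeierstrassCurve MvPolynomial

variable {R : Type*} [CommRing R]

/-- The addition-and-subtraction map, evaluated. -/
def addSubEval (W : WeierstrassCurve R) (v : Fin 3 → R) : Fin 3 → R :=
  fun i ↦ (W.addSubMap i).eval v

lemma addSubEval_eq (W : WeierstrassCurve R) (s t u : R) :
    addSubEval W ![s, t, u] =
      ![s ^ 2 - W.b₄ * s * u - W.b₆ * t * u - W.b₈ * u ^ 2,
        2 * t * s + W.b₂ * s * u + W.b₄ * t * u + W.b₆ * u ^ 2,
        t ^ 2 - 4 * s * u] := by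
  funext i
  fin_cases i <;> simp [addSubEval, addSubMap]

lemma addSubEval_smul (W : WeierstrassCurve R) (c : R) (v : Fin 3 → R) :
    addSubEval W (c • v) = c ^ 2 • addSubEval W v := by
  obtain ⟨s, t, u, rfl⟩ : ∃ s t u, v = ![s, t, u] :=
    ⟨v 0, v 1, v 2, by ext i; fin_cases i <;> simp⟩
  simp only [Matrix.smul_cons, Matrix.smul_empty, smul_eq_mul, addSubEval_eq]
  funext i
  fin_cases i <;> simp <;> ring

lemma smul_vec3 {a b c a' b' c' r : R} (ha : a = r * a') (hb : b = r * b') (hc : c = r * c') :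
    ![a, b, c] = r • ![a', b', c'] := by
  rw [ha, hb, hc]
  simp [Matrix.smul_cons, Matrix.smul_empty]

variable {F : Type*} [Field F] {W : Affine F}

/-- The numerator of the slope of the tangent line. -/
def tangentNum (W : Affine F) (x y : F) : F :=
  3 * x ^ 2 + 2 * W.a₂ * x + W.a₄ - W.a₁ * y

lemma tangentNum_ne_zero_of_Y_eq {x y : F} (h : W.Nonsingular x y) (hy : y = W.negY x y) :
    tangentNum W x y ≠ 0 := by
  intro hn
  rcases ((Affine.nonsingular_iff' x y).mp h).2 with hX | hY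
  · exact hX (by unfold tangentNum at hn; linear_combination -hn)
  · exact hY (by rw [Affine.negY] at hy; linear_combination hy)

lemma dupNum_eq {x y : F} (h : W.Equation x y) :
    x ^ 4 - W.b₄ * x ^ 2 - 2 * W.b₆ * x - W.b₈ =
      tangentNum W x y ^ 2 + W.a₁ * tangentNum W x y * (y - W.negY x y)
        - (W.a₂ + 2 * x) * (y - W.negY x y) ^ 2 := by
  have e := (Affine.equation_iff x y).mp h
  simp only [tangentNum, Affine.negY, b₄, b₆, b₈]
  linear_combination (8 * x + 4 * W.a₂ + W.a₁ ^ 2) * e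

lemma dupDen_eq {x y : F} (h : W.Equation x y) :
    4 * x ^ 3 + W.b₂ * x ^ 2 + 2 * W.b₄ * x + W.b₆ = (y - W.negY x y) ^ 2 := by
  have e := (Affine.equation_iff x y).mp h
  simp only [Affine.negY, b₂, b₄, b₆]
  linear_combination -4 * e

/-- At a nonsingular point the numerator and denominator of the duplication formula do not both
vanish (no hypothesis on the discriminant). -/
lemma dupNum_ne_zero {x y : F} (h : W.Nonsingular x y) (hy : y = W.negY x y) :
    x ^ 4 - W.b₄ * x ^ 2 - 2 * W.b₆ * x - W.b₈ ≠ 0 := by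
  rw [dupNum_eq h.1, ← hy, sub_self]
  simpa using tangentNum_ne_zero_of_Y_eq h hy

variable [DecidableEq F]

lemma addX_of_X_ne_sum {x₁ x₂ y₁ y₂ : F} (h₁ : W.Equation x₁ y₁) (h₂ : W.Equation x₂ y₂)
    (hx : x₁ ≠ x₂) :
    (x₁ - x₂) ^ 2 * (W.addX x₁ x₂ (W.slope x₁ x₂ y₁ y₂) +
        W.addX x₁ x₂ (W.slope x₁ x₂ y₁ (W.negY x₂ y₂))) =
      2 * (x₁ + x₂) * (x₁ * x₂) + W.b₂ * (x₁ * x₂) + W.b₄ * (x₁ + x₂) + W.b₆ := by
  have hd : x₁ - x₂ ≠ 0 := sub_ne_zero.mpr hx
  have e₁ := (Affine.equation_iff x₁ y₁).mp h₁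
  have e₂ := (Affine.equation_iff x₂ y₂).mp h₂
  rw [Affine.slope_of_X_ne hx, Affine.slope_of_X_ne hx]
  simp only [Affine.addX, Affine.negY, b₂, b₄, b₆]
  field_simp
  linear_combination 2 * e₁ + 2 * e₂

lemma addX_of_X_ne_mul {x₁ x₂ y₁ y₂ : F} (h₁ : W.Equation x₁ y₁) (h₂ : W.Equation x₂ y₂)
    (hx : x₁ ≠ x₂) :
    (x₁ - x₂) ^ 2 * (W.addX x₁ x₂ (W.slope x₁ x₂ y₁ y₂) *
        W.addX x₁ x₂ (W.slope x₁ x₂ y₁ (W.negY x₂ y₂))) =
      (x₁ * x₂) ^ 2 - W.b₄ * (x₁ * x₂) - W.b₆ * (x₁ + x₂) - W.b₈ := by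
  have hd : x₁ - x₂ ≠ 0 := sub_ne_zero.mpr hx
  have e₁ := (Affine.equation_iff x₁ y₁).mp h₁
  have e₂ := (Affine.equation_iff x₂ y₂).mp h₂
  rw [Affine.slope_of_X_ne hx, Affine.slope_of_X_ne hx]
  simp only [Affine.addX, Affine.negY, b₄, b₆, b₈]
  field_simp
  grind

/-- `addSubMap` maps `sym2x P Q` to a nonzero multiple of `sym2x (P + Q) (P - Q)`. -/
theorem addSubEval_sym2x (P Q : W.Point) :
    ∃ c : F, c ≠ 0 ∧ addSubEval W (P.sym2x Q) = c • (P + Q).sym2x (P - Q) := by
  have key0 : ∀ R : W.Point, ∃ c : F, c ≠ 0 ∧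
      addSubEval W ((0 : W.Point).sym2x R) = c • R.sym2x (-R) := by
    intro R
    rcases R with _ | ⟨x, y, h⟩
    · refine ⟨1, one_ne_zero, ?_⟩
      simp only [← Affine.Point.zero_def, neg_zero, Affine.Point.sym2x_zero_zero, addSubEval_eq]
      simp
    · refine ⟨1, one_ne_zero, ?_⟩
      simp only [Affine.Point.sym2x_zero_some, Affine.Point.neg_some,
        Affine.Point.sym2x_some_some, addSubEval_eq]
      funext i
      fin_cases i <;> simp <;> ring
  rcases P with _ | ⟨x₁, y₁, h₁⟩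
  · simpa [← Affine.Point.zero_def] using key0 Q
  rcases Q with _ | ⟨x₂, y₂, h₂⟩
  · obtain ⟨c, hc, e⟩ := key0 (.some x₁ y₁ h₁)
    refine ⟨c, hc, ?_⟩
    rw [← Affine.Point.zero_def, Affine.Point.sym2x_comm, e]
    simp
  by_cases hx : x₁ = x₂
  · -- then the two points agree up to sign
    have main : ∀ {x y : F} (h : W.Nonsingular x y), ∃ c : F, c ≠ 0 ∧
        addSubEval W ![x * x, x + x, 1] =
          c • (Affine.Point.some x y h + Affine.Point.some x y h).sym2x 0 := by
      intro x y h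
      by_cases hy : y = W.negY x y
      · refine ⟨_, dupNum_ne_zero h hy, ?_⟩
        rw [Affine.Point.add_self_of_Y_eq hy, Affine.Point.sym2x_zero_zero, addSubEval_eq]
        funext i
        fin_cases i
        · simp; ring
        · have := dupDen_eq h.1
          rw [← hy, sub_self] at this
          simp; linear_combination this
        · simp; ring
      · have hd : y - W.negY x y ≠ 0 := sub_ne_zero.mpr hy
        refine ⟨(y - W.negY x y) ^ 2, pow_ne_zero _ hd, ?_⟩
        rw [Affine.Point.add_self_of_Y_ne hy, Affine.Point.sym2x_some_zero, addSubEval_eq]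
        apply smul_vec3
        · have e : (y - W.negY x y) ^ 2 * W.addX x x (W.slope x x y y) =
              x ^ 4 - W.b₄ * x ^ 2 - 2 * W.b₆ * x - W.b₈ := by
            rw [dupNum_eq h.1, Affine.slope_of_Y_ne rfl hy, Affine.addX]
            simp only [tangentNum]
            field_simp
            ring
          linear_combination -e
        · have e := dupDen_eq h.1
          linear_combination e
        · ring
    subst hx
    obtain ⟨c, hc, e⟩ := main h₁
    refine ⟨c, hc, ?_⟩
    rw [Affine.Point.sym2x_some_some, e]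
    congr 1
    rcases (Affine.Point.X_eq_iff (h₁ := h₁) (h₂ := h₂)).mp rfl with hq | hq
    · rw [← hq, sub_self]
    · rw [eq_comm, neg_eq_iff_eq_neg] at hq
      rw [hq, add_neg_cancel, sub_neg_eq_add, Affine.Point.sym2x_comm]
  · refine ⟨(x₁ - x₂) ^ 2, pow_ne_zero _ (sub_ne_zero.mpr hx), ?_⟩
    have hs := addX_of_X_ne_sum h₁.1 h₂.1 hx
    have hp := addX_of_X_ne_mul h₁.1 h₂.1 hx
    rw [sub_eq_add_neg (Affine.Point.some x₁ y₁ h₁), Affine.Point.neg_some,
      Affine.Point.add_of_X_ne hx,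
      Affine.Point.add_of_X_ne hx, Affine.Point.sym2x_some_some, Affine.Point.sym2x_some_some,
      addSubEval_eq]
    apply smul_vec3
    · linear_combination -hp
    · linear_combination -hs
    · ring

end Fermat.Agent.EC
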