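import Mathlib.Algebra.Polynomial.Degree.Operations
import Mathlib.Tactic.NormNum
import Fermat.Agent.EC.AddSub

/-!
# The `x`-coordinate of `n • P`

`num W n`, `den W n` are polynomials over the coefficient ring, built by the Montgomery ladder
from `addSubMap`, such that `(num W n)(x) : (den W n)(x)` is the `x`-coordinate of `n • (x, y)`
at every nonsingular point of every (possibly singular) cubic.
-/

noncomputable section

namespace Fermat.Agent.EC

open WeierstrassCurve Polynomial

variable {R S : Type*} [CommRing R] [CommRing S]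

/-- Duplication on a representative of the `x`-coordinate. -/
def dupPair (W : WeierstrassCurve R) (p : R[X] × R[X]) : R[X] × R[X] :=
  (p.1 ^ 4 - C W.b₄ * p.1 ^ 2 * p.2 ^ 2 - C (2 * W.b₆) * p.1 * p.2 ^ 3 - C W.b₈ * p.2 ^ 4,
    4 * p.1 ^ 3 * p.2 + C W.b₂ * p.1 ^ 2 * p.2 ^ 2 + C (2 * W.b₄) * p.1 * p.2 ^ 3
      + C W.b₆ * p.2 ^ 4)

/-- Differential addition, the difference being the generic point with `x`-coordinate `X`. -/
def diffPair (W : WeierstrassCurve R) (p q : R[X] × R[X]) : R[X] × R[X] :=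
  let s := p.1 * q.1
  let t := p.1 * q.2 + p.2 * q.1
  let u := p.2 * q.2
  (2 * t * s + C W.b₂ * s * u + C W.b₄ * t * u + C W.b₆ * u ^ 2 - X * (t ^ 2 - 4 * s * u),
    t ^ 2 - 4 * s * u)

/-- Numerator and denominator of the `x`-coordinate of multiplication by `n`. -/
def xMul (W : WeierstrassCurve R) : ℕ → R[X] × R[X]
  | 0 => (1, 0)
  | 1 => (X, 1)
  | n + 2 =>
    if (n + 2) % 2 = 0 then dupPair W (xMul W ((n + 2) / 2))
    else diffPair W (xMul W ((n + 2) / 2)) (xMul W ((n + 2) / 2 + 1))

/-- Numerator of the `x`-coordinate of multiplication by `n`. -/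
def num (W : WeierstrassCurve R) (n : ℕ) : R[X] := (xMul W n).1

/-- Denominator of the `x`-coordinate of multiplication by `n`. -/
def den (W : WeierstrassCurve R) (n : ℕ) : R[X] := (xMul W n).2

variable (W : WeierstrassCurve R)

@[simp] lemma num_zero : num W 0 = 1 := by rw [num, xMul]
@[simp] lemma den_zero : den W 0 = 0 := by rw [den, xMul]
@[simp] lemma num_one : num W 1 = X := by rw [num, xMul]
@[simp] lemma den_one : den W 1 = 1 := by rw [den, xMul]

lemma xMul_two_mul (m : ℕ) : xMul W (2 * m) = dupPair W (xMul W m) := by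
  rcases m with _ | k
  · simp [xMul, dupPair]
  · rw [show 2 * (k + 1) = 2 * k + 2 by omega, xMul, if_pos (by omega),
      show (2 * k + 2) / 2 = k + 1 by omega]

lemma xMul_two_mul_add_one (m : ℕ) :
    xMul W (2 * m + 1) = diffPair W (xMul W m) (xMul W (m + 1)) := by
  rcases m with _ | k
  · rw [Nat.mul_zero, Nat.zero_add, xMul, xMul, diffPair]
    simp
    ring
  · rw [show 2 * (k + 1) + 1 = (2 * k + 1) + 2 by omega, xMul, if_neg (by omega),
      show (2 * k + 1 + 2) / 2 = k + 1 by omega]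

/-- Binary induction adapted to the ladder. -/
lemma ladderInduction {P : ℕ → Prop} (h0 : P 0) (h1 : P 1)
    (heven : ∀ m, 1 ≤ m → P m → P (2 * m))
    (hodd : ∀ m, 1 ≤ m → P m → P (m + 1) → P (2 * m + 1)) (n : ℕ) : P n := by
  induction n using Nat.strong_induction_on with
  | _ n ih =>
    rcases n with _ | _ | k
    · exact h0
    · exact h1
    · rcases Nat.even_or_odd (k + 2) with ⟨m, hm⟩ | ⟨m, hm⟩
      · have := heven m (by omega) (ih m (by omega))
        rwa [show 2 * m = k + 2 by omega] at this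
      · have := hodd m (by omega) (ih m (by omega)) (ih (m + 1) (by omega))
        rwa [← hm] at this

lemma xMul_map (f : R →+* S) (n : ℕ) :
    xMul (W.map f) n = ((num W n).map f, (den W n).map f) := by
  induction n using ladderInduction with
  | h0 => simp [xMul]
  | h1 => simp [xMul]
  | heven m hm ih =>
    rw [xMul_two_mul, ih]
    simp only [num, den, xMul_two_mul, dupPair]
    simp [Polynomial.map_ofNat, map_ofNat f 2]
  | hodd m hm ih ih' =>
    rw [xMul_two_mul_add_one, ih, ih']
    simp only [num, den, xMul_two_mul_add_one, diffPair]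
    simp [Polynomial.map_ofNat]

lemma num_map (f : R →+* S) (n : ℕ) : num (W.map f) n = (num W n).map f := by
  rw [num, xMul_map]

lemma den_map (f : R →+* S) (n : ℕ) : den (W.map f) n = (den W n).map f := by
  rw [den, xMul_map]

/-! ### Degrees and leading coefficients -/

/-- `p` has degree at most `d`, with coefficient `c` in degree `d`. -/
def DegCoeff (p : R[X]) (d : ℕ) (c : R) : Prop :=
  p.natDegree ≤ d ∧ p.coeff d = c

namespace DegCoeff

variable {p q : R[X]} {d e : ℕ} {a b : R}

lemma const (r : R) : DegCoeff (C r) 0 r := ⟨by simp, by simp⟩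
lemma x : DegCoeff (X : R[X]) 1 1 := ⟨natDegree_X_le, coeff_X_one⟩

lemma mul (hp : DegCoeff p d a) (hq : DegCoeff q e b) : DegCoeff (p * q) (d + e) (a * b) :=
  ⟨natDegree_mul_le.trans (Nat.add_le_add hp.1 hq.1),
    by rw [coeff_mul_add_eq_of_natDegree_le hp.1 hq.1, hp.2, hq.2]⟩

lemma pow (hp : DegCoeff p d a) (k : ℕ) : DegCoeff (p ^ k) (k * d) (a ^ k) :=
  ⟨natDegree_pow_le.trans (Nat.mul_le_mul le_rfl hp.1),
    by rw [coeff_pow_of_natDegree_le hp.1, hp.2]⟩

lemma lift (hp : DegCoeff p d a) (h : d < e) : DegCoeff p e 0 :=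
  ⟨hp.1.trans h.le, coeff_eq_zero_of_natDegree_lt (hp.1.trans_lt h)⟩

lemma add (hp : DegCoeff p d a) (hq : DegCoeff q d b) : DegCoeff (p + q) d (a + b) :=
  ⟨(natDegree_add_le _ _).trans (max_le hp.1 hq.1), by rw [coeff_add, hp.2, hq.2]⟩

lemma sub (hp : DegCoeff p d a) (hq : DegCoeff q d b) : DegCoeff (p - q) d (a - b) :=
  ⟨(natDegree_sub_le _ _).trans (max_le hp.1 hq.1), by rw [coeff_sub, hp.2, hq.2]⟩

lemma of_eq (hp : DegCoeff p d a) (h : d = e) (h' : a = b) : DegCoeff p e b := h ▸ h' ▸ hp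

end DegCoeff

lemma degCoeff_xMul {n : ℕ} (hn : 1 ≤ n) :
    DegCoeff (num W n) (n ^ 2) 1 ∧ DegCoeff (den W n) (n ^ 2 - 1) ((n : R) ^ 2) := by
  revert hn
  induction n using ladderInduction with
  | h0 => intro h; omega
  | h1 =>
    intro _
    simpa using (⟨DegCoeff.x, by simpa using DegCoeff.const (1 : R)⟩ :
      DegCoeff (X : R[X]) 1 1 ∧ DegCoeff (1 : R[X]) 0 1)
  | heven m hm ih =>
    intro _
    obtain ⟨hN, hD⟩ := ih hm
    obtain ⟨a, ha⟩ : ∃ a, m ^ 2 = a + 1 :=
      ⟨m ^ 2 - 1, by have := Nat.one_le_pow 2 m hm; omega⟩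
    rw [ha] at hN hD
    rw [Nat.add_sub_cancel] at hD
    have h4 : DegCoeff (4 : R[X]) 0 4 := by simpa only [map_ofNat] using DegCoeff.const (4 : R)
    have e : (2 * m) ^ 2 = 4 * a + 4 := by rw [mul_pow, ha]; ring
    rw [e, num, den, xMul_two_mul, dupPair]
    constructor
    · refine ((((hN.pow 4).of_eq (e := 4 * a + 4) (by ring) (one_pow 4)).sub
        ((((DegCoeff.const W.b₄).mul (hN.pow 2)).mul (hD.pow 2)).lift (by omega))).sub
        ((((DegCoeff.const (2 * W.b₆)).mul hN).mul (hD.pow 3)).lift (by omega))).sub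
        (((DegCoeff.const W.b₈).mul (hD.pow 4)).lift (by omega)) |>.of_eq rfl (by ring)
    · refine (((((h4.mul (hN.pow 3)).mul hD).of_eq (e := 4 * a + 3) (by omega) rfl).add
        ((((DegCoeff.const W.b₂).mul (hN.pow 2)).mul (hD.pow 2)).lift (by omega))).add
        ((((DegCoeff.const (2 * W.b₄)).mul hN).mul (hD.pow 3)).lift (by omega))).add
        (((DegCoeff.const W.b₆).mul (hD.pow 4)).lift (by omega)) |>.of_eq (by omega)
          (by push_cast; ring)
  | hodd m hm ih ih' =>
    intro _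
    obtain ⟨hN, hD⟩ := ih hm
    obtain ⟨hN', hD'⟩ := ih' (by omega)
    obtain ⟨a, ha⟩ : ∃ a, m ^ 2 = a + 1 :=
      ⟨m ^ 2 - 1, by have := Nat.one_le_pow 2 m hm; omega⟩
    obtain ⟨b, hb⟩ : ∃ b, (m + 1) ^ 2 = b + 1 :=
      ⟨(m + 1) ^ 2 - 1, by have := Nat.one_le_pow 2 (m + 1) (by omega); omega⟩
    rw [ha] at hN hD
    rw [hb] at hN' hD'
    rw [Nat.add_sub_cancel] at hD hD'
    have e : (2 * m + 1) ^ 2 = 2 * a + 2 * b + 3 := by nlinarith
    have h4 : DegCoeff (4 : R[X]) 0 4 := by simpa only [map_ofNat] using DegCoeff.const (4 : R)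
    have h2 : DegCoeff (2 : R[X]) 0 2 := by simpa only [map_ofNat] using DegCoeff.const (2 : R)
    rw [e, num, den, xMul_two_mul_add_one, diffPair]
    have hs := (hN.mul hN').of_eq (e := a + b + 2) (by omega) (one_mul (1 : R))
    have ht := ((hN.mul hD').of_eq (e := a + b + 1) (by omega) rfl).add
      ((hD.mul hN').of_eq (e := a + b + 1) (by omega) rfl)
    have hu := hD.mul hD'
    have hU := ((ht.pow 2).of_eq (e := 2 * a + 2 * b + 2) (by omega) rfl).sub
      (((h4.mul hs).mul hu).of_eq (e := 2 * a + 2 * b + 2) (by omega) rfl)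
    constructor
    · refine (((((h2.mul ht).mul hs).of_eq (e := 2 * a + 2 * b + 3) (by omega) rfl).add
        ((((DegCoeff.const W.b₂).mul hs).mul hu).lift (by omega))).add
        ((((DegCoeff.const W.b₄).mul ht).mul hu).lift (by omega))).add
        (((DegCoeff.const W.b₆).mul (hu.pow 2)).lift (by omega)) |>.sub
        ((DegCoeff.x.mul hU).of_eq (e := 2 * a + 2 * b + 3) (by omega) rfl) |>.of_eq rfl
          (by push_cast; ring)
    · exact hU.of_eq (by omega) (by push_cast; ring)

lemma natDegree_num_le (n : ℕ) : (num W n).natDegree ≤ n ^ 2 := by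
  rcases n with _ | n
  · simp
  · exact (degCoeff_xMul W (by omega)).1.1

lemma coeff_num (n : ℕ) : (num W n).coeff (n ^ 2) = 1 := by
  rcases n with _ | n
  · simp
  · exact (degCoeff_xMul W (by omega)).1.2

lemma natDegree_den_le (n : ℕ) : (den W n).natDegree ≤ n ^ 2 - 1 := by
  rcases n with _ | n
  · simp
  · exact (degCoeff_xMul W (by omega)).2.1

lemma coeff_den (n : ℕ) : (den W n).coeff (n ^ 2 - 1) = (n : R) ^ 2 := by
  rcases n with _ | n
  · simp
  · exact (degCoeff_xMul W (by omega)).2.2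

lemma den_ne_zero [NoZeroDivisors R] {n : ℕ} (hn : (n : R) ≠ 0) : den W n ≠ 0 := fun h ↦ by
  have := coeff_den W n
  rw [h, coeff_zero] at this
  exact pow_ne_zero 2 hn this.symm

/-! ### The multiplication formula -/

variable {F : Type*} [Field F] [DecidableEq F] {V : Affine F}

omit [DecidableEq F] in
lemma sym2x_eq (P Q : V.Point) : P.sym2x Q =
    ![P.xRep 0 * Q.xRep 0, P.xRep 0 * Q.xRep 1 + P.xRep 1 * Q.xRep 0, P.xRep 1 * Q.xRep 1] :=
  rfl

/-- The main formula: `(num n)(x) : (den n)(x)` is the `x`-coordinate of `n • (x, y)`. -/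
theorem exists_eval_xMul_eq {x y : F} (h : V.Nonsingular x y) (n : ℕ) :
    ∃ c : F, c ≠ 0 ∧ ![(num V n).eval x, (den V n).eval x] =
      c • (n • Affine.Point.some x y h).xRep := by
  set P := Affine.Point.some x y h
  induction n using ladderInduction with
  | h0 => exact ⟨1, one_ne_zero, by simp⟩
  | h1 => exact ⟨1, one_ne_zero, by simp [P]⟩
  | heven m hm ih =>
    obtain ⟨c, hc, hcm⟩ := ih
    set Q := m • P
    obtain ⟨d, hd, hd'⟩ := addSubEval_sym2x Q Q
    refine ⟨c ^ 4 * d, mul_ne_zero (pow_ne_zero _ hc) hd, ?_⟩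
    have eN : (num V m).eval x = c * Q.xRep 0 := by simpa using congrFun hcm 0
    have eD : (den V m).eval x = c * Q.xRep 1 := by simpa using congrFun hcm 1
    rw [sub_self, sym2x_eq, addSubEval_eq, sym2x_eq, Affine.Point.xRep_zero] at hd'
    have e0 := congrFun hd' 0
    have e1 := congrFun hd' 1
    simp at e0 e1
    rw [show (2 * m) • P = Q + Q by rw [two_mul, add_nsmul], num, den, xMul_two_mul, dupPair]
    rw [num] at eN
    rw [den] at eD
    ext i
    fin_cases i
    · simp [eN, eD]
      linear_combination c ^ 4 * e0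
    · simp [eN, eD]
      linear_combination c ^ 4 * e1
  | hodd m hm ih ih' =>
    obtain ⟨c, hc, hcm⟩ := ih
    obtain ⟨c', hc', hcm'⟩ := ih'
    obtain ⟨d, hd, hd'⟩ := addSubEval_sym2x ((m + 1) • P) (m • P)
    refine ⟨(c * c') ^ 2 * d, mul_ne_zero (pow_ne_zero _ (mul_ne_zero hc hc')) hd, ?_⟩
    have hsub : (m + 1) • P - m • P = P := by rw [add_nsmul, one_nsmul, add_sub_cancel_left]
    have hadd : (m + 1) • P + m • P = (2 * m + 1) • P := by
      rw [← add_nsmul]; congr 1; omega
    rw [hsub, hadd] at hd'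
    set Q := m • P
    set Q' := (m + 1) • P
    have eN : (num V m).eval x = c * Q.xRep 0 := by simpa using congrFun hcm 0
    have eD : (den V m).eval x = c * Q.xRep 1 := by simpa using congrFun hcm 1
    have eN' : (num V (m + 1)).eval x = c' * Q'.xRep 0 := by simpa using congrFun hcm' 0
    have eD' : (den V (m + 1)).eval x = c' * Q'.xRep 1 := by simpa using congrFun hcm' 1
    rw [sym2x_eq, addSubEval_eq, sym2x_eq, show P.xRep = ![x, 1] from rfl] at hd'
    have e1 := congrFun hd' 1
    have e2 := congrFun hd' 2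
    simp at e1 e2
    rw [num, den, xMul_two_mul_add_one, diffPair]
    rw [num] at eN eN'
    rw [den] at eD eD'
    ext i
    fin_cases i
    · simp [eN, eD, eN', eD']
      linear_combination (c * c') ^ 2 * e1 - x * (c * c') ^ 2 * e2
    · simp [eN, eD, eN', eD']
      linear_combination (c * c') ^ 2 * e2

/-- `n • (x, y) = 0` iff the denominator vanishes at `x`. -/
theorem nsmul_eq_zero_iff {x y : F} (h : V.Nonsingular x y) (n : ℕ) :
    n • Affine.Point.some x y h = 0 ↔ (den V n).eval x = 0 := by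
  obtain ⟨c, hc, e⟩ := exists_eval_xMul_eq h n
  have e1 : (den V n).eval x = c * (n • Affine.Point.some x y h).xRep 1 := by
    simpa using congrFun e 1
  rw [e1]
  generalize n • Affine.Point.some x y h = Q
  rcases Q with _ | ⟨a, b, hab⟩
  · simp [← Affine.Point.zero_def]
  · simp [hc, Affine.Point.some_ne_zero]

/-- The `x`-coordinate of `n • (x, y)` when it is affine. -/
theorem num_eq_mul_den_of_nsmul_eq {x y x' y' : F} {h : V.Nonsingular x y}
    {h' : V.Nonsingular x' y'} {n : ℕ}
    (e : n • Affine.Point.some x y h = Affine.Point.some x' y' h') :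
    (num V n).eval x = x' * (den V n).eval x ∧ (den V n).eval x ≠ 0 := by
  obtain ⟨c, hc, ec⟩ := exists_eval_xMul_eq h n
  rw [e, Affine.Point.xRep_some] at ec
  have e0 : (num V n).eval x = c * x' := by simpa using congrFun ec 0
  have e1 : (den V n).eval x = c := by simpa using congrFun ec 1
  exact ⟨by rw [e0, e1, mul_comm], by rwa [e1]⟩

end Fermat.Agent.EC
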