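import Mathlib.Algebra.Field.ZMod
import Mathlib.Algebra.Polynomial.Derivative
import Mathlib.Algebra.Polynomial.FieldDivision
import Mathlib.FieldTheory.Finiteness
import Mathlib.FieldTheory.IsAlgClosed.Basic
import Mathlib.LinearAlgebra.Dimension.Finite
import Mathlib.LinearAlgebra.FreeModule.Finite.Basic
import Fermat.Prelude.Def_FLTPrelim_GaloisRep
import Fermat.Agent.EC.XMul

/-!
# `#E[n] = n²` over an algebraically closed field in which `n ≠ 0`

So the mod `p` representation of an elliptic curve is two dimensional.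
-/

noncomputable section

namespace Fermat.Agent.EC

open WeierstrassCurve Polynomial
open scoped WeierstrassCurve.Affine

variable {K : Type*} [Field K]

/-- Over an algebraically closed field every `x` is the coordinate of a point. -/
lemma exists_equation [IsAlgClosed K] (V : Affine K) (x : K) : ∃ y, V.Equation x y := by
  obtain ⟨y, hy⟩ := IsAlgClosed.exists_root
    (X ^ 2 + C (V.a₁ * x + V.a₃) * X - C (x ^ 3 + V.a₂ * x ^ 2 + V.a₄ * x + V.a₆) : K[X])
    (by
      have h2 : (X ^ 2 + C (V.a₁ * x + V.a₃) * X -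
          C (x ^ 3 + V.a₂ * x ^ 2 + V.a₄ * x + V.a₆) : K[X]).degree = 2 := by compute_degree!
      rw [h2]; decide)
  refine ⟨y, (Affine.equation_iff x y).mpr ?_⟩
  simp at hy
  linear_combination hy

lemma exists_nonsingular [IsAlgClosed K] (V : Affine K) [V.IsElliptic] (x : K) :
    ∃ y, V.Nonsingular x y := by
  obtain ⟨y, hy⟩ := exists_equation V x
  exact ⟨y, Affine.equation_iff_nonsingular.mp hy⟩

lemma den_two (V : WeierstrassCurve K) :
    den V 2 = C 4 * X ^ 3 + C V.b₂ * X ^ 2 + C (2 * V.b₄) * X + C V.b₆ := by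
  have h := xMul_two_mul V 1
  simp only [Nat.mul_one] at h
  rw [den, h, dupPair, xMul]
  simp [map_ofNat]

lemma den_two_ne_zero (V : WeierstrassCurve K) [V.IsElliptic] : den V 2 ≠ 0 := by
  intro h
  rw [den_two] at h
  have h3 := congrArg (coeff · 3) h
  have h2 := congrArg (coeff · 2) h
  have h1 := congrArg (coeff · 1) h
  have h0 := congrArg (coeff · 0) h
  simp [coeff_X, coeff_C] at h3 h2 h1 h0
  have hΔ : V.Δ = 0 := by
    rw [Δ, h2, h0]
    rcases h1 with h | h
    · linear_combination (-4) * V.b₄ ^ 3 * h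
    · rw [h]; ring
  exact V.coe_Δ' ▸ V.Δ'.ne_zero <| hΔ

/-- There is a value `c` over which the fibre of `x ∘ [n]` is reduced and which is not the
`x`-coordinate of a `2`-torsion point. -/
lemma exists_good_value [IsAlgClosed K] (V : Affine K) [V.IsElliptic] [DecidableEq K] {n : ℕ}
    (hn : (n : K) ≠ 0) :
    ∃ c : K, (den V 2).eval c ≠ 0 ∧
      ∀ r : K, (num V n - C c * den V n).IsRoot r →
        ¬ (derivative (num V n - C c * den V n)).IsRoot r := by
  obtain ⟨m, rfl⟩ : ∃ m, n = m + 1 :=
    Nat.exists_eq_add_one_of_ne_zero (by rintro rfl; simp at hn)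
  obtain ⟨a, ha⟩ : ∃ a, (m + 1) ^ 2 = a + 1 :=
    ⟨(m + 1) ^ 2 - 1, by have := Nat.one_le_pow 2 (m + 1) (by omega); omega⟩
  set N := num V (m + 1) with hNdef
  set D := den V (m + 1) with hDdef
  set w := derivative N * D - N * derivative D
  have hN : N.natDegree ≤ a + 1 ∧ N.coeff (a + 1) = 1 :=
    ⟨by rw [← ha]; exact natDegree_num_le V _, by rw [← ha]; exact coeff_num V _⟩
  have hD : D.natDegree ≤ a ∧ D.coeff a = ((m + 1 : ℕ) : K) ^ 2 := by
    have h1 := natDegree_den_le (V : WeierstrassCurve K) (m + 1)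
    have h2 := coeff_den (V : WeierstrassCurve K) (m + 1)
    rw [ha, Nat.add_sub_cancel] at h1 h2
    exact ⟨h1, h2⟩
  have hw : w ≠ 0 := by
    intro hw
    have hc : w.coeff (a + a) = ((m + 1 : ℕ) : K) ^ 2 := by
      have h1 : (derivative N * D).coeff (a + a) = ((a : K) + 1) * ((m + 1 : ℕ) : K) ^ 2 := by
        rw [coeff_mul_add_eq_of_natDegree_le _ hD.1, coeff_derivative, hN.2, hD.2, one_mul]
        exact (natDegree_derivative_le N).trans (by omega)
      have h2 : (N * derivative D).coeff (a + a) = (a : K) * ((m + 1 : ℕ) : K) ^ 2 := by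
        rcases a with _ | b
        · have : derivative D = 0 := derivative_of_natDegree_zero (Nat.le_zero.mp hD.1)
          simp [this]
        · rw [show b + 1 + (b + 1) = (b + 1 + 1) + b by omega,
            coeff_mul_add_eq_of_natDegree_le hN.1, hN.2, coeff_derivative, hD.2, one_mul]
          · push_cast; ring
          · exact (natDegree_derivative_le D).trans (by omega)
      rw [coeff_sub, h1, h2]
      ring
    rw [hw, coeff_zero] at hc
    exact pow_ne_zero 2 hn hc.symm
  classical
  let bad : Finset K :=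
    (den V 2).roots.toFinset ∪ w.roots.toFinset.image (fun r ↦ N.eval r / D.eval r)
  obtain ⟨c, hc⟩ := Infinite.exists_notMem_finset bad
  simp only [bad, Finset.mem_union, Finset.mem_image, Multiset.mem_toFinset, mem_roots hw,
    mem_roots (den_two_ne_zero (V : WeierstrassCurve K)), not_or, not_exists, not_and] at hc
  refine ⟨c, hc.1, fun r hr hr' ↦ ?_⟩
  simp [IsRoot] at hr hr'
  have hD0 : D.eval r ≠ 0 := by
    intro h0
    obtain ⟨y, hy⟩ := exists_nonsingular V r
    obtain ⟨k, hk, e⟩ := exists_eval_xMul_eq hy (m + 1)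
    rw [← hNdef, ← hDdef] at e
    have hN0 : N.eval r = 0 := by rw [h0] at hr; simpa using hr
    rw [h0, hN0] at e
    refine ((m + 1) • Affine.Point.some r y hy).xRep_ne_zero ?_
    funext i
    have := congrFun e i
    fin_cases i <;> simp_all
  refine hc.2 r ?_ ?_
  · simp only [IsRoot, w, eval_sub, eval_mul]
    linear_combination D.eval r * hr' - (derivative D).eval r * hr
  · rw [div_eq_iff hD0]
    linear_combination hr

variable [DecidableEq K] [IsAlgClosed K]

/-- The fibre of `n • ·` over a suitable point has exactly `n²` elements. -/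
theorem exists_card_fiber (V : Affine K) [V.IsElliptic] {n : ℕ} (hn : (n : K) ≠ 0) :
    ∃ Q : V.Point, Nat.card {P : V.Point // n • P = Q} = n ^ 2 := by
  classical
  obtain ⟨c, hc2, hc⟩ := exists_good_value V hn
  obtain ⟨y, hy⟩ := exists_nonsingular V c
  set Q := Affine.Point.some c y hy with hQ
  have hQne : Q ≠ -Q := fun e ↦ hc2 <| by
    rw [← nsmul_eq_zero_iff hy, two_nsmul]
    exact add_eq_zero_iff_eq_neg.mpr e
  set f := num V n - C c * den V n with hf
  have hfdeg : f.natDegree = n ^ 2 ∧ f ≠ 0 := by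
    have hn1 : 1 ≤ n ^ 2 := Nat.one_le_pow _ _ (Nat.pos_of_ne_zero (by rintro rfl; simp at hn))
    have hle : (C c * den V n).natDegree ≤ n ^ 2 - 1 :=
      natDegree_C_mul_le _ _ |>.trans (natDegree_den_le _ _)
    have hco : f.coeff (n ^ 2) = 1 := by
      rw [hf, coeff_sub, coeff_num, coeff_eq_zero_of_natDegree_lt (p := C c * den V n) (by omega),
        sub_zero]
    have hdeg : f.natDegree ≤ n ^ 2 :=
      (natDegree_sub_le _ _).trans (max_le (natDegree_num_le _ _) (by omega))
    exact ⟨le_antisymm hdeg (le_natDegree_of_ne_zero (by rw [hco]; exact one_ne_zero)),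
      fun e ↦ by rw [e, coeff_zero] at hco; exact zero_ne_one hco⟩
  have hnodup : f.roots.Nodup := by
    rw [Multiset.nodup_iff_count_le_one]
    intro r
    rw [count_roots]
    by_contra! hr
    obtain ⟨h1, h2⟩ := (one_lt_rootMultiplicity_iff_isRoot hfdeg.2).mp hr
    exact hc r h1 h2
  have hcard : f.roots.toFinset.card = n ^ 2 := by
    rw [Multiset.toFinset_card_of_nodup hnodup, ← (IsAlgClosed.splits f).natDegree_eq_card_roots,
      hfdeg.1]
  refine ⟨Q, ?_⟩
  have hnz : ∀ P : V.Point, n • P = Q → ∃ x' y' h', P = Affine.Point.some x' y' h' := by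
    rintro (_ | ⟨x', y', h'⟩) e
    · rw [← Affine.Point.zero_def, smul_zero] at e
      exact absurd e.symm (Affine.Point.some_ne_zero hy)
    · exact ⟨x', y', h', rfl⟩
  let φ : {P : V.Point // n • P = Q} → f.roots.toFinset := fun P ↦
    ⟨P.1.xRep 0, by
      obtain ⟨x', y', h', hP⟩ := hnz P.1 P.2
      have e := num_eq_mul_den_of_nsmul_eq (h := h') (h' := hy) (hP ▸ P.2)
      rw [Multiset.mem_toFinset, mem_roots hfdeg.2, hP]
      simp [hf, e.1]⟩
  have hbij : Function.Bijective φ := by
    constructor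
    · rintro ⟨P, hP⟩ ⟨P', hP'⟩ e
      obtain ⟨x₁, y₁, h₁, rfl⟩ := hnz P hP
      obtain ⟨x₂, y₂, h₂, rfl⟩ := hnz P' hP'
      simp [φ] at e
      rcases (Affine.Point.X_eq_iff (h₁ := h₁) (h₂ := h₂)).mp e with e' | e'
      · exact Subtype.ext e'
      · exfalso
        apply hQne
        rw [e'] at hP
        calc Q = n • -Affine.Point.some x₂ y₂ h₂ := hP.symm
          _ = -(n • Affine.Point.some x₂ y₂ h₂) := by rw [smul_neg]
          _ = -Q := by rw [hP']
    · rintro ⟨r, hr⟩
      rw [Multiset.mem_toFinset, mem_roots hfdeg.2] at hr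
      simp [hf] at hr
      obtain ⟨s, hs⟩ := exists_nonsingular V r
      obtain ⟨k, hk, e⟩ := exists_eval_xMul_eq hs n
      have e0 : (num V n).eval r = k * (n • Affine.Point.some r s hs).xRep 0 := by
        simpa using congrFun e 0
      have e1 : (den V n).eval r = k * (n • Affine.Point.some r s hs).xRep 1 := by
        simpa using congrFun e 1
      generalize hR : n • Affine.Point.some r s hs = R at e0 e1
      rcases R with _ | ⟨a, b, hab⟩
      · simp [← Affine.Point.zero_def] at e0 e1
        rw [e0, e1] at hr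
        exact absurd (by linear_combination hr) hk
      · simp at e0 e1
        have hac : a = c := by
          rw [e0, e1] at hr
          apply mul_left_cancel₀ hk
          linear_combination hr
        rcases (Affine.Point.X_eq_iff (h₁ := hab) (h₂ := hy)).mp hac with e' | e'
        · exact ⟨⟨Affine.Point.some r s hs, hR.trans e'⟩, by simp [φ]⟩
        · refine ⟨⟨-Affine.Point.some r s hs, ?_⟩, by simp [φ]⟩
          rw [smul_neg, hR, e', neg_neg]
  rw [Nat.card_eq_of_bijective φ hbij, Nat.card_eq_finsetCard, hcard]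

/-- `#V[n] = n²`. -/
theorem card_nsmul_eq_zero (V : Affine K) [V.IsElliptic] {n : ℕ} (hn : (n : K) ≠ 0) :
    Nat.card {P : V.Point // n • P = 0} = n ^ 2 := by
  obtain ⟨Q, hQ⟩ := exists_card_fiber V hn
  have hpos : 0 < n ^ 2 :=
    Nat.one_le_pow _ _ (Nat.pos_of_ne_zero (by rintro rfl; simp at hn))
  obtain ⟨⟨P₀, hP₀⟩⟩ : Nonempty {P : V.Point // n • P = Q} :=
    (Nat.card_pos_iff.mp (hQ ▸ hpos)).1
  rw [← hQ]
  exact Nat.card_congr
    { toFun := fun P ↦ ⟨P.1 + P₀, by rw [nsmul_add, P.2, hP₀, zero_add]⟩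
      invFun := fun P ↦ ⟨P.1 - P₀, by rw [nsmul_sub, P.2, hP₀, sub_self]⟩
      left_inv := fun P ↦ Subtype.ext (add_sub_cancel_right _ _)
      right_inv := fun P ↦ Subtype.ext (sub_add_cancel _ _) }

variable {F : Type*} [Field F] [Algebra F K]

/-- `#E[n] = n²` over an algebraically closed extension in which `n ≠ 0`. -/
theorem card_torsionBy (E : WeierstrassCurve F) [E.IsElliptic] (n : ℕ) (hn : (n : K) ≠ 0) :
    Nat.card (Submodule.torsionBy ℤ (E⁄K).Point (n : ℤ)) = n ^ 2 := by
  have : (E⁄K).IsElliptic := inferInstanceAs (E.map (algebraMap F K)).IsElliptic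
  rw [← card_nsmul_eq_zero (E⁄K) hn]
  exact Nat.card_congr (Equiv.subtypeEquivRight fun P ↦ by
    rw [Submodule.mem_torsionBy_iff, natCast_zsmul])

/-- The `n`-torsion is finite. -/
theorem finite_torsionBy (E : WeierstrassCurve F) [E.IsElliptic] (n : ℕ) (hn : (n : K) ≠ 0) :
    Finite (Submodule.torsionBy ℤ (E⁄K).Point (n : ℤ)) := by
  refine Nat.finite_of_card_ne_zero ?_
  rw [card_torsionBy E n hn]
  exact pow_ne_zero _ (by rintro rfl; simp at hn)

/-- `E[p]` is a plane over `ZMod p`. -/
theorem finrank_torsionBy (E : WeierstrassCurve F) [E.IsElliptic] (p : ℕ) [Fact p.Prime]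
    (hp : (p : K) ≠ 0) :
    Module.finrank (ZMod p) (Submodule.torsionBy ℤ (E⁄K).Point (p : ℤ)) = 2 := by
  have := finite_torsionBy E p hp
  have h := Module.natCard_eq_pow_finrank (K := ZMod p)
    (V := Submodule.torsionBy ℤ (E⁄K).Point (p : ℤ))
  rw [card_torsionBy E p hp, Nat.card_zmod] at h
  exact (Nat.pow_right_injective (Fact.out : p.Prime).two_le h).symm

theorem nontrivial_torsionBy (E : WeierstrassCurve F) [E.IsElliptic] (p : ℕ) [Fact p.Prime]
    (hp : (p : K) ≠ 0) :
    Nontrivial (Submodule.torsionBy ℤ (E⁄K).Point (p : ℤ)) :=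
  Module.nontrivial_of_finrank_pos (R := ZMod p) (by rw [finrank_torsionBy E p hp]; omega)

end Fermat.Agent.EC
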