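import Mathlib.FieldTheory.Galois.Infinite
import Mathlib.FieldTheory.IntermediateField.Adjoin.Algebra
import Fermat.Prelude.Def_FreyPackage_GaloisRep
import Fermat.Prelude.Def_GaloisRep_Residual
import Fermat.Agent.EC.TorsionCard

/-!
# The Galois action on torsion factors through a finite level

So the mod `p` representation is continuous with finite image.
-/

noncomputable section

namespace Fermat.Agent.EC

open WeierstrassCurve
open scoped WeierstrassCurve.Affine

variable {F K : Type*} [Field F] [Field K] [DecidableEq K] [Algebra F K]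

/-- A Galois element fixes a point iff it fixes both coordinates. -/
lemma smul_some_eq_self_iff (E : WeierstrassCurve F) {x y : K} (h : (E⁄K).Nonsingular x y)
    (σ : K ≃ₐ[F] K) :
    σ • (Affine.Point.some x y h : (E⁄K).Point) = Affine.Point.some x y h ↔ σ x = x ∧ σ y = y := by
  simp [Affine.Point.algEquiv_smul_def, Affine.Point.map_some]

variable [IsAlgClosed K]

/-- There is a finite set of elements of `K` whose fixer acts trivially on `E[n]`. -/
theorem exists_finset_fixing_torsion (E : WeierstrassCurve F) [E.IsElliptic] (n : ℕ)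
    (hn : (n : K) ≠ 0) :
    ∃ s : Finset K, ∀ σ : K ≃ₐ[F] K, (∀ z ∈ s, σ z = z) →
      ∀ P : Submodule.torsionBy ℤ (E⁄K).Point (n : ℤ), σ • P = P := by
  classical
  have := finite_torsionBy E n hn
  have := Fintype.ofFinite (Submodule.torsionBy ℤ (E⁄K).Point (n : ℤ))
  let coords : (E⁄K).Point → Finset K := fun P ↦
    match P with
    | 0 => ∅
    | .some x y _ => {x, y}
  refine ⟨Finset.univ.biUnion fun P : Submodule.torsionBy ℤ (E⁄K).Point (n : ℤ) ↦
    coords P.1, fun σ hσ P ↦ Subtype.ext ?_⟩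
  show σ • P.1 = P.1
  obtain ⟨Q, hQ⟩ := P
  rcases Q with _ | ⟨x, y, h⟩
  · rfl
  · exact (smul_some_eq_self_iff E h σ).mpr
      ⟨hσ x (Finset.mem_biUnion.mpr ⟨_, Finset.mem_univ ⟨_, hQ⟩, by simp [coords]⟩),
        hσ y (Finset.mem_biUnion.mpr ⟨_, Finset.mem_univ ⟨_, hQ⟩, by simp [coords]⟩)⟩

/-- The representation on `E[n]` factors through a finite Galois extension. -/
theorem galoisFactorsThroughFiniteLevel (E : WeierstrassCurve ℚ) [E.IsElliptic] (n : ℕ)
    (hn : n ≠ 0) :
    GaloisFactorsThroughFiniteLevel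
      (Affine.Point.galoisRepModuleEnd (K := AlgebraicClosure ℚ) ℚ E n) := by
  obtain ⟨s, hs⟩ := exists_finset_fixing_torsion (K := AlgebraicClosure ℚ) E n
    (Nat.cast_ne_zero.mpr hn)
  refine ⟨IntermediateField.adjoin ℚ (s : Set (AlgebraicClosure ℚ)), ?_, fun σ hσ ↦ ?_⟩
  · exact IntermediateField.finiteDimensional_adjoin fun x _ ↦
      ((AlgebraicClosure.isAlgebraic ℚ).isAlgebraic x).isIntegral
  · ext P
    exact congrArg Subtype.val
      (hs σ (fun z hz ↦ hσ z (IntermediateField.subset_adjoin ℚ _ hz)) P)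

/-- The kernel of the mod `n` representation is open. -/
theorem isOpen_ker_galoisRep (E : WeierstrassCurve ℚ) [E.IsElliptic] (n : ℕ) (hn : n ≠ 0) :
    IsOpen ((Affine.Point.galoisRep (S := ℚ) (K := AlgebraicClosure ℚ) E n).ker :
      Set (AlgebraicClosure ℚ ≃ₐ[ℚ] AlgebraicClosure ℚ)) := by
  obtain ⟨L, hL, hfix⟩ := galoisFactorsThroughFiniteLevel E n hn
  refine Subgroup.isOpen_mono (H₁ := L.fixingSubgroup) (fun σ hσ ↦ ?_) L.fixingSubgroup_isOpen
  rw [MonoidHom.mem_ker]
  refine LinearEquiv.ext fun P ↦ ?_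
  have := hfix σ ((IntermediateField.mem_fixingSubgroup_iff L σ).mp hσ)
  exact LinearMap.congr_fun this P

/-- The residual representation `E[p]`. -/
def residualRep (E : WeierstrassCurve ℚ) [E.IsElliptic] (p : ℕ) [Fact p.Prime] :
    ResidualGaloisRep (ZMod p) :=
  E.residualGaloisRepOf p
    (card_torsionBy E p (Nat.cast_ne_zero.mpr (Fact.out : p.Prime).ne_zero))
    (galoisFactorsThroughFiniteLevel E p (Fact.out : p.Prime).ne_zero)

end Fermat.Agent.EC
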