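import Mathlib.Algebra.Field.ZMod
import Mathlib.Algebra.GroupWithZero.Basic
import Mathlib.Algebra.Module.Basic
import Mathlib.Algebra.Module.Prod
import Mathlib.Algebra.Ring.Parity
import Mathlib.GroupTheory.OrderOfElement
import Mathlib.Tactic.Abel
import Mathlib.Tactic.FieldSimp
import Mathlib.Tactic.LinearCombination
import Mathlib.Tactic.Ring

/-!
# A partially bilinear antisymmetric function on independent pairs is a power of the determinant

It identifies the Weil pairing in the coordinates of a basis of the torsion.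
-/

namespace Fermat.Agent.EC

/-- The determinant of a pair of vectors. -/
def det₂ {R : Type*} [CommRing R] (u v : R × R) : R := u.1 * v.2 - u.2 * v.1

section

variable {p : ℕ} [Fact p.Prime] {H : Type*} [CommGroup H]

lemma natCast_ne_zero_of_lt {k : ℕ} (h1 : 1 ≤ k) (h2 : k < p) : ((k : ℕ) : ZMod p) ≠ 0 :=
  fun h ↦ by
    rw [ZMod.natCast_eq_zero_iff] at h
    exact absurd (Nat.le_of_dvd (by omega) h) (by omega)

lemma det₂_smul_right (c : ZMod p) (u v : ZMod p × ZMod p) : det₂ u (c • v) = c * det₂ u v := by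
  simp [det₂]; ring

/-- Multiples in the second variable of a partially additive function. -/
lemma apply_natCast_smul (f : ZMod p × ZMod p → ZMod p × ZMod p → H)
    (hadd : ∀ u v w, det₂ u v ≠ 0 → det₂ u w ≠ 0 → det₂ u (v + w) ≠ 0 →
      f u (v + w) = f u v * f u w) {u v : ZMod p × ZMod p} (huv : det₂ u v ≠ 0) :
    ∀ k : ℕ, 1 ≤ k → k < p → f u ((k : ZMod p) • v) = f u v ^ k := by
  intro k
  induction k with
  | zero => omega
  | succ k ih =>
    intro h1 h2
    rcases Nat.eq_zero_or_pos k with rfl | hk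
    · simp
    · have hk0 := natCast_ne_zero_of_lt (p := p) hk (by omega)
      have hk1 := natCast_ne_zero_of_lt (p := p) (k := k + 1) (by omega) h2
      rw [Nat.cast_succ, add_smul, one_smul,
        hadd u _ _ (by rw [det₂_smul_right]; exact mul_ne_zero hk0 huv) huv
          (by rw [← one_smul (ZMod p) v, smul_smul, mul_one, ← add_smul, det₂_smul_right,
                ← Nat.cast_succ]
              exact mul_ne_zero hk1 huv),
        ih hk (by omega), pow_succ]

/-- Scalar multiples in the second variable of a partially additive function. -/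
lemma apply_smul_eq_pow_val (f : ZMod p × ZMod p → ZMod p × ZMod p → H)
    (hadd : ∀ u v w, det₂ u v ≠ 0 → det₂ u w ≠ 0 → det₂ u (v + w) ≠ 0 →
      f u (v + w) = f u v * f u w) {u v : ZMod p × ZMod p} (huv : det₂ u v ≠ 0) {c : ZMod p}
    (hc : c ≠ 0) : f u (c • v) = f u v ^ c.val := by
  conv_lhs => rw [← ZMod.natCast_zmod_val c]
  exact apply_natCast_smul f hadd huv c.val
    (Nat.one_le_iff_ne_zero.mpr (by rwa [Ne, ZMod.val_eq_zero])) (ZMod.val_lt c)

/-- Translating the second variable along the first one multiplies by a fixed factor. -/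
lemma apply_add_natCast_smul (hp : p ≠ 2) (f : ZMod p × ZMod p → ZMod p × ZMod p → H)
    (hadd : ∀ u v w, det₂ u v ≠ 0 → det₂ u w ≠ 0 → det₂ u (v + w) ≠ 0 →
      f u (v + w) = f u v * f u w) {u w : ZMod p × ZMod p} (huw : det₂ u w ≠ 0) (k : ℕ) :
    f u (w + (k : ZMod p) • u) = f u w * (f u (w + u) * (f u w)⁻¹) ^ k := by
  have hdet : ∀ c : ZMod p, det₂ u (w + c • u) = det₂ u w := fun c ↦ by
    simp [det₂]; ring
  induction k with
  | zero => simp
  | succ k ih =>
    have e : w + ((k + 1 : ℕ) : ZMod p) • u + w = (w + (k : ZMod p) • u) + (w + u) := by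
      rw [Nat.cast_succ, add_smul, one_smul]; abel
    have h2 : det₂ u (w + ((k + 1 : ℕ) : ZMod p) • u + w) ≠ 0 := by
      have : det₂ u (w + ((k + 1 : ℕ) : ZMod p) • u + w) = (2 : ℕ) * det₂ u w := by
        simp [det₂]; ring
      rw [this]
      refine mul_ne_zero (natCast_ne_zero_of_lt (by omega) ?_) huw
      have := (Fact.out : p.Prime).two_le
      omega
    have a1 := hadd u (w + ((k + 1 : ℕ) : ZMod p) • u) w (by rwa [hdet]) huw h2
    have a2 := hadd u (w + (k : ZMod p) • u) (w + u) (by rwa [hdet])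
      (by have := hdet 1; rw [one_smul] at this; rwa [this]) (by rwa [← e])
    rw [e, a2, ih] at a1
    rw [eq_mul_inv_of_mul_eq a1.symm, pow_succ]
    simp only [mul_assoc]

/-- A partially additive function in the second variable takes `p`-th roots of unity as values. -/
theorem pow_eq_one_of_add (hp : p ≠ 2) (f : ZMod p × ZMod p → ZMod p × ZMod p → H)
    (hadd : ∀ u v w, det₂ u v ≠ 0 → det₂ u w ≠ 0 → det₂ u (v + w) ≠ 0 →
      f u (v + w) = f u v * f u w) {u v : ZMod p × ZMod p} (huv : det₂ u v ≠ 0) :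
    f u v ^ p = 1 := by
  have hpp : p.Prime := Fact.out
  have hp3 : 3 ≤ p := by have := hpp.two_le; omega
  have natne := fun k h1 h2 ↦ natCast_ne_zero_of_lt (p := p) (k := k) h1 h2
  have scal := det₂_smul_right (p := p)
  have hmul := apply_natCast_smul f hadd huv
  have h2 := natne 2 (by omega) (by omega)
  have h1 := natne (p - 1) (by omega) (by omega)
  have e : ((p - 1 : ℕ) : ZMod p) + (2 : ℕ) = 1 := by
    rw [← Nat.cast_add, show p - 1 + 2 = p + 1 by omega, Nat.cast_succ, ZMod.natCast_self,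
      zero_add]
  have key := hadd u (((p - 1 : ℕ) : ZMod p) • v) (((2 : ℕ) : ZMod p) • v)
    (by rw [scal]; exact mul_ne_zero h1 huv) (by rw [scal]; exact mul_ne_zero h2 huv)
    (by rw [← add_smul, e, one_smul]; exact huv)
  rw [← add_smul, e, one_smul, hmul _ (by omega) (by omega),
    hmul _ (by omega) (by omega), ← pow_add, show p - 1 + 2 = p + 1 by omega,
    pow_succ] at key
  exact (mul_eq_right.mp key.symm)

/-- For `u` independent of `e = (1, 0)`, if `f (u + c e, e)` does not depend on `c` then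
`f (u, e + u) = f (u, e)`. -/
lemma apply_add_self_eq (hp : p ≠ 2) (f : ZMod p × ZMod p → ZMod p × ZMod p → H)
    (hadd : ∀ u v w, det₂ u v ≠ 0 → det₂ u w ≠ 0 → det₂ u (v + w) ≠ 0 →
      f u (v + w) = f u v * f u w)
    (hswap : ∀ u v, det₂ u v ≠ 0 → f v u = (f u v)⁻¹) {u : ZMod p × ZMod p} (hu : u.2 ≠ 0)
    {y : H} (hbase : ∀ c : ZMod p, f (u + c • (1, 0)) (1, 0) = y) :
    f u ((1, 0) + u) * (f u (1, 0))⁻¹ = 1 := by
  have hpp : p.Prime := Fact.out
  have hp3 : 3 ≤ p := by have := hpp.two_le; omega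
  have natne := fun k h1 h2 ↦ natCast_ne_zero_of_lt (p := p) (k := k) h1 h2
  have hpow : ∀ u v, det₂ u v ≠ 0 → f u v ^ p = 1 := fun u v ↦ pow_eq_one_of_add hp f hadd
  have hval := fun u v (huv : det₂ u v ≠ 0) c ↦ apply_smul_eq_pow_val f hadd huv (c := c)
  have hdet : ∀ c : ZMod p, det₂ (u + c • (1, 0)) (1, 0) = -u.2 := fun c ↦ by simp [det₂]
  have hu1 : ∀ c : ZMod p, det₂ (u + c • (1, 0)) (1, 0) ≠ 0 := fun c ↦ by
    rw [hdet]; exact neg_ne_zero.mpr hu
  let d : ℕ → H := fun k ↦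
    f (u + (k : ZMod p) • (1, 0)) ((1, 0) + (u + (k : ZMod p) • (1, 0))) *
      (f (u + (k : ZMod p) • (1, 0)) (1, 0))⁻¹
  have hrec : ∀ k, d (k + 1) = (d k)⁻¹ := by
    intro k
    set w := u + (k : ZMod p) • ((1, 0) : ZMod p × ZMod p) with hw
    have hw' : u + ((k + 1 : ℕ) : ZMod p) • ((1, 0) : ZMod p × ZMod p) = (1, 0) + w := by
      rw [hw, Nat.cast_succ, add_smul, one_smul]; abel
    have hw2 : w.2 = u.2 := by simp [hw]
    have d1 : det₂ ((1, 0) + w) (((2 : ℕ) : ZMod p) • (1, 0)) ≠ 0 := by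
      simp [det₂, hw2, hu]
      exact fun h ↦ natne 2 (by omega) (by omega) (by simpa using h)
    have d2 : det₂ ((1, 0) + w) w ≠ 0 := by
      have : det₂ ((1, 0) + w) w = u.2 := by rw [← hw2]; simp [det₂]; ring
      rwa [this]
    have d3 : det₂ ((1, 0) + w) (((2 : ℕ) : ZMod p) • (1, 0) + w) ≠ 0 := by
      have : det₂ ((1, 0) + w) (((2 : ℕ) : ZMod p) • (1, 0) + w) = -u.2 := by
        rw [← hw2]; simp [det₂]; ring
      rw [this]; exact neg_ne_zero.mpr hu
    have hb := hbase ((k + 1 : ℕ) : ZMod p)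
    rw [hw'] at hb
    have key := hadd _ _ _ d1 d2 d3
    rw [show ((2 : ℕ) : ZMod p) • ((1, 0) : ZMod p × ZMod p) + w = (1, 0) + ((1, 0) + w) by
        rw [Nat.cast_two, two_smul]; abel,
      hval _ _ (hw' ▸ hu1 _) _ (natne 2 (by omega) (by omega)), hb,
      ZMod.val_cast_of_lt (show 2 < p by omega),
      hswap w ((1, 0) + w) (fun h ↦ d2 (by rw [det₂] at h ⊢; linear_combination -h))] at key
    show f _ _ * _⁻¹ = _
    rw [hw', key, hb, show d k = f w ((1, 0) + w) * (f w (1, 0))⁻¹ from rfl, hbase]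
    simp [pow_two, mul_comm, mul_left_comm]
  have hsign : ∀ k, d k = if k % 2 = 0 then d 0 else (d 0)⁻¹ := by
    intro k
    induction k with
    | zero => simp
    | succ k ih =>
      rw [hrec, ih]
      rcases Nat.mod_two_eq_zero_or_one k with h | h <;> simp [Nat.add_mod, h]
  have hsq : d 0 = (d 0)⁻¹ := by
    have h1 : d p = d 0 := by simp [d]
    have := hsign p
    rw [h1, if_neg (by rw [(hpp.odd_of_ne_two hp |> Nat.odd_iff.mp)]; omega)] at this
    exact this
  have hd0 : d 0 = f u ((1, 0) + u) * (f u (1, 0))⁻¹ := by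
    simp [d, Prod.mk_zero_zero]
  have hu0 : det₂ u (1, 0) ≠ 0 := by simpa using hu1 0
  have hu10 : det₂ u ((1, 0) + u) ≠ 0 := by
    have : det₂ u ((1, 0) + u) = det₂ u (1, 0) := by simp [det₂]; ring
    rwa [this]
  have hd1 : d 0 = 1 := by
    have h2 : d 0 ^ 2 = 1 := by rw [pow_two]; nth_rw 2 [hsq]; exact mul_inv_cancel _
    have hpd : d 0 ^ p = 1 := by
      rw [hd0, mul_pow, inv_pow, hpow _ _ hu10, hpow _ _ hu0, inv_one, mul_one]
    rw [← pow_one (d 0), ← orderOf_dvd_iff_pow_eq_one]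
    have := (Nat.coprime_primes Nat.prime_two hpp).mpr (Ne.symm hp)
    exact this ▸ Nat.dvd_gcd (orderOf_dvd_of_pow_eq_one h2) (orderOf_dvd_of_pow_eq_one hpd)
  exact hd0 ▸ hd1

/-- A partially bilinear antisymmetric `f` with `f (1, 0) (1, 1) = f (1, 0) (0, 1)` is a power
of the determinant on independent pairs. -/
theorem eq_pow_det₂ (hp : p ≠ 2) (f : ZMod p × ZMod p → ZMod p × ZMod p → H)
    (hadd : ∀ u v w, det₂ u v ≠ 0 → det₂ u w ≠ 0 → det₂ u (v + w) ≠ 0 →
      f u (v + w) = f u v * f u w)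
    (hswap : ∀ u v, det₂ u v ≠ 0 → f v u = (f u v)⁻¹)
    (hD : f (1, 0) (1, 1) = f (1, 0) (0, 1)) :
    f (1, 0) (0, 1) ^ p = 1 ∧
      ∀ u v, det₂ u v ≠ 0 → f u v = f (1, 0) (0, 1) ^ (det₂ u v).val := by
  have hpp : p.Prime := Fact.out
  have hp3 : 3 ≤ p := by have := hpp.two_le; omega
  have natne := fun k h1 h2 ↦ natCast_ne_zero_of_lt (p := p) (k := k) h1 h2
  have hpow : ∀ u v, det₂ u v ≠ 0 → f u v ^ p = 1 := fun u v ↦ pow_eq_one_of_add hp f hadd
  have hval := fun u v (huv : det₂ u v ≠ 0) c ↦ apply_smul_eq_pow_val f hadd huv (c := c)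
  have haff := fun u w (huw : det₂ u w ≠ 0) ↦ apply_add_natCast_smul hp f hadd huw
  set z := f (1, 0) (0, 1) with hz
  have hzp : z ^ p = 1 := hpow _ _ (by simp [det₂])
  have zmul : ∀ a b : ZMod p, z ^ (a * b).val = (z ^ a.val) ^ b.val := fun a b ↦ by
    rw [← pow_mul, ZMod.val_mul, ← pow_eq_pow_mod _ hzp]
  have zneg : ∀ a : ZMod p, z ^ (-a).val = (z ^ a.val)⁻¹ := fun a ↦ by
    refine eq_inv_of_mul_eq_one_left ?_
    rw [← pow_add, pow_eq_pow_mod _ hzp, ← ZMod.val_add, neg_add_cancel, ZMod.val_zero, pow_zero]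
  -- the first basis vector
  have hP : ∀ v : ZMod p × ZMod p, v.2 ≠ 0 → f (1, 0) v = z ^ v.2.val := by
    intro v hv
    have hbase : ∀ c : ZMod p, f (1, 0) ((0, 1) + c • (1, 0)) = z := fun c ↦ by
      rw [← ZMod.natCast_zmod_val c, haff _ _ (by simp [det₂])]
      have : ((0, 1) + (1, 0) : ZMod p × ZMod p) = (1, 1) := by simp
      rw [this, hD, mul_inv_cancel, one_pow, mul_one]
    have e : v = v.2 • ((0, 1) + (v.1 * v.2⁻¹) • (1, 0)) := by
      ext <;> simp [mul_comm v.2, hv]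
    conv_lhs => rw [e]
    rw [hval _ _ (by simp [det₂]) _ hv, hbase]
  refine ⟨hzp, fun u v huv ↦ ?_⟩
  rcases eq_or_ne u.2 0 with hu | hu
  · have hu1 : u.1 ≠ 0 := fun h ↦ huv (by simp [det₂, hu, h])
    have hv : v.2 ≠ 0 := fun h ↦ huv (by simp [det₂, hu, h])
    have e : u = u.1 • (1, 0) := by ext <;> simp [hu]
    have : f v (1, 0) = (z ^ v.2.val)⁻¹ := by rw [hswap _ _ (by simpa [det₂] using hv), hP v hv]
    have h2 : f v u = ((z ^ v.2.val)⁻¹) ^ u.1.val := by
      conv_lhs => rw [e]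
      rw [hval _ _ (by simpa [det₂] using hv) _ hu1, this]
    have h3 : det₂ v u ≠ 0 := by simp [det₂, hu, hv, hu1]
    rw [hswap v u h3, h2, inv_pow, inv_inv, ← zmul]
    congr 2
    simp [det₂, hu]; ring
  · -- `u` independent of the first basis vector
    have hdet : ∀ c : ZMod p, det₂ (u + c • (1, 0)) (1, 0) = -u.2 := fun c ↦ by simp [det₂]
    have hu1 : ∀ c : ZMod p, det₂ (u + c • (1, 0)) (1, 0) ≠ 0 := fun c ↦ by
      rw [hdet]; exact neg_ne_zero.mpr hu
    have hbase : ∀ c : ZMod p, f (u + c • (1, 0)) (1, 0) = (z ^ u.2.val)⁻¹ := fun c ↦ by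
      have h := hswap (1, 0) (u + c • (1, 0)) (by simpa [det₂] using hu)
      rw [h, hP _ (by simpa using hu)]
      simp
    have hu0 : det₂ u (1, 0) ≠ 0 := by simpa using hu1 0
    have hd1 : f u ((1, 0) + u) * (f u (1, 0))⁻¹ = 1 :=
      apply_add_self_eq hp f hadd hswap hu hbase
    have hc : ∀ c : ZMod p, f u ((1, 0) + c • u) = (z ^ u.2.val)⁻¹ := fun c ↦ by
      rw [← ZMod.natCast_zmod_val c, haff _ _ hu0, hd1, one_pow, mul_one]
      simpa using hbase 0
    set j := v.2 * u.2⁻¹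
    set i := v.1 - j * u.1
    have hi : i * u.2 = -det₂ u v := by simp [i, j, det₂]; field_simp
    have hi0 : i ≠ 0 := fun h ↦ huv (by rw [← neg_eq_zero, ← hi, h, zero_mul])
    have e : v = i • ((1, 0) + (j * i⁻¹) • u) := by
      rw [smul_add, smul_smul, show i * (j * i⁻¹) = j by field_simp]
      ext
      · simp [i]
      · simp [j, mul_assoc, inv_mul_cancel₀ hu]
    conv_lhs => rw [e]
    rw [hval _ _ (by
      have : det₂ u ((1, 0) + (j * i⁻¹) • u) = det₂ u (1, 0) := by simp [det₂]; ring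
      rwa [this]) _ hi0, hc, inv_pow, ← zmul, ← zneg]
    congr 2
    linear_combination -hi

end

end Fermat.Agent.EC
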