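import Fermat.Agent.EC.WeilReciprocity

/-!
# The Weil pairing on independent `p`-torsion points

`weil V p P Q = - f_P(Q) / f_Q(P)` for the normalised Miller functions.  It is additive in each
variable (where defined) and antisymmetric by definition.
-/

noncomputable section

namespace Fermat.Agent.EC

open WeierstrassCurve Polynomial
open Affine.CoordinateRing (XClass YClass)

variable {K : Type*} [Field K] {V : Affine K}

open Classical in
/-- The Miller pair of a point, or junk. -/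
def millerPair (V : Affine K) (p : ℕ) : V.Point → K[X] × K[X]
  | 0 => (0, 0)
  | .some x y _ => if h : ∃ ab : K[X] × K[X], IsMiller V p x y ab.1 ab.2 then h.choose else (0, 0)

/-- Evaluation of a pair at a point. -/
def fAt (f : K[X] × K[X]) : V.Point → K
  | 0 => 0
  | .some x y _ => pairEval f.1 f.2 x y

/-- The Weil pairing, meaningful for `p`-torsion points with different abscissae. -/
def weil (V : Affine K) (p : ℕ) (P Q : V.Point) : K :=
  -(fAt (millerPair V p P) Q / fAt (millerPair V p Q) P)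

lemma weil_swap (p : ℕ) (P Q : V.Point) : weil V p Q P = (weil V p P Q)⁻¹ := by
  rw [weil, weil, inv_neg, inv_div]

lemma millerPair_eq {p : ℕ} (hodd : Odd p) {x y : K} {h : V.Nonsingular x y} {a b : K[X]}
    (hf : IsMiller V p x y a b) : millerPair V p (.some x y h) = (a, b) := by
  have he : ∃ ab : K[X] × K[X], IsMiller V p x y ab.1 ab.2 := ⟨(a, b), hf⟩
  simp only [millerPair]
  rw [dif_pos he]
  obtain ⟨h₁, h₂⟩ := he.choose_spec.unique hodd hf h
  exact Prod.ext h₁ h₂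

variable [DecidableEq K]

/-- The chosen pair is a Miller function. -/
lemma isMiller_millerPair {p : ℕ} (hodd : Odd p) {x y : K}
    (h : V.Nonsingular x y) (hpP : p • Affine.Point.some x y h = 0) :
    IsMiller V p x y (millerPair V p (.some x y h)).1 (millerPair V p (.some x y h)).2 := by
  obtain ⟨a, b, hf⟩ := exists_isMiller hodd h (ne_negY_of_odd hodd h hpP) hpP
  rwa [millerPair_eq hodd hf]

lemma fAt_ne_zero {p : ℕ} (hodd : Odd p) {x y : K} {h : V.Nonsingular x y}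
    (hpP : p • Affine.Point.some x y h = 0) {x' y' : K} {h' : V.Nonsingular x' y'}
    (hx : x' ≠ x) :
    fAt (millerPair V p (.some x y h)) (Affine.Point.some x' y' h' : V.Point) ≠ 0 :=
  (isMiller_millerPair hodd h hpP).eval_ne_zero h'.1 hx

lemma weil_ne_zero {p : ℕ} (hodd : Odd p) {x y x' y' : K}
    {h : V.Nonsingular x y} {h' : V.Nonsingular x' y'}
    (hpP : p • Affine.Point.some x y h = 0) (hpQ : p • Affine.Point.some x' y' h' = 0)
    (hx : x' ≠ x) : weil V p (.some x y h) (.some x' y' h') ≠ 0 :=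
  neg_ne_zero.mpr (div_ne_zero (fAt_ne_zero hodd hpP hx) (fAt_ne_zero hodd hpQ hx.symm))

variable [IsAlgClosed K]

omit [IsAlgClosed K] in
lemma lineProd_chord (a b : K[X]) {x₁ y₁ x₂ y₂ : K} (h₁ : V.Equation x₁ y₁)
    (h₂ : V.Equation x₂ y₂) (hxy : ¬(x₁ = x₂ ∧ y₁ = V.negY x₂ y₂)) :
    let ℓ := V.slope x₁ x₂ y₁ y₂
    lineProd V a b ℓ (y₁ - ℓ * x₁) =
      pairEval a b x₁ y₁ * pairEval a b x₂ y₂ *
        pairEval a b (V.addX x₁ x₂ ℓ) (V.negY (V.addX x₁ x₂ ℓ) (V.addY x₁ x₂ y₁ ℓ)) := by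
  intro ℓ
  have hL : Affine.linePolynomial x₁ y₁ ℓ = linePoly ℓ (y₁ - ℓ * x₁) := by
    rw [Affine.linePolynomial, linePoly, C_sub, C_mul]; ring
  have hC : lineCubic V ℓ (y₁ - ℓ * x₁) =
      (X - C x₁) * (X - C x₂) * (X - C (V.addX x₁ x₂ ℓ)) := by
    have h := Affine.addPolynomial_slope h₁ h₂ hxy
    rw [Affine.addPolynomial, hL] at h
    have : V.polynomial.eval (linePoly ℓ (y₁ - ℓ * x₁)) = -lineCubic V ℓ (y₁ - ℓ * x₁) := by
      rw [Affine.polynomial, lineCubic, cubicRHS, linY]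
      simp only [eval_sub, eval_add, eval_pow, eval_X, eval_C, eval_mul]
      ring
    rw [this] at h
    exact neg_injective h
  have hne : ∀ r : K, (X - C r : K[X]) ≠ 0 := X_sub_C_ne_zero
  rw [lineProd, hC, roots_mul (mul_ne_zero (mul_ne_zero (hne _) (hne _)) (hne _)),
    roots_mul (mul_ne_zero (hne _) (hne _)), roots_X_sub_C, roots_X_sub_C, roots_X_sub_C]
  simp only [Multiset.map_add, Multiset.map_singleton, Multiset.prod_add, Multiset.prod_singleton]
  have e₁ : ℓ * x₁ + (y₁ - ℓ * x₁) = y₁ := by ring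
  have e₂ : ℓ * x₂ + (y₁ - ℓ * x₁) = y₂ := by
    by_cases hx : x₁ = x₂
    · subst hx
      rw [e₁]
      exact Affine.Y_eq_of_Y_ne h₁ h₂ rfl fun h ↦ hxy ⟨rfl, h⟩
    · have hd : x₁ - x₂ ≠ 0 := sub_ne_zero.mpr hx
      simp only [ℓ, Affine.slope_of_X_ne hx]
      field_simp
      ring
  have e₃ : ℓ * V.addX x₁ x₂ ℓ + (y₁ - ℓ * x₁) =
      V.negY (V.addX x₁ x₂ ℓ) (V.addY x₁ x₂ y₁ ℓ) := by
    rw [Affine.addY, Affine.negY_negY, Affine.negAddY]; ring
  rw [e₁, e₂, e₃]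

/-- Additivity of the pairing in the first variable. -/
theorem weil_add_left {p : ℕ} (hodd : Odd p) {x₁ y₁ x₂ y₂ x₃ y₃ x y : K}
    {h₁ : V.Nonsingular x₁ y₁} {h₂ : V.Nonsingular x₂ y₂} {h₃ : V.Nonsingular x₃ y₃}
    {h : V.Nonsingular x y}
    (hsum : Affine.Point.some x₁ y₁ h₁ + .some x₂ y₂ h₂ = .some x₃ y₃ h₃)
    (t₁ : p • Affine.Point.some x₁ y₁ h₁ = 0) (t₂ : p • Affine.Point.some x₂ y₂ h₂ = 0)
    (t : p • Affine.Point.some x y h = 0) (n₁ : x ≠ x₁) (n₂ : x ≠ x₂) (n₃ : x ≠ x₃) :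
    weil V p (.some x₃ y₃ h₃) (.some x y h) =
      weil V p (.some x₁ y₁ h₁) (.some x y h) * weil V p (.some x₂ y₂ h₂) (.some x y h) := by
  have t₃ : p • Affine.Point.some x₃ y₃ h₃ = 0 := by rw [← hsum, nsmul_add, t₁, t₂, add_zero]
  by_cases hxy : x₁ = x₂ ∧ y₁ = V.negY x₂ y₂
  · rw [Affine.Point.add_of_Y_eq hxy.1 hxy.2] at hsum
    exact absurd hsum.symm (Affine.Point.some_ne_zero _)
  rw [Affine.Point.add_some hxy, Affine.Point.some.injEq] at hsum
  obtain ⟨rfl, rfl⟩ := hsum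
  set ℓ := V.slope x₁ x₂ y₁ y₂ with hℓ
  have f₁ := isMiller_millerPair hodd h₁ t₁
  have f₂ := isMiller_millerPair hodd h₂ t₂
  have f₃ := isMiller_millerPair hodd h₃ t₃
  have f := isMiller_millerPair hodd h t
  have hm := congrArg (evalAt h.1) (miller_add hodd h₁ h₂ hxy f₁ f₂ f₃)
  simp only [map_mul, map_pow, evalAt_mkPair, evalAt_mk_XClass, evalAt_mk_YClass,
    Affine.linePolynomial, eval_add, eval_mul, eval_sub, eval_X, eval_C] at hm
  have hr := lineProd_eq hodd f h ℓ (y₁ - ℓ * x₁)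
  rw [lineProd_chord _ _ h₁.1 h₂.1 hxy] at hr
  have hv := pairEval_mul_negY h₃.1 (millerPair V p (.some x y h)).1
    (millerPair V p (.some x y h)).2
  rw [f.norm, eval_neg, eval_pow, eval_sub, eval_X, eval_C, ← hodd.neg_pow, neg_sub] at hv
  have d₁ := fAt_ne_zero (h' := h₁) hodd t n₁.symm
  have d₂ := fAt_ne_zero (h' := h₂) hodd t n₂.symm
  have d₃ := fAt_ne_zero (h' := h₃) hodd t n₃.symm
  simp only [weil, fAt] at d₁ d₂ d₃ ⊢
  rw [neg_mul_neg, div_mul_div_comm, eq_comm, ← neg_div, div_eq_div_iff (mul_ne_zero d₁ d₂) d₃]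
  apply mul_left_cancel₀ (pow_ne_zero p (sub_ne_zero.mpr n₃))
  have hL : ℓ * x + (y₁ - ℓ * x₁) - y = -(y - (ℓ * (x - x₁) + y₁)) := by ring
  rw [hL, hodd.neg_pow] at hr
  set g₁ := pairEval (millerPair V p (.some x y h)).1 (millerPair V p (.some x y h)).2 x₁ y₁
  set g₂ := pairEval (millerPair V p (.some x y h)).1 (millerPair V p (.some x y h)).2 x₂ y₂
  set g₃ := pairEval (millerPair V p (.some x y h)).1 (millerPair V p (.some x y h)).2
    (V.addX x₁ x₂ ℓ) (V.addY x₁ x₂ y₁ ℓ)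
  set F₃ := pairEval (millerPair V p (.some _ _ h₃)).1 (millerPair V p (.some _ _ h₃)).2 x y
  linear_combination g₃ * hm + F₃ * g₃ * hr - F₃ * g₁ * g₂ * hv

end Fermat.Agent.EC
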