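import Mathlib.Data.ZMod.Basic
import Fermat.Agent.EC.Alternating
import Fermat.Agent.EC.WeilPairing

/-!
# The pairing in the coordinates of a basis of the `p`-torsion

It is the form in which the pairing is compared under reduction.
-/

noncomputable section

namespace Fermat.Agent.EC

open WeierstrassCurve

section Hom

variable {G H : Type*} [AddCommGroup G] [AddCommGroup H] {p : ℕ}

/-- The map `(a, b) ↦ a P + b Q`. -/
def pairHom {P Q : G} (hP : p • P = 0) (hQ : p • Q = 0) : ZMod p × ZMod p →+ G :=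
  (ZMod.lift p ⟨zmultiplesHom G P, by simpa using hP⟩).coprod
    (ZMod.lift p ⟨zmultiplesHom G Q, by simpa using hQ⟩)

variable [NeZero p] {P Q : G} (hP : p • P = 0) (hQ : p • Q = 0)

lemma pairHom_apply (u : ZMod p × ZMod p) :
    pairHom hP hQ u = u.1.val • P + u.2.val • Q := by
  obtain ⟨a, b⟩ := u
  conv_lhs => rw [← ZMod.natCast_zmod_val a, ← ZMod.natCast_zmod_val b]
  simp only [pairHom, AddMonoidHom.coprod_apply, ← Int.cast_natCast (R := ZMod p), ZMod.lift_coe,
    zmultiplesHom_apply, natCast_zsmul]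

lemma pairHom_one_zero [Fact (1 < p)] : pairHom hP hQ (1, 0) = P := by
  simp [pairHom_apply, ZMod.val_one]

lemma pairHom_zero_one [Fact (1 < p)] : pairHom hP hQ (0, 1) = Q := by
  simp [pairHom_apply, ZMod.val_one]

lemma pairHom_one_one [Fact (1 < p)] : pairHom hP hQ (1, 1) = P + Q := by
  simp [pairHom_apply, ZMod.val_one]

omit [NeZero p] in
lemma nsmul_pairHom (u : ZMod p × ZMod p) : p • pairHom hP hQ u = 0 := by
  rw [← map_nsmul, show p • u = 0 by ext <;> simp, map_zero]

omit [NeZero p] in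
lemma pairHom_injective_of_subgroup [Fact p.Prime] (S : AddSubgroup G) (hPS : P ∈ S)
    (hQS : Q ∉ S) (hP0 : P ≠ 0) : Function.Injective (pairHom hP hQ) := by
  have hpp : p.Prime := Fact.out
  have : NeZero p := ⟨hpp.ne_zero⟩
  rw [injective_iff_map_eq_zero]
  rintro ⟨a, b⟩ h
  rw [pairHom_apply] at h
  have hb : b = 0 := by
    by_contra hb
    apply hQS
    have hbQ : b.val • Q ∈ S := by
      rw [eq_neg_of_add_eq_zero_right h]
      exact neg_mem (S.nsmul_mem hPS _)
    have hinv : b⁻¹.val * b.val = (b⁻¹.val * b.val) / p * p + 1 := by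
      conv_lhs => rw [← Nat.div_add_mod' (b⁻¹.val * b.val) p]
      rw [← ZMod.val_mul, inv_mul_cancel₀ hb, ZMod.val_one]
    have := S.nsmul_mem hbQ b⁻¹.val
    rwa [← mul_nsmul', hinv, add_nsmul, one_nsmul, mul_nsmul', hQ, nsmul_zero,
      zero_add] at this
  subst hb
  simp only [ZMod.val_zero, zero_smul, add_zero] at h
  have ha : a = 0 := by
    rw [← ZMod.natCast_zmod_val a, ZMod.natCast_eq_zero_iff]
    have ho : addOrderOf P = p :=
      (hpp.eq_one_or_self_of_dvd _ (addOrderOf_dvd_of_nsmul_eq_zero hP)).resolve_left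
        fun h ↦ hP0 (AddMonoid.addOrderOf_eq_one_iff.mp h)
    have hd := addOrderOf_dvd_of_nsmul_eq_zero h
    rwa [ho] at hd
  rw [ha]
  rfl

end Hom

variable {K : Type*} [Field K] [DecidableEq K] {V : Affine K} {p : ℕ} [Fact p.Prime]
variable {P Q : V.Point} {hP : p • P = 0} {hQ : p • Q = 0}

/-- Independent coordinates give points with distinct abscissae. -/
lemma exists_coords_pairHom (hinj : Function.Injective (pairHom hP hQ))
    {u v : ZMod p × ZMod p} (huv : det₂ u v ≠ 0) :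
    ∃ x y h x' y' h', pairHom hP hQ u = Affine.Point.some x y h ∧
      pairHom hP hQ v = Affine.Point.some x' y' h' ∧ x' ≠ x := by
  have h0 : ∀ w, pairHom hP hQ w = 0 → w = 0 := fun w hw ↦ hinj (hw.trans (map_zero _).symm)
  rcases eu : pairHom hP hQ u with _ | ⟨x, y, h⟩
  · exact absurd (by simp [det₂, h0 u eu]) huv
  rcases ev : pairHom hP hQ v with _ | ⟨x', y', h'⟩
  · exact absurd (by simp [det₂, h0 v ev]) huv
  refine ⟨x, y, h, x', y', h', rfl, rfl, fun e ↦ ?_⟩
  subst e
  rcases Affine.Y_eq_of_X_eq h'.1 h.1 rfl with e | e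
  · subst e
    have := hinj (eu.trans ev.symm)
    exact huv (by simp [det₂, this]; ring)
  · subst e
    have := hinj (a₁ := v) (a₂ := -u) (by rw [map_neg, eu, ev, Affine.Point.neg_some])
    exact huv (by simp [det₂, this]; ring)

variable [IsAlgClosed K]

/-- The pairing in coordinates, as a unit. -/
def weilCoord (hP : p • P = 0) (hQ : p • Q = 0) (u v : ZMod p × ZMod p) : Kˣ :=
  if h : weil V p (pairHom hP hQ u) (pairHom hP hQ v) ≠ 0 then Units.mk0 _ h else 1

omit [IsAlgClosed K] in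
lemma coe_weilCoord (hodd : Odd p) (hinj : Function.Injective (pairHom hP hQ))
    {u v : ZMod p × ZMod p} (huv : det₂ u v ≠ 0) :
    (weilCoord hP hQ u v : K) = weil V p (pairHom hP hQ u) (pairHom hP hQ v) := by
  obtain ⟨x, y, h, x', y', h', eu, ev, hne⟩ := exists_coords_pairHom hinj huv
  have hne0 : weil V p (pairHom hP hQ u) (pairHom hP hQ v) ≠ 0 := by
    rw [eu, ev]
    exact weil_ne_zero hodd (eu ▸ nsmul_pairHom hP hQ u) (ev ▸ nsmul_pairHom hP hQ v) hne
  rw [weilCoord, dif_pos hne0, Units.val_mk0]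

omit [IsAlgClosed K] in
lemma weilCoord_swap (hodd : Odd p) (hinj : Function.Injective (pairHom hP hQ))
    {u v : ZMod p × ZMod p} (huv : det₂ u v ≠ 0) :
    weilCoord hP hQ v u = (weilCoord hP hQ u v)⁻¹ := by
  have hvu : det₂ v u ≠ 0 := fun h ↦ huv (by simp only [det₂] at h ⊢; linear_combination -h)
  ext
  rw [Units.val_inv_eq_inv_val, coe_weilCoord hodd hinj hvu, coe_weilCoord hodd hinj huv,
    weil_swap]

lemma weilCoord_add (hodd : Odd p) (hinj : Function.Injective (pairHom hP hQ))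
    {u v w : ZMod p × ZMod p} (huv : det₂ u v ≠ 0) (huw : det₂ u w ≠ 0)
    (hu : det₂ u (v + w) ≠ 0) :
    weilCoord hP hQ u (v + w) = weilCoord hP hQ u v * weilCoord hP hQ u w := by
  rw [← inv_inj, mul_inv, ← weilCoord_swap hodd hinj hu, ← weilCoord_swap hodd hinj huv,
    ← weilCoord_swap hodd hinj huw]
  have sym : ∀ {a b : ZMod p × ZMod p}, det₂ a b ≠ 0 → det₂ b a ≠ 0 := fun h h' ↦
    h (by simp only [det₂] at h' ⊢; linear_combination -h')
  ext
  rw [Units.val_mul, coe_weilCoord hodd hinj (sym hu), coe_weilCoord hodd hinj (sym huv),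
    coe_weilCoord hodd hinj (sym huw)]
  obtain ⟨x, y, h, x₁, y₁, h₁, eu, ev, n₁⟩ := exists_coords_pairHom hinj huv
  obtain ⟨x', y', h', x₂, y₂, h₂, eu', ew, n₂⟩ := exists_coords_pairHom hinj huw
  obtain ⟨x'', y'', h'', x₃, y₃, h₃, eu'', evw, n₃⟩ := exists_coords_pairHom hinj hu
  obtain ⟨rfl, rfl⟩ := Affine.Point.some.inj (eu.symm.trans eu')
  obtain ⟨rfl, rfl⟩ := Affine.Point.some.inj (eu.symm.trans eu'')
  rw [eu, ev, ew, evw]
  exact weil_add_left hodd (by rw [← ev, ← ew, ← evw, map_add])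
    (ev ▸ nsmul_pairHom hP hQ v) (ew ▸ nsmul_pairHom hP hQ w) (eu ▸ nsmul_pairHom hP hQ u)
    n₁.symm n₂.symm n₃.symm

/-- The pairing of independent torsion points is a `p`-th root of unity. -/
theorem weil_pairHom_pow (hodd : Odd p) (hinj : Function.Injective (pairHom hP hQ))
    {u v : ZMod p × ZMod p} (huv : det₂ u v ≠ 0) :
    weil V p (pairHom hP hQ u) (pairHom hP hQ v) ^ p = 1 := by
  have hp2 : p ≠ 2 := by rintro rfl; exact absurd hodd (by decide)
  rw [← coe_weilCoord hodd hinj huv, ← Units.val_pow_eq_pow_val,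
    pow_eq_one_of_add hp2 (weilCoord hP hQ) (fun _ _ _ ↦ weilCoord_add hodd hinj) huv,
    Units.val_one]

/-- The pairing is a power of the determinant. -/
theorem weil_pairHom_eq (hodd : Odd p) (hinj : Function.Injective (pairHom hP hQ))
    (hD : weil V p P (P + Q) = weil V p P Q) {u v : ZMod p × ZMod p} (huv : det₂ u v ≠ 0) :
    weil V p (pairHom hP hQ u) (pairHom hP hQ v) = weil V p P Q ^ (det₂ u v).val := by
  have hp2 : p ≠ 2 := by rintro rfl; exact absurd hodd (by decide)
  have : Fact (1 < p) := ⟨(Fact.out : p.Prime).one_lt⟩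
  have e₁ : det₂ ((1 : ZMod p), (0 : ZMod p)) (0, 1) ≠ 0 := by simp [det₂]
  have e₂ : det₂ ((1 : ZMod p), (0 : ZMod p)) (1, 1) ≠ 0 := by simp [det₂]
  obtain ⟨-, h⟩ := eq_pow_det₂ hp2 (weilCoord hP hQ) (fun _ _ _ ↦ weilCoord_add hodd hinj)
    (fun _ _ ↦ weilCoord_swap hodd hinj) (by
      ext
      rw [coe_weilCoord hodd hinj e₂, coe_weilCoord hodd hinj e₁, pairHom_one_zero,
        pairHom_one_one, pairHom_zero_one, hD])
  rw [← coe_weilCoord hodd hinj huv, h u v huv, Units.val_pow_eq_pow_val,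
    coe_weilCoord hodd hinj e₁, pairHom_one_zero, pairHom_zero_one]

end Fermat.Agent.EC
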