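import Fermat.Agent.EC.Reduction
import Fermat.Agent.EC.WeilPairing

/-!
# Functoriality of Miller functions and of the Weil pairing under ring maps and reduction

It moves the pairing from a curve to its reductions.
-/

noncomputable section

namespace Fermat.Agent.EC

open WeierstrassCurve Polynomial IsLocalRing

/-- The norm form over an arbitrary ring. -/
def normPoly {R : Type*} [CommRing R] (W : WeierstrassCurve R) (a b : R[X]) : R[X] :=
  a ^ 2 - a * b * (C W.a₁ * X + C W.a₃) - b ^ 2 * (X ^ 3 + C W.a₂ * X ^ 2 + C W.a₄ * X + C W.a₆)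

lemma normPoly_map {R S : Type*} [CommRing R] [CommRing S] (f : R →+* S) (W : WeierstrassCurve R)
    (a b : R[X]) : normPoly (W.map f) (a.map f) (b.map f) = (normPoly W a b).map f := by
  simp [normPoly]

lemma normForm_eq_normPoly {K : Type*} [Field K] (V : Affine K) (a b : K[X]) :
    normForm V a b = normPoly V a b := rfl

variable {K K' : Type*} [Field K] [Field K']

lemma pairEval_map (φ : K →+* K') (a b : K[X]) (x y : K) :
    pairEval (a.map φ) (b.map φ) (φ x) (φ y) = φ (pairEval a b x y) := by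
  simp [pairEval, eval_map_apply]

lemma IsMiller.map {V : Affine K} (φ : K →+* K') {V' : Affine K'}
    (hV : (V.map φ).toAffine = V') {m : ℕ} {x y : K} {a b : K[X]} (h : IsMiller V m x y a b) :
    IsMiller V' m (φ x) (φ y) (a.map φ) (b.map φ) := by
  subst hV
  refine ⟨?_, ?_, ?_⟩
  · rw [normForm_eq_normPoly]
    exact (normPoly_map φ V a b).trans (by rw [← normForm_eq_normPoly, h.norm]; simp)
  · rw [leadingCoeff_map_of_injective φ.injective, h.lead, map_one]
  · rw [show Affine.negY (V.map φ) (φ x) (φ y) = φ (V.negY x y) from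
      Affine.map_negY (W' := V) (f := φ) x y, pairEval_map]
    exact (_root_.map_ne_zero φ).mpr h.ne

/-- The pairing commutes with field embeddings. -/
lemma weil_map [DecidableEq K] {V : Affine K} (φ : K →+* K') {V' : Affine K'}
    (hV : (V.map φ).toAffine = V') {p : ℕ} (hodd : Odd p) {x y x' y' : K}
    {h : V.Nonsingular x y} {h' : V.Nonsingular x' y'}
    (t : p • Affine.Point.some x y h = 0) (t' : p • Affine.Point.some x' y' h' = 0)
    {H : V'.Nonsingular (φ x) (φ y)} {H' : V'.Nonsingular (φ x') (φ y')} :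
    weil V' p (.some (φ x) (φ y) H) (.some (φ x') (φ y') H') =
      φ (weil V p (.some x y h) (.some x' y' h')) := by
  have e := millerPair_eq (h := H) hodd ((isMiller_millerPair hodd h t).map φ hV)
  have e' := millerPair_eq (h := H') hodd ((isMiller_millerPair hodd h' t').map φ hV)
  simp only [weil, fAt, e, e', pairEval_map, map_neg, map_div₀]

variable {L : Type*} [Field L] {A : ValuationSubring L}
variable {V : Affine L} {Vb : Affine (ResidueField A)}

/-- The coefficientwise residue of a polynomial. -/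
def resPoly (A : ValuationSubring L) (a : L[X]) : (ResidueField A)[X] :=
  ∑ i ∈ Finset.range (a.natDegree + 1), C (res A (a.coeff i)) * X ^ i

lemma coeff_resPoly (a : L[X]) (i : ℕ) : (resPoly A a).coeff i = res A (a.coeff i) := by
  simp only [resPoly, finsetSum_coeff, coeff_C_mul, coeff_X_pow, mul_ite, mul_one, mul_zero,
    Finset.sum_ite_eq, Finset.mem_range]
  split_ifs with h
  · rfl
  · rw [coeff_eq_zero_of_natDegree_lt (by omega), res_zero]

lemma resPoly_map (a : A[X]) : resPoly A (a.map A.subtype) = a.map (residue A) := by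
  ext i
  rw [coeff_resPoly, coeff_map, coeff_map, A.subtype_apply, res_coe]

lemma exists_lift_of_coeff_mem {a : L[X]} (h : ∀ i, a.coeff i ∈ A) :
    ∃ a₀ : A[X], a₀.map A.subtype = a :=
  (mem_lifts a).mp ((lifts_iff_coeff_lifts a).mpr fun i ↦ ⟨⟨a.coeff i, h i⟩, rfl⟩)

/-- The coefficients of a function with norm `-(X - x)^m` are integral. -/
lemma coeff_mem_of_norm (hV : IsReduction A V Vb) {m : ℕ} {x : L} (hx : x ∈ A) {a b : L[X]}
    (hn : normForm V a b = -(X - C x) ^ m) :
    (∀ i, a.coeff i ∈ A) ∧ ∀ i, b.coeff i ∈ A := by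
  classical
  set s : Finset L := (Finset.range (a.natDegree + 1)).image a.coeff ∪
    (Finset.range (b.natDegree + 1)).image b.coeff
  have hs : b.coeff b.natDegree ∈ s := Finset.mem_union_right _
    (Finset.mem_image_of_mem _ (Finset.self_mem_range_succ _))
  obtain ⟨c, hc, hmax⟩ := Finset.exists_max_image s A.valuation ⟨_, hs⟩
  have hall : ∀ z, (∃ i, a.coeff i = z ∨ b.coeff i = z) → A.valuation z ≤ A.valuation c := by
    rintro z ⟨i, hz | hz⟩
    · rcases eq_or_ne z 0 with rfl | h0
      · simp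
      · exact hmax z (Finset.mem_union_left _ (Finset.mem_image.mpr ⟨i, Finset.mem_range.mpr
          (Nat.lt_succ_of_le (le_natDegree_of_ne_zero (hz ▸ h0))), hz⟩))
    · rcases eq_or_ne z 0 with rfl | h0
      · simp
      · exact hmax z (Finset.mem_union_right _ (Finset.mem_image.mpr ⟨i, Finset.mem_range.mpr
          (Nat.lt_succ_of_le (le_natDegree_of_ne_zero (hz ▸ h0))), hz⟩))
  by_cases hcA : c ∈ A
  · have key : ∀ z, A.valuation z ≤ A.valuation c → z ∈ A := fun z hz ↦
      (A.valuation_le_one_iff z).mp (hz.trans ((A.valuation_le_one_iff c).mpr hcA))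
    exact ⟨fun i ↦ key _ (hall _ ⟨i, Or.inl rfl⟩), fun i ↦ key _ (hall _ ⟨i, Or.inr rfl⟩)⟩
  exfalso
  have hc0 : c ≠ 0 := ne_zero_of_notMem hcA
  have hsc : ∀ z, A.valuation z ≤ A.valuation c → c⁻¹ * z ∈ A := by
    intro z hz
    rw [← A.valuation_le_one_iff, map_mul, map_inv₀]
    exact inv_mul_le_one₀ (zero_lt_iff.mpr ((_root_.map_ne_zero _).mpr hc0)) |>.mpr hz
  obtain ⟨a₀, ha₀⟩ := exists_lift_of_coeff_mem (a := C c⁻¹ * a) (A := A) fun i ↦ by
    rw [coeff_C_mul]; exact hsc _ (hall _ ⟨i, Or.inl rfl⟩)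
  obtain ⟨b₀, hb₀⟩ := exists_lift_of_coeff_mem (a := C c⁻¹ * b) (A := A) fun i ↦ by
    rw [coeff_C_mul]; exact hsc _ (hall _ ⟨i, Or.inr rfl⟩)
  obtain ⟨W₀, rfl, rfl⟩ := hV
  let c' : A := ⟨c⁻¹, inv_mem_of_notMem hcA⟩
  have hN : normPoly W₀ a₀ b₀ = -(C (c' ^ 2) * (X - C ⟨x, hx⟩) ^ m) := by
    apply map_injective A.subtype Subtype.val_injective
    rw [← normPoly_map, ha₀, hb₀, Polynomial.map_neg, Polynomial.map_mul, Polynomial.map_pow,
      Polynomial.map_sub, map_X, map_C, map_C, map_pow, A.subtype_apply, A.subtype_apply]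
    have : normPoly (W₀.map A.subtype) (C c⁻¹ * a) (C c⁻¹ * b) =
        C (c⁻¹ ^ 2) * normPoly (W₀.map A.subtype) a b := by
      simp only [normPoly, C_pow]; ring
    rw [this, show normPoly (W₀.map A.subtype) a b = -(X - C x) ^ m from hn]
    simp [c']
  have h0 := congrArg (Polynomial.map (residue A)) hN
  rw [← normPoly_map, Polynomial.map_neg, Polynomial.map_mul, map_C, map_pow] at h0
  have hc' : residue A c' = 0 := by rw [← res_eq A]; exact res_inv_of_notMem hcA
  rw [hc', zero_pow two_ne_zero, C_0, zero_mul, neg_zero] at h0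
  refine normForm_ne_zero (V := (W₀.map (residue A)).toAffine) ?_
    (h0 : normForm (W₀.map (residue A)).toAffine _ _ = 0)
  rintro ⟨ha, hb⟩
  simp only [s, Finset.mem_union, Finset.mem_image] at hc
  have one : ∀ (q : L[X]) (q₀ : A[X]), q₀.map A.subtype = C c⁻¹ * q →
      q₀.map (residue A) = 0 → ∀ i, q.coeff i ≠ c := by
    intro q q₀ e e0 i hi
    have h1 := congrArg (coeff · i) e
    simp only [coeff_map, coeff_C_mul, hi, inv_mul_cancel₀ hc0, A.subtype_apply] at h1
    have h2 := congrArg (coeff · i) e0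
    simp only [coeff_map, coeff_zero, show q₀.coeff i = 1 from Subtype.ext h1, map_one] at h2
    exact one_ne_zero h2
  rcases hc with ⟨i, -, hi⟩ | ⟨i, -, hi⟩
  · exact one a a₀ ha₀ ha i hi
  · exact one b b₀ hb₀ hb i hi

/-- Reduction of a normalised function with norm `-(X - x)^m`. -/
lemma norm_resPoly (hV : IsReduction A V Vb) {m : ℕ} {x : L} (hx : x ∈ A) {a b : L[X]}
    (hn : normForm V a b = -(X - C x) ^ m) (hl : b.leadingCoeff = 1) :
    normForm Vb (resPoly A a) (resPoly A b) = -(X - C (res A x)) ^ m ∧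
      (resPoly A b).leadingCoeff = 1 := by
  obtain ⟨ha, hb⟩ := coeff_mem_of_norm hV hx hn
  obtain ⟨a₀, rfl⟩ := exists_lift_of_coeff_mem ha
  obtain ⟨b₀, rfl⟩ := exists_lift_of_coeff_mem hb
  obtain ⟨W₀, rfl, rfl⟩ := hV
  have hN : normPoly W₀ a₀ b₀ = -(X - C ⟨x, hx⟩) ^ m := by
    apply map_injective A.subtype Subtype.val_injective
    rw [← normPoly_map]
    exact hn.trans (by simp)
  refine ⟨?_, ?_⟩
  · rw [resPoly_map, resPoly_map, normForm_eq_normPoly]
    refine (normPoly_map _ W₀ a₀ b₀).trans ?_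
    simp [hN, res_eq A hx]
  · rw [leadingCoeff_map_of_injective (f := A.subtype) Subtype.val_injective] at hl
    have h1 : b₀.leadingCoeff = 1 := Subtype.ext hl
    rw [resPoly_map]
    exact Monic.map _ h1

lemma pairEval_res {a b : L[X]} (ha : ∀ i, a.coeff i ∈ A) (hb : ∀ i, b.coeff i ∈ A) {x y : L}
    (hx : x ∈ A) (hy : y ∈ A) :
    pairEval a b x y ∈ A ∧
      res A (pairEval a b x y) = pairEval (resPoly A a) (resPoly A b) (res A x) (res A y) := by
  obtain ⟨a₀, rfl⟩ := exists_lift_of_coeff_mem ha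
  obtain ⟨b₀, rfl⟩ := exists_lift_of_coeff_mem hb
  have e : pairEval (a₀.map A.subtype) (b₀.map A.subtype) x y =
      ((a₀.eval ⟨x, hx⟩ + b₀.eval ⟨x, hx⟩ * ⟨y, hy⟩ : A) : L) := by
    have hxx : ∀ q : A[X], (q.map A.subtype).eval x = A.subtype (q.eval ⟨x, hx⟩) :=
      fun q ↦ eval_map_apply A.subtype ⟨x, hx⟩
    rw [pairEval, hxx, hxx]
    simp
  rw [e, res_coe, resPoly_map, resPoly_map, res_eq A hx, res_eq A hy]
  exact ⟨Subtype.coe_prop _, by simp [pairEval, eval_map_apply]⟩

variable [DecidableEq L]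

/-- Integrality and reduction of the Miller function of a torsion point. -/
lemma millerPair_res (hV : IsReduction A V Vb) {p : ℕ} (hp : p.Prime) (hodd : Odd p) {x y : L}
    {h : V.Nonsingular x y} (t : p • Affine.Point.some x y h = 0) (hx : x ∈ A) (hy : y ∈ A) :
    let f := millerPair V p (.some x y h)
    (∀ i, f.1.coeff i ∈ A) ∧ (∀ i, f.2.coeff i ∈ A) ∧
      normForm Vb (resPoly A f.1) (resPoly A f.2) = -(X - C (res A x)) ^ p ∧
      (resPoly A f.2).leadingCoeff = 1 ∧
      pairEval (resPoly A f.1) (resPoly A f.2) (res A x) (res A y) = 0 := by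
  intro f
  have hf := isMiller_millerPair hodd h t
  obtain ⟨ha, hb⟩ := coeff_mem_of_norm hV hx hf.norm
  obtain ⟨h1, h2⟩ := norm_resPoly hV hx hf.norm hf.lead
  refine ⟨ha, hb, h1, h2, ?_⟩
  rw [← (pairEval_res ha hb hx hy).2]
  have := pairEval_mul_negY h.1 f.1 f.2
  rw [hf.norm] at this
  simp [hp.ne_zero] at this
  rw [this.resolve_right hf.ne, res_zero]

variable [DecidableEq (ResidueField A)]

/-- The reduction of a Miller function is the Miller function of the reduced point. -/
lemma isMiller_res (hV : IsReduction A V Vb) {p : ℕ} (hp : p.Prime) (hodd : Odd p) {x y : L}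
    {h : V.Nonsingular x y} (t : p • Affine.Point.some x y h = 0)
    (hu : UnitPt Vb (.some x y h)) :
    IsMiller Vb p (res A x) (res A y) (resPoly A (millerPair V p (.some x y h)).1)
      (resPoly A (millerPair V p (.some x y h)).2) := by
  obtain ⟨hx, hy, hs⟩ := hu
  obtain ⟨-, -, h1, h2, h3⟩ := millerPair_res hV hp hodd t hx hy
  refine isMiller_of_norm hp hodd hs ?_ h1 h2 h3
  rw [← red_some hx hy hs (h := h),
      ← red_nsmul hV (P := Affine.Point.some x y h) (Or.inr ⟨hx, hy, hs⟩), t, red_zero]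

/-- The pairing commutes with reduction. -/
lemma weil_res (hV : IsReduction A V Vb) {p : ℕ} (hp : p.Prime) (hodd : Odd p) {x y x' y' : L}
    {h : V.Nonsingular x y} {h' : V.Nonsingular x' y'}
    (t : p • Affine.Point.some x y h = 0) (t' : p • Affine.Point.some x' y' h' = 0)
    (u : UnitPt Vb (.some x y h)) (u' : UnitPt Vb (.some x' y' h'))
    (hx : res A x' ≠ res A x) :
    weil V p (.some x y h) (.some x' y' h') ∈ A ∧
      res A (weil V p (.some x y h) (.some x' y' h')) =
        weil Vb p (.some _ _ u.2.2) (.some _ _ u'.2.2) := by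
  have hf := isMiller_res hV hp hodd t u
  have hf' := isMiller_res hV hp hodd t' u'
  obtain ⟨ha, hb, -⟩ := millerPair_res hV hp hodd t u.1 u.2.1
  obtain ⟨ha', hb', -⟩ := millerPair_res hV hp hodd t' u'.1 u'.2.1
  obtain ⟨m1, e1⟩ := pairEval_res ha hb u'.1 u'.2.1
  obtain ⟨m2, e2⟩ := pairEval_res ha' hb' u.1 u.2.1
  have hne : res A (pairEval (millerPair V p (.some x' y' h')).1
      (millerPair V p (.some x' y' h')).2 x y) ≠ 0 := by
    rw [e2]; exact hf'.eval_ne_zero u.2.2.1 hx.symm
  simp only [weil, fAt, millerPair_eq hodd hf, millerPair_eq hodd hf']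
  refine ⟨neg_mem (div_mem_of_res_ne_zero m1 m2 hne), ?_⟩
  rw [res_neg (div_mem_of_res_ne_zero m1 m2 hne), res_div m1 m2 hne, e1, e2]

end Fermat.Agent.EC
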