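import Fermat.Agent.EC.Nodal
import Fermat.Agent.EC.WeilFrame
import Fermat.Agent.EC.WeilReduction

/-!
# The pairing on a curve with nodal reduction is non-trivial and alternating

This is the special fibre case of non-degeneracy.
-/

noncomputable section

namespace Fermat.Agent.EC

open WeierstrassCurve Polynomial IsLocalRing

section RootsOfUnityRes

variable {L : Type*} [Field L] {A : ValuationSubring L}

lemma mem_of_pow_eq_one {z : L} {n : ℕ} (hn : n ≠ 0) (hz : z ^ n = 1) : z ∈ A := by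
  rw [← A.valuation_le_one_iff]
  have h := congrArg A.valuation hz
  rw [map_pow, map_one] at h
  exact ((pow_eq_one_iff_left hn).mp h).le

lemma eq_of_res_eq_of_pow_eq_one {n : ℕ} (hn : (n : ResidueField A) ≠ 0) {z w : L}
    (hz : z ^ n = 1) (hw : w ^ n = 1) (h : res A z = res A w) : z = w := by
  have hn0 : n ≠ 0 := by rintro rfl; simp at hn
  have hw0 : w ≠ 0 := by rintro rfl; simp [hn0] at hw
  by_contra hne
  set ζ := z / w with hζdef
  have hζ : ζ ^ n = 1 := by rw [hζdef, div_pow, hz, hw, div_one]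
  have hζ1 : ζ ≠ 1 := fun e ↦ hne ((div_eq_one_iff_eq hw0).mp e)
  have hsum : ∑ i ∈ Finset.range n, ζ ^ i = 0 := by
    rw [geom_sum_eq hζ1, hζ, sub_self, zero_div]
  have hmem := mem_of_pow_eq_one (A := A) hn0 hζ
  have hwu : res A w ≠ 0 := by
    intro e
    have := res_pow (A := A) (mem_of_pow_eq_one hn0 hw) n
    rw [hw, e, zero_pow hn0, ← Nat.cast_one, res_natCast, Nat.cast_one] at this
    exact one_ne_zero this
  have hres : residue A ⟨ζ, hmem⟩ = 1 := by
    rw [← res_eq A hmem, hζdef, res_div (mem_of_pow_eq_one hn0 hz) (mem_of_pow_eq_one hn0 hw) hwu,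
      h, div_self hwu]
  have hsumA : ∑ i ∈ Finset.range n, (⟨ζ, hmem⟩ : A) ^ i = 0 := Subtype.ext (by simpa using hsum)
  have := congrArg (residue A) hsumA
  simp only [map_sum, map_pow, hres, one_pow, Finset.sum_const, Finset.card_range, nsmul_one,
    map_zero] at this
  exact hn this

end RootsOfUnityRes

section NodalU

variable {k : Type*} [Field k]

/-- The parameter `u` of a point of the nodal cubic. -/
def nodalU : (nodal k).Point → k
  | 0 => 1
  | .some x y _ => y / x / (y / x + 1)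

variable [DecidableEq k] [IsAlgClosed k]

lemma nodalU_pow {p : ℕ} (hodd : Odd p) {P : (nodal k).Point} (hP : p • P = 0) :
    nodalU P ^ p = 1 := by
  rcases P with _ | ⟨x, y, h⟩
  · exact one_pow p
  · exact (nodal_torsion_param hodd hP).2.1

lemma nodalU_injOn {p : ℕ} (hodd : Odd p) {P Q : (nodal k).Point}
    (hP : p • P = 0) (hQ : p • Q = 0) (h : nodalU P = nodalU Q) : P = Q := by
  rcases P with _ | ⟨x, y, hx⟩ <;> rcases Q with _ | ⟨x', y', hx'⟩
  · rfl
  · exact absurd h.symm (nodal_torsion_param hodd hQ).2.2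
  · exact absurd h (nodal_torsion_param hodd hP).2.2
  · obtain ⟨a1, -, -⟩ := nodal_torsion_param hodd hP
    obtain ⟨b1, -, -⟩ := nodal_torsion_param hodd hQ
    simp only [nodalU] at h
    rw [div_eq_div_iff a1 b1] at h
    obtain ⟨he, hx0⟩ := (nodal_nonsingular_iff _ _).mp hx
    obtain ⟨he', hx0'⟩ := (nodal_nonsingular_iff _ _).mp hx'
    have ht : y / x = y' / x' := by linear_combination h
    obtain ⟨e1, e2⟩ := nodal_param he hx0
    obtain ⟨e1', e2'⟩ := nodal_param he' hx0'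
    rw [ht] at e1 e2
    rw [← e1'] at e1
    rw [← e2'] at e2
    subst e1; subst e2
    rfl

end NodalU

variable {L : Type*} [Field L] [DecidableEq L] [IsAlgClosed L] {A : ValuationSubring L}
variable {V : Affine L} [DecidableEq (ResidueField A)]
variable (hV : IsReduction A V (nodal (ResidueField A)))
include hV

/-- A `p`-torsion point with singular reduction. -/
lemma exists_torsion_at_node {p : ℕ} (hp : p.Prime) (hodd : Odd p)
    (hpk : (p : ResidueField A) ≠ 0) (hΔ : V.Δ ≠ 0) :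
    ∃ Q : V.Point, p • Q = 0 ∧ ¬ InZero (nodal (ResidueField A)) Q := by
  classical
  have : V.IsElliptic := ⟨hΔ.isUnit⟩
  by_contra hcon
  push Not at hcon
  have hpL : (p : L) ≠ 0 := fun h ↦ hpk (by rw [← res_natCast (A := A), h, res_zero])
  let g : {P : V.Point // p • P = 0} → (nthRootsFinset p (1 : ResidueField A)) := fun P ↦
    ⟨nodalU (red _ P.1), (mem_nthRootsFinset hp.pos _).mpr (nodalU_pow hodd
      (by rw [← red_nsmul hV (hcon _ P.2), P.2, red_zero]))⟩
  have hg : Function.Injective g := fun P Q h ↦ Subtype.ext <|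
    red_injOn_torsion hV hpk (hcon _ P.2) (hcon _ Q.2) P.2 Q.2 <|
      nodalU_injOn hodd (by rw [← red_nsmul hV (hcon _ P.2), P.2, red_zero])
        (by rw [← red_nsmul hV (hcon _ Q.2), Q.2, red_zero]) (congrArg Subtype.val h)
  have h1 := Nat.card_le_card_of_injective g hg
  rw [card_nsmul_eq_zero V hpL, Nat.card_eq_finsetCard] at h1
  have h2 : (nthRootsFinset p (1 : ResidueField A)).card ≤ p := by
    rw [nthRootsFinset_def]
    exact (Multiset.toFinset_card_le _).trans (card_nthRoots _ _)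
  have := hp.two_le
  nlinarith

omit [IsAlgClosed L] in
/-- A torsion point with singular reduction reduces to the node. -/
lemma coords_of_not_inZero {p : ℕ} (hpk : (p : ResidueField A) ≠ 0) {R : V.Point}
    (hR : p • R = 0) (hn : ¬ InZero (nodal (ResidueField A)) R) :
    ∃ x y h, R = Affine.Point.some x y h ∧ x ∈ A ∧ y ∈ A ∧ res A x = 0 ∧ res A y = 0 := by
  rcases R with _ | ⟨x, y, h⟩
  · exact absurd (Or.inl inKer_zero) hn
  obtain ⟨hx, hy⟩ := torsion_mem hV hpk hR
  have he := hV.equation_res hx hy h.1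
  have hx0 : res A x = 0 := by
    by_contra h0
    exact hn (Or.inr ⟨hx, hy, (nodal_nonsingular_iff _ _).mpr ⟨he, h0⟩⟩)
  refine ⟨x, y, h, rfl, hx, hy, hx0, ?_⟩
  rw [nodal_equation_iff, hx0] at he
  simpa using he

omit [DecidableEq (ResidueField A)] in
/-- The Miller function of a point at the node, in the parameter. -/
lemma node_fun {p : ℕ} (hp : p.Prime) (hodd : Odd p) {x y : L} {h : V.Nonsingular x y}
    (t : p • Affine.Point.some x y h = 0) (hx : x ∈ A) (hy : y ∈ A) (hx0 : res A x = 0) :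
    ∃ i j : ℕ, 1 ≤ i ∧ 1 ≤ j ∧ i + j = p ∧ ∀ (X Y : L) (s : ResidueField A), X ∈ A → Y ∈ A →
      res A X = s ^ 2 + s → res A Y = s ^ 3 + s ^ 2 →
      pairEval (millerPair V p (.some x y h)).1 (millerPair V p (.some x y h)).2 X Y ∈ A ∧
      res A (pairEval (millerPair V p (.some x y h)).1 (millerPair V p (.some x y h)).2 X Y) =
        s ^ i * (s + 1) ^ j := by
  obtain ⟨ha, hb, hn, hl, -⟩ := millerPair_res hV hp hodd t hx hy
  rw [hx0] at hn
  obtain ⟨i, j, hi, hj, hij, he⟩ := nodal_eval_node hodd hn hl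
  refine ⟨i, j, hi, hj, hij, fun X Y s hX hY eX eY ↦ ?_⟩
  obtain ⟨hm, e⟩ := pairEval_res ha hb hX hY
  exact ⟨hm, by rw [e, eX, eY, he]⟩

/-- The Miller function of a point with smooth reduction, in the parameter. -/
lemma smooth_fun {p : ℕ} (hp : p.Prime) (hodd : Odd p) {x y : L} {h : V.Nonsingular x y}
    (t : p • Affine.Point.some x y h = 0)
    (u : UnitPt (nodal (ResidueField A)) (.some x y h)) (X Y : L) (s : ResidueField A)
    (hX : X ∈ A) (hY : Y ∈ A) (eX : res A X = s ^ 2 + s) (eY : res A Y = s ^ 3 + s ^ 2) :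
    pairEval (millerPair V p (.some x y h)).1 (millerPair V p (.some x y h)).2 X Y ∈ A ∧
      res A (pairEval (millerPair V p (.some x y h)).1 (millerPair V p (.some x y h)).2 X Y) =
        (s - res A y / res A x) ^ p := by
  obtain ⟨ha, hb, -⟩ := millerPair_res hV hp hodd t u.1 u.2.1
  have hf := isMiller_res hV hp hodd t u
  obtain ⟨he, hx0⟩ := (nodal_nonsingular_iff _ _).mp u.2.2
  obtain ⟨e1, e2⟩ := nodal_param he hx0
  rw [e1] at hf
  nth_rw 3 [e2] at hf
  obtain ⟨hm, e⟩ := pairEval_res ha hb hX hY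
  refine ⟨hm, ?_⟩
  rw [e, eX, eY]
  exact nodal_eval_miller hodd hf s

/-- The residue of the pairing of a point with smooth reduction of parameter `t₀` with a point at
the node, and of the Miller function of the latter at the opposite of the former. -/
lemma weil_res_node {p : ℕ} (hp : p.Prime) (hodd : Odd p) {x y : L} {h : V.Nonsingular x y}
    (hP : p • Affine.Point.some x y h = 0) (hu : UnitPt (nodal (ResidueField A)) (.some x y h))
    {t₀ : ResidueField A} (ht₀ : res A y / res A x = t₀) (ht1 : t₀ + 1 ≠ 0)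
    {X Y : L} {H : V.Nonsingular X Y} (T : p • Affine.Point.some X Y H = 0) (hX : X ∈ A)
    (hY : Y ∈ A) (eX : res A X = 0) (eY : res A Y = 0) :
    ∃ i j, 1 ≤ i ∧ 1 ≤ j ∧ i + j = p ∧
      res A (weil V p (.some x y h) (.some X Y H)) = (t₀ / (t₀ + 1)) ^ j ∧
      (V.negY x y ∈ A → res A (pairEval (millerPair V p (.some X Y H)).1
        (millerPair V p (.some X Y H)).2 x (V.negY x y)) = (-1 - t₀) ^ i * (-t₀) ^ j) := by
  obtain ⟨hx, hy, hns⟩ := id hu
  obtain ⟨he, hx0⟩ := (nodal_nonsingular_iff _ _).mp hns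
  obtain ⟨e1, e2⟩ := nodal_param he hx0
  rw [ht₀] at e1 e2
  have eny' : res A (V.negY x y) = (-1 - t₀) ^ 3 + (-1 - t₀) ^ 2 := by
    rw [(hV.negY_res hx hy).2, nodal_negY, e1, e2]; ring
  have enx : res A x = (-1 - t₀) ^ 2 + (-1 - t₀) := by rw [e1]; ring
  have t0eq : (0 : ResidueField A) = 0 ^ 2 + 0 ∧ (0 : ResidueField A) = 0 ^ 3 + 0 ^ 2 := by simp
  obtain ⟨i, j, hi, hj, hij, hfun⟩ := node_fun hV hp hodd T hX hY eX
  obtain ⟨m1, r1⟩ := smooth_fun hV hp hodd hP hu X Y 0 hX hY (eX.trans t0eq.1)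
    (eY.trans t0eq.2)
  rw [ht₀] at r1
  obtain ⟨m2, r2⟩ := hfun x y t₀ hx hy e1 e2
  have ht0 : t₀ ≠ 0 := by
    intro e
    rw [e] at e1
    exact hx0 (by rw [e1]; ring)
  have hne : t₀ ^ i * (t₀ + 1) ^ j ≠ 0 := mul_ne_zero (pow_ne_zero _ ht0) (pow_ne_zero _ ht1)
  refine ⟨i, j, hi, hj, hij, ?_, fun hm ↦ ?_⟩
  · have hne' : res A (pairEval (millerPair V p (.some X Y H)).1
        (millerPair V p (.some X Y H)).2 x y) ≠ 0 := by rw [r2]; exact hne
    simp only [weil, fAt]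
    rw [res_neg (div_mem_of_res_ne_zero m1 m2 hne'), res_div m1 m2 hne', r1, r2, zero_sub,
      hodd.neg_pow, neg_div, neg_neg, ← hij, pow_add, div_pow]
    exact mul_div_mul_left _ _ (pow_ne_zero i ht0)
  · obtain ⟨-, r3⟩ := hfun x (V.negY x y) (-1 - t₀) hx hm enx eny'
    rw [r3]
    congr 2
    ring

/-- For a basis adapted to the node the pairing is non-trivial and alternating. -/
theorem exists_adapted_basis {p : ℕ} [Fact p.Prime] (hodd : Odd p)
    (hpk : (p : ResidueField A) ≠ 0) (hΔ : V.Δ ≠ 0) :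
    ∃ (P Q : V.Point) (hP : p • P = 0) (hQ : p • Q = 0),
      Function.Injective (pairHom hP hQ) ∧ weil V p P (P + Q) = weil V p P Q ∧
        weil V p P Q ≠ 1 := by
  classical
  have hp : p.Prime := Fact.out
  have : Fact (1 < p) := ⟨hp.one_lt⟩
  obtain ⟨Pb, hPb0, hPb⟩ := exists_nodal_torsion (k := ResidueField A) hp hpk
  obtain ⟨P, hPZ, hP, hPred⟩ := exists_torsion_lift hV hpk hΔ hPb
  obtain ⟨Q, hQ, hQZ⟩ := exists_torsion_at_node hV hp hodd hpk hΔ
  have hP0 : P ≠ 0 := by rintro rfl; exact hPb0 (hPred.symm.trans red_zero)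
  have hinj := pairHom_injective_of_subgroup hP hQ (zeroComponent hV) hPZ hQZ hP0
  have hQ3 : p • (P + Q) = 0 := by rw [nsmul_add, hP, hQ, add_zero]
  have hQ3Z : ¬ InZero (nodal (ResidueField A)) (P + Q) := fun h ↦ hQZ (by
    have := (zeroComponent hV).sub_mem h hPZ
    rwa [add_sub_cancel_left] at this)
  have hu := hPZ.resolve_left fun h ↦ hPb0 (hPred.symm.trans (red_of_inKer h))
  rcases P with _ | ⟨x, y, h⟩
  · exact absurd rfl hP0
  obtain ⟨x₂, y₂, h₂, rfl, hx₂, hy₂, hx₂0, hy₂0⟩ := coords_of_not_inZero hV hpk hQ hQZ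
  obtain ⟨x₃, y₃, h₃, e₃, hx₃, hy₃, hx₃0, hy₃0⟩ := coords_of_not_inZero hV hpk hQ3 hQ3Z
  refine ⟨_, _, hP, hQ, hinj, ?_⟩
  have hroot₂ := weil_pairHom_pow hodd hinj (u := (1, 0)) (v := (0, 1)) (by simp [det₂])
  have hroot₃ := weil_pairHom_pow hodd hinj (u := (1, 0)) (v := (1, 1)) (by simp [det₂])
  rw [pairHom_one_zero, pairHom_zero_one] at hroot₂
  rw [pairHom_one_zero, pairHom_one_one] at hroot₃
  have t₃ : p • Affine.Point.some x₃ y₃ h₃ = 0 := e₃ ▸ hQ3
  rw [e₃] at hroot₃ ⊢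
  -- parameters
  obtain ⟨hx, hy, hns⟩ := id hu
  obtain ⟨he, hx0⟩ := (nodal_nonsingular_iff _ _).mp hns
  obtain ⟨e1, e2⟩ := nodal_param he hx0
  have htor : p • Affine.Point.some (res A x) (res A y) hns = 0 := by
    rw [← red_some (h := h) hx hy hns, ← red_nsmul hV hPZ, hP, red_zero]
  obtain ⟨ht1, hut, hu1⟩ := nodal_torsion_param hodd htor
  obtain ⟨t₀, ht₀⟩ : ∃ t, res A y / res A x = t := ⟨_, rfl⟩
  rw [ht₀] at e1 e2 ht1 hut hu1
  obtain ⟨hny, eny⟩ := hV.negY_res hx hy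
  have eny' : res A (V.negY x y) = (-1 - t₀) ^ 3 + (-1 - t₀) ^ 2 := by
    rw [eny, nodal_negY, e1, e2]; ring
  have enx : res A x = (-1 - t₀) ^ 2 + (-1 - t₀) := by rw [e1]; ring
  obtain ⟨i, j, hi, hj, hij, hw₂, hq₂⟩ :=
    weil_res_node hV hp hodd hP hu ht₀ ht1 hQ hx₂ hy₂ hx₂0 hy₂0
  obtain ⟨i', j', -, -, hij', hw₃, hq₃⟩ :=
    weil_res_node hV hp hodd hP hu ht₀ ht1 t₃ hx₃ hy₃ hx₃0 hy₃0
  constructor
  · refine eq_of_res_eq_of_pow_eq_one hpk hroot₃ hroot₂ ?_
    rw [hw₂, hw₃]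
    -- evaluate the identity of Miller functions at the opposite point
    have hne12 : ¬(x = x₂ ∧ y = V.negY x₂ y₂) := fun ⟨e, _⟩ ↦ hx0 (by rw [e, hx₂0])
    rw [Affine.Point.add_some hne12, Affine.Point.some.injEq] at e₃
    obtain ⟨rfl, rfl⟩ := e₃
    have hm := congrArg (evalAt (equation_negY h.1))
      (miller_add hodd h h₂ hne12 (isMiller_millerPair hodd h hP)
        (isMiller_millerPair hodd h₂ hQ) (isMiller_millerPair hodd h₃ t₃))
    simp only [map_mul, map_pow, evalAt_mkPair, evalAt_mk_XClass, evalAt_mk_YClass,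
      Affine.linePolynomial, eval_add, eval_mul, eval_sub, eval_X, eval_C, sub_self, mul_zero,
      zero_add] at hm
    set x₃ := V.addX x x₂ (V.slope x x₂ y y₂)
    set y₃ := V.addY x x₂ y (V.slope x x₂ y y₂)
    have hr := congrArg (res A) hm
    obtain ⟨mP, rP⟩ := smooth_fun hV hp hodd hP hu x (V.negY x y) (-1 - t₀) hx hny enx eny'
    rw [ht₀] at rP
    obtain ⟨iQ, jQ, -, -, -, fQ⟩ := node_fun hV hp hodd hQ hx₂ hy₂ hx₂0
    obtain ⟨i3, j3, -, -, -, f3⟩ := node_fun hV hp hodd t₃ hx₃ hy₃ hx₃0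
    obtain ⟨mQ, -⟩ := fQ x (V.negY x y) (-1 - t₀) hx hny enx eny'
    obtain ⟨m3, -⟩ := f3 x (V.negY x y) (-1 - t₀) hx hny enx eny'
    have md := sub_mem hx hx₃
    have me := sub_mem hny hy
    rw [res_mul (pow_mem md p) (mul_mem mP mQ), res_mul mP mQ, res_pow md, res_sub hx hx₃,
      hx₃0, sub_zero, res_mul (pow_mem me p) m3, res_pow me, res_sub hny hy, rP, hq₂ hny, hq₃ hny,
      eny', e2, e1, ← mul_assoc, ← mul_pow] at hr
    have hfac : (t₀ ^ 2 + t₀) * (-1 - t₀ - t₀) =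
        (-1 - t₀) ^ 3 + (-1 - t₀) ^ 2 - (t₀ ^ 3 + t₀ ^ 2) := by ring
    rw [← hfac] at hr
    have hc : (t₀ ^ 2 + t₀) * (-1 - t₀ - t₀) ≠ 0 := by
      have hf := (isMiller_res hV hp hodd hP hu).ne
      rw [← eny] at hf
      obtain ⟨ha, hb, -⟩ := millerPair_res hV hp hodd hP hx hy
      rw [← (pairEval_res ha hb hx hny).2, rP] at hf
      exact mul_ne_zero (e1 ▸ hx0) (ne_zero_pow hp.ne_zero hf)
    have hq := mul_left_cancel₀ (pow_ne_zero p hc) hr
    have hsign : ∀ a b : ℕ, a + b = p → (-1 - t₀) ^ a * (-t₀) ^ b =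
        -((t₀ + 1) ^ p * (t₀ / (t₀ + 1)) ^ b) := by
      intro a b hab
      rw [show -1 - t₀ = -1 * (t₀ + 1) by ring, neg_eq_neg_one_mul t₀, mul_pow, mul_pow,
        ← hab, pow_add, div_pow]
      have h1 : (-1 : ResidueField A) ^ a * (-1) ^ b = -1 := by
        rw [← pow_add, hab, hodd.neg_one_pow]
      field_simp
      linear_combination t₀ ^ b * h1
    rw [hsign i j hij, hsign i' j' hij', neg_inj] at hq
    exact (mul_left_cancel₀ (pow_ne_zero p ht1) hq).symm
  · intro e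
    have hw : (t₀ / (t₀ + 1)) ^ j = 1 := by
      rw [← hw₂, e, ← Nat.cast_one, res_natCast, Nat.cast_one]
    apply hu1
    have hjp : j < p := by omega
    have hcop : Nat.Coprime j p := ((hp.coprime_iff_not_dvd).mpr fun hd ↦
      absurd (Nat.le_of_dvd (by omega) hd) (by omega)).symm
    rw [← orderOf_eq_one_iff]
    exact Nat.dvd_one.mp (hcop ▸ Nat.dvd_gcd (orderOf_dvd_of_pow_eq_one hw)
      (orderOf_dvd_of_pow_eq_one hut))

end Fermat.Agent.EC
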