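import Mathlib.FieldTheory.IsAlgClosed.AlgebraicClosure
import Mathlib.FieldTheory.RatFunc.Basic
import Mathlib.RingTheory.Valuation.LocalSubring
import Fermat.Agent.EC.WeilNodal

/-!
# Non-degeneracy of the Weil pairing

Deform the given curve to the nodal cubic over `K[T]` and compare the two special fibres.
-/

noncomputable section

namespace Fermat.Agent.EC

open WeierstrassCurve Polynomial IsLocalRing
open scoped WeierstrassCurve.Affine

/-- A place of `L` lying over the kernel of `ψ`. -/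
lemma exists_place {R K L : Type*} [CommRing R] [Field K] [Field L] (φ : R →+* L)
    (hφ : Function.Injective φ) (ψ : R →+* K) :
    ∃ A : ValuationSubring L, (∀ r, φ r ∈ A) ∧ ∀ r, ψ r = 0 → φ r ∈ A.nonunits := by
  let e : R ≃+* φ.range := RingEquiv.ofBijective φ.rangeRestrict
    ⟨fun a b h ↦ hφ (congrArg Subtype.val h), φ.rangeRestrict_surjective⟩
  obtain ⟨A, hA, hI⟩ := Ideal.image_subset_nonunits_valuationSubring
    (RingHom.ker (ψ.comp e.symm.toRingHom)) (RingHom.ker_ne_top _)
  refine ⟨A, fun r ↦ hA ⟨r, rfl⟩, fun r hr ↦ hI ⟨e r, ?_, rfl⟩⟩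
  simp [RingHom.mem_ker, hr]

section PointMap

variable {K K' : Type*} [Field K] [Field K'] [DecidableEq K] [DecidableEq K']

/-- Transport of points along an embedding of fields. -/
def ptMap (φ : K →+* K') (V : WeierstrassCurve K) :
    V.toAffine.Point →+ (V.map φ).toAffine.Point :=
  letI := φ.toAlgebra
  Affine.Point.map (W' := V.toAffine) (Algebra.ofId K K')

lemma ptMap_injective (φ : K →+* K') (V : WeierstrassCurve K) :
    Function.Injective (ptMap φ V) :=
  letI := φ.toAlgebra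
  Affine.Point.map_injective (W' := V.toAffine) (f := Algebra.ofId K K')

lemma exists_ptMap_some (φ : K →+* K') (V : WeierstrassCurve K) {x y : K}
    (h : V.toAffine.Nonsingular x y) :
    ∃ H, ptMap φ V (.some x y h) = Affine.Point.some (φ x) (φ y) H :=
  ⟨_, rfl⟩

end PointMap

section Deform

variable {K : Type*} [Field K]

/-- The line through `V` and the nodal cubic. -/
def deform (V : WeierstrassCurve K) : WeierstrassCurve K[X] :=
  ⟨C V.a₁ * (1 - X) + X, C V.a₂ * (1 - X), C V.a₃ * (1 - X), C V.a₄ * (1 - X), C V.a₆ * (1 - X)⟩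

lemma deform_zero (V : WeierstrassCurve K) : (deform V).map (evalRingHom 0) = V := by
  ext <;> simp [deform]

lemma deform_one (V : WeierstrassCurve K) : (deform V).map (evalRingHom 1) = nodal K := by
  ext <;> simp [deform, nodal]

/-- A place over `T = c` together with the embedding of `K` into its residue field. -/
lemma exists_fibre {L : Type*} [Field L] (φ : K[X] →+* L) (hφ : Function.Injective φ)
    (V : WeierstrassCurve K) (c : K) :
    ∃ (A : ValuationSubring L) (ι : K →+* ResidueField A),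
      IsReduction A ((deform V).map φ) (((deform V).map (evalRingHom c)).map ι) := by
  obtain ⟨A, hA, hI⟩ := exists_place φ hφ (evalRingHom c)
  let φA : K[X] →+* A := φ.codRestrict A.toSubring hA
  refine ⟨A, ((residue A).comp φA).comp C, (deform V).map φA, ?_, ?_⟩
  · rw [WeierstrassCurve.map_map]
    rfl
  · rw [WeierstrassCurve.map_map, WeierstrassCurve.map_map]
    congr 1
    refine RingHom.ext fun q ↦ ?_
    have hk : evalRingHom c (q - C (q.eval c)) = 0 := by simp
    have := (res_eq_zero_iff (hA (q - C (q.eval c)))).mpr (hI _ hk)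
    rw [res_eq A (hA _)] at this
    rw [← sub_eq_zero]
    simp only [RingHom.comp_apply, coe_evalRingHom]
    rw [← map_sub, ← map_sub]
    exact this

end Deform

variable {K : Type*} [Field K] [DecidableEq K] [IsAlgClosed K]

omit [IsAlgClosed K] in
/-- If reduction carries a basis of `VL[p]` to the image of a basis of `V[p]`, the residue of the
pairing on `VL` is the pairing on `V`. -/
lemma res_weil_pairHom {L : Type*} [Field L] [DecidableEq L] {V : Affine K} {VL : Affine L}
    {A : ValuationSubring L} [DecidableEq (ResidueField A)] (ι : K →+* ResidueField A)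
    [(V.map ι).toAffine.IsElliptic] (hV : IsReduction A VL (V.map ι)) {p : ℕ} [Fact p.Prime]
    (hodd : Odd p) (hpA : (p : ResidueField A) ≠ 0) {P Q : VL.Point} {P₀ Q₀ : V.Point}
    {hP : p • P = 0} {hQ : p • Q = 0} {hP₀ : p • P₀ = 0} {hQ₀ : p • Q₀ = 0}
    (hinj : Function.Injective (pairHom hP hQ)) (hinj₀ : Function.Injective (pairHom hP₀ hQ₀))
    (hcomm : ∀ u, red (V.map ι).toAffine (pairHom hP hQ u) = ptMap ι V (pairHom hP₀ hQ₀ u))
    {u v : ZMod p × ZMod p} (huv : det₂ u v ≠ 0) :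
    res A (weil VL p (pairHom hP hQ u) (pairHom hP hQ v)) =
      ι (weil V p (pairHom hP₀ hQ₀ u) (pairHom hP₀ hQ₀ v)) := by
  have hp : p.Prime := Fact.out
  obtain ⟨x, y, h, x', y', h', eu, ev, hne'⟩ := exists_coords_pairHom hinj huv
  obtain ⟨a, b, k, a', b', k', eu₀, ev₀, hne₀⟩ := exists_coords_pairHom hinj₀ huv
  have tu := eu ▸ nsmul_pairHom hP hQ u
  have tv := ev ▸ nsmul_pairHom hP hQ v
  have uu := (inZero_of_isElliptic hV (pairHom hP hQ u)).resolve_left fun hk ↦
    Affine.Point.some_ne_zero h (eu ▸ eq_zero_of_inKer hV hpA (nsmul_pairHom hP hQ u) hk)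
  have uv := (inZero_of_isElliptic hV (pairHom hP hQ v)).resolve_left fun hk ↦
    Affine.Point.some_ne_zero h' (ev ▸ eq_zero_of_inKer hV hpA (nsmul_pairHom hP hQ v) hk)
  rw [eu] at uu
  rw [ev] at uv
  obtain ⟨H, eH⟩ := exists_ptMap_some ι V k
  obtain ⟨H', eH'⟩ := exists_ptMap_some ι V k'
  have e1 := hcomm u
  have e2 := hcomm v
  rw [eu₀, eH, eu, red_some uu.1 uu.2.1 uu.2.2, Affine.Point.some.injEq] at e1
  rw [ev₀, eH', ev, red_some uv.1 uv.2.1 uv.2.2, Affine.Point.some.injEq] at e2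
  rw [eu, ev, (weil_res hV hp hodd tu tv uu uv (by
    rw [e1.1, e2.1]; exact fun e ↦ hne₀ (ι.injective e))).2, eu₀, ev₀,
    ← weil_map ι (V' := (V.map ι).toAffine) rfl hodd (H := H) (H' := H')
      (eu₀ ▸ nsmul_pairHom hP₀ hQ₀ u) (ev₀ ▸ nsmul_pairHom hP₀ hQ₀ v)]
  simp only [e1.1, e1.2, e2.1, e2.2]

/-- The `p`-torsion has a basis on which the Weil pairing is a power of the determinant, with
primitive base. -/
theorem exists_weil_basis (V : Affine K) [V.IsElliptic] {p : ℕ} [Fact p.Prime] (hodd : Odd p)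
    (hpK : (p : K) ≠ 0) :
    ∃ (P Q : V.Point) (hP : p • P = 0) (hQ : p • Q = 0) (z : K),
      Function.Injective (pairHom hP hQ) ∧ z ^ p = 1 ∧ z ≠ 1 ∧
      ∀ u v, det₂ u v ≠ 0 → weil V p (pairHom hP hQ u) (pairHom hP hQ v) = z ^ (det₂ u v).val := by
  classical
  have hp : p.Prime := Fact.out
  have : Fact (1 < p) := ⟨hp.one_lt⟩
  let L := AlgebraicClosure (RatFunc K)
  let φ : K[X] →+* L := (algebraMap (RatFunc K) L).comp (algebraMap K[X] (RatFunc K))
  have hφ : Function.Injective φ :=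
    (algebraMap (RatFunc K) L).injective.comp (RatFunc.algebraMap_injective K)
  set VL : Affine L := ((deform V).map φ).toAffine with hVL
  have hΔ : VL.Δ ≠ 0 := by
    intro h
    rw [hVL, WeierstrassCurve.map_Δ, map_eq_zero_iff φ hφ] at h
    have h0 := congrArg (evalRingHom 0) h
    rw [← WeierstrassCurve.map_Δ, deform_zero, map_zero] at h0
    exact V.isUnit_Δ.ne_zero h0
  have : VL.IsElliptic := ⟨hΔ.isUnit⟩
  -- the nodal fibre
  obtain ⟨A₁, ι₁, hV₁⟩ := exists_fibre φ hφ V 1
  have hnod : ((deform V).map (evalRingHom 1)).map ι₁ = nodal (ResidueField A₁) := by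
    rw [deform_one]
    ext <;> simp [nodal]
  rw [hnod] at hV₁
  have hp₁ : (p : ResidueField A₁) ≠ 0 := by
    rw [← map_natCast ι₁]; exact (_root_.map_ne_zero ι₁).mpr hpK
  obtain ⟨P, Q, hP, hQ, hinj, hD, hne⟩ := exists_adapted_basis (V := VL) hV₁ hodd hp₁ hΔ
  have hzp : weil VL p P Q ^ p = 1 := by
    simpa [pairHom_one_zero, pairHom_zero_one] using
      weil_pairHom_pow hodd hinj (u := (1, 0)) (v := (0, 1)) (by simp [det₂])
  -- the given fibre
  obtain ⟨A₀, ι, hV₀⟩ := exists_fibre φ hφ V 0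
  rw [deform_zero] at hV₀
  have hp₀ : (p : ResidueField A₀) ≠ 0 := by
    rw [← map_natCast ι]; exact (_root_.map_ne_zero ι).mpr hpK
  set W : Affine (ResidueField A₀) := (V.map ι).toAffine with hW
  have : W.IsElliptic := inferInstanceAs (V.map ι).IsElliptic
  let r : VL.Point →+ W.Point := redHomGood (V := VL) (Vb := W) hV₀
  have hr : ∀ R, r R = red W R := fun R ↦ rfl
  -- bijection of torsion with the given fibre
  have hfin : Finite {R : W.Point // p • R = 0} :=
    Nat.finite_of_card_ne_zero (by rw [card_nsmul_eq_zero W hp₀]; exact pow_ne_zero _ hp.ne_zero)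
  let g : {R : V.Point // p • R = 0} → {R : W.Point // p • R = 0} := fun R ↦
    ⟨ptMap ι V R.1, by rw [← map_nsmul, R.2, map_zero]⟩
  have hg : Function.Bijective g :=
    (Function.Injective.bijective_of_nat_card_le
      (fun R S h ↦ Subtype.ext (ptMap_injective ι V (congrArg Subtype.val h))) (by
        rw [card_nsmul_eq_zero W hp₀, card_nsmul_eq_zero V hpK]))
  obtain ⟨⟨P₀, hP₀⟩, eP⟩ := hg.2 ⟨r P, by rw [← map_nsmul, hP, map_zero]⟩
  obtain ⟨⟨Q₀, hQ₀⟩, eQ⟩ := hg.2 ⟨r Q, by rw [← map_nsmul, hQ, map_zero]⟩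
  have eP' : ptMap ι V P₀ = r P := congrArg Subtype.val eP
  have eQ' : ptMap ι V Q₀ = r Q := congrArg Subtype.val eQ
  have hcomm : ∀ u, r (pairHom hP hQ u) = ptMap ι V (pairHom hP₀ hQ₀ u) := fun u ↦ by
    simp only [pairHom_apply, map_add, map_nsmul, eP', eQ']
  have hinjr : ∀ u v, r (pairHom hP hQ u) = r (pairHom hP hQ v) → u = v := fun u v h ↦
    hinj (red_injOn_torsion hV₀ hp₀ (inZero_of_isElliptic hV₀ _) (inZero_of_isElliptic hV₀ _)
      (nsmul_pairHom hP hQ u) (nsmul_pairHom hP hQ v) h)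
  have hinj₀ : Function.Injective (pairHom hP₀ hQ₀) := fun u v h ↦
    hinjr u v (by rw [hcomm, hcomm, h])
  have hzA := mem_of_pow_eq_one (A := A₀) hp.ne_zero hzp
  have cmp : ∀ u v, det₂ u v ≠ 0 →
      res A₀ (weil VL p (pairHom hP hQ u) (pairHom hP hQ v)) =
        ι (weil V p (pairHom hP₀ hQ₀ u) (pairHom hP₀ hQ₀ v)) := fun u v huv ↦
    res_weil_pairHom ι hV₀ hodd hp₀ hinj hinj₀ (fun w ↦ (hr _).symm.trans (hcomm w)) huv
  have base := cmp (1, 0) (0, 1) (by simp [det₂])
  simp only [pairHom_one_zero, pairHom_zero_one] at base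
  refine ⟨P₀, Q₀, hP₀, hQ₀, weil V p P₀ Q₀, hinj₀, ?_, ?_, fun u v huv ↦ ?_⟩
  · simpa [pairHom_one_zero, pairHom_zero_one] using
      weil_pairHom_pow hodd hinj₀ (u := (1, 0)) (v := (0, 1)) (by simp [det₂])
  · intro e
    apply hne
    refine eq_of_res_eq_of_pow_eq_one (A := A₀) hp₀ hzp (one_pow p) ?_
    rw [base, e, map_one, res_one]
  · apply ι.injective
    rw [← cmp u v huv, weil_pairHom_eq hodd hinj hD huv, res_pow hzA, base, map_pow]

end Fermat.Agent.EC
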