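import Mathlib.LinearAlgebra.Basis.Prod
import Mathlib.LinearAlgebra.Matrix.Determinant.Basic
import Fermat.Prelude.Def_FreyPackage_DetCyclotomic
import Fermat.Agent.EC.WeilNondeg

/-!
# The determinant of the mod `p` representation is the cyclotomic character

It follows from the Galois equivariance and non-degeneracy of the Weil pairing.
-/

noncomputable section

namespace Fermat.Agent.EC

open WeierstrassCurve Polynomial
open scoped WeierstrassCurve.Affine

/-- The determinant of an endomorphism of `R × R`. -/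
lemma det_prod_eq_det₂ {R : Type*} [CommRing R] (g : R × R →ₗ[R] R × R) :
    LinearMap.det g = det₂ (g (1, 0)) (g (0, 1)) := by
  rw [← LinearMap.det_toMatrix (Module.Basis.finTwoProd R), Matrix.det_fin_two]
  simp [LinearMap.toMatrix_apply, det₂]
  ring

variable {F K : Type*} [Field F] [Field K] [Algebra F K] [DecidableEq K] [IsAlgClosed K]

/-- `det ρ_{E,p} = χ_p` over any field in which `p ≠ 0`. -/
theorem galoisRepDetEqCyclotomic_of_ne_zero (E : WeierstrassCurve F) [E.IsElliptic] (p : ℕ)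
    [Fact p.Prime] [NeZero p] (hpK : (p : K) ≠ 0) (hn : Nat.card (rootsOfUnity p K) = p) :
    Affine.Point.GaloisRepDetEqCyclotomic (K := K) F E p hn := by
  have hp : p.Prime := Fact.out
  rcases eq_or_ne p 2 with rfl | hp2
  · exact Affine.Point.galoisRepDetEqCyclotomic_two hn
  have hodd : Odd p := hp.odd_of_ne_two hp2
  have : Fact (1 < p) := ⟨hp.one_lt⟩
  have : (E⁄K).IsElliptic := inferInstanceAs (E.map (algebraMap F K)).IsElliptic
  obtain ⟨P, Q, hP, hQ, z, hinj, hz, hz1, hval⟩ := exists_weil_basis (E⁄K) hodd hpK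
  intro σ
  let M := Submodule.torsionBy ℤ (E⁄K).Point (p : ℤ)
  let P' : M := ⟨P, by rw [Submodule.mem_torsionBy_iff, natCast_zsmul, hP]⟩
  let Q' : M := ⟨Q, by rw [Submodule.mem_torsionBy_iff, natCast_zsmul, hQ]⟩
  have hP' : p • P' = 0 := Subtype.ext hP
  have hQ' : p • Q' = 0 := Subtype.ext hQ
  have hcoe : ∀ u, ((pairHom hP' hQ' u : M) : (E⁄K).Point) = pairHom hP hQ u := fun u ↦ by
    simp [pairHom_apply, P', Q']
  have hfin : Finite M := finite_torsionBy E p hpK
  have hbij : Function.Bijective (pairHom hP' hQ') := by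
    refine Function.Injective.bijective_of_nat_card_le
      (fun u v h ↦ hinj (by rw [← hcoe, ← hcoe, h])) ?_
    rw [card_torsionBy E p hpK, Nat.card_prod, Nat.card_zmod, sq]
  let e : (ZMod p × ZMod p) ≃ₗ[ZMod p] M :=
    LinearEquiv.ofBijective ((pairHom hP' hQ').toZModLinearMap p) hbij
  have he : ∀ u, ((e u : M) : (E⁄K).Point) = pairHom hP hQ u := hcoe
  let f := Affine.Point.galoisRep (S := F) (K := K) E p σ
  let g : (ZMod p × ZMod p) ≃ₗ[ZMod p] (ZMod p × ZMod p) := e.trans (f.trans e.symm)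
  have hg : ∀ u, pairHom hP hQ (g u) = σ • pairHom hP hQ u := fun u ↦ by
    rw [← he, ← he]
    simp [g, f]
    rfl
  set d : ZMod p := det₂ (g (1, 0)) (g (0, 1)) with hd
  have hdet : ((Affine.Point.galoisRepDet (S := F) (K := K) E p σ : (ZMod p)ˣ) : ZMod p) = d := by
    rw [Affine.Point.galoisRepDet_apply, LinearEquiv.coe_det, ← LinearMap.det_conj _ e.symm,
      det_prod_eq_det₂]
    rfl
  have hd0 : d ≠ 0 := hdet ▸ Units.ne_zero _
  -- the image of the generating root of unity
  have hmap : ((E⁄K).map (σ : K →+* K)).toAffine = (E⁄K) := by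
    show (E.map (algebraMap F K)).map (σ : K →+* K) = E.map (algebraMap F K)
    rw [WeierstrassCurve.map_map]
    congr 1
    exact RingHom.ext σ.commutes
  have e₁ : det₂ ((1 : ZMod p), (0 : ZMod p)) (0, 1) ≠ 0 := by simp [det₂]
  obtain ⟨x, y, h, x', y', h', eu, ev, -⟩ := exists_coords_pairHom hinj e₁
  have hσz : σ z = z ^ d.val := by
    have hu := hg (1, 0)
    have hv := hg (0, 1)
    rw [eu, Affine.Point.algEquiv_smul_def, Affine.Point.map_some] at hu
    rw [ev, Affine.Point.algEquiv_smul_def, Affine.Point.map_some] at hv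
    have h1 := hval _ _ e₁
    rw [show det₂ ((1 : ZMod p), (0 : ZMod p)) (0, 1) = 1 by simp [det₂], ZMod.val_one, pow_one,
      eu, ev] at h1
    rw [← hval _ _ hd0, hu, hv, ← h1]
    exact (weil_map (σ : K →+* K) hmap hodd (eu ▸ nsmul_pairHom hP hQ (1, 0))
      (ev ▸ nsmul_pairHom hP hQ (0, 1))).symm
  have hprim : IsPrimitiveRoot z p := IsPrimitiveRoot.iff_orderOf.mpr
    ((hp.eq_one_or_self_of_dvd _ (orderOf_dvd_of_pow_eq_one hz)).resolve_left
      fun h ↦ hz1 (orderOf_eq_one_iff.mp h))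
  apply Units.ext
  rw [hdet]
  refine modularCyclotomicCharacter.unique K hn _ fun t ht ↦ ?_
  have htp : (t : K) ^ p = 1 := by
    rw [← Units.val_pow_eq_pow_val, (mem_rootsOfUnity p t).mp ht, Units.val_one]
  obtain ⟨i, -, hi⟩ := hprim.eq_pow_of_pow_eq_one htp
  show σ (t : K) = ((t ^ d.val : Kˣ) : K)
  rw [Units.val_pow_eq_pow_val, ← hi, map_pow, hσz, ← pow_mul, ← pow_mul, mul_comm]

/-- `det ρ_{E,p} = χ_p` for elliptic curves over `ℚ`. -/
theorem galoisRepDetEqCyclotomic [DecidableEq (AlgebraicClosure ℚ)]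
    (E : WeierstrassCurve ℚ) [E.IsElliptic] (p : ℕ) [Fact p.Prime] [NeZero p]
    (hn : Nat.card (rootsOfUnity p (AlgebraicClosure ℚ)) = p) :
    Affine.Point.GaloisRepDetEqCyclotomic (K := AlgebraicClosure ℚ) ℚ E p hn :=
  galoisRepDetEqCyclotomic_of_ne_zero E p (Nat.cast_ne_zero.mpr (NeZero.ne p)) hn

end Fermat.Agent.EC
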