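import Fermat.Agent.EC.FrobTraceBase

/-!
# The quadratic relation of the Frobenius endomorphism

An endomorphism of degree zero vanishes on all points, and the degree is a quadratic form, so the
degrees of `π ± 1` and of their products force `π² - a π + q = 0` with `a = q + 1 - #E(F)`.
-/

noncomputable section

namespace Fermat.Agent.EC

open WeierstrassCurve Polynomial
open scoped WeierstrassCurve.Affine

section Degree

variable {k : Type*} [Field k] [DecidableEq k] {V : Affine k}

/-- `φ` has degree `d`, read in `ℤ`. -/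
def HasDegInt (φ : V.Point →+ V.Point) (d : ℤ) : Prop := ∃ e : ℕ, HasDeg φ e ∧ (e : ℤ) = d

lemma HasDeg.toInt {φ : V.Point →+ V.Point} {a : ℕ} (h : HasDeg φ a) : HasDegInt φ a := ⟨a, h, rfl⟩

variable [IsAlgClosed k] [V.IsElliptic] {φ ψ : V.Point →+ V.Point} {a b c s : ℤ}

omit [IsAlgClosed k] [V.IsElliptic] in
lemma HasDegInt.neg (h : HasDegInt φ a) : HasDegInt (-φ) a :=
  let ⟨e, he, hea⟩ := h
  ⟨e, he.neg, hea⟩

lemma HasDegInt.unique (h : HasDegInt φ a) (h' : HasDegInt φ b) : a = b := by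
  obtain ⟨e, he, rfl⟩ := h
  obtain ⟨e', he', rfl⟩ := h'
  rw [he.unique he']

lemma HasDegInt.add (hφ : HasDegInt φ a) (hψ : HasDegInt ψ b) (hsub : HasDegInt (φ - ψ) c) :
    HasDegInt (φ + ψ) (2 * a + 2 * b - c) := by
  obtain ⟨e₁, h₁, rfl⟩ := hφ
  obtain ⟨e₂, h₂, rfl⟩ := hψ
  obtain ⟨e₃, h₃, rfl⟩ := hsub
  obtain ⟨e, he, heq⟩ := h₁.add h₂ h₃
  exact ⟨e, he, by omega⟩

/-- Along a line the degree is a quadratic polynomial. -/
theorem HasDegInt.zsmul_add (hφ : HasDegInt φ a) (hψ : HasDegInt ψ b)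
    (hsum : HasDegInt (φ + ψ) s) (n : ℤ) :
    HasDegInt (n • φ + ψ) (n ^ 2 * a + n * (s - a - b) + b) := by
  suffices key : ∀ (φ' : V.Point →+ V.Point) (s' : ℤ), HasDegInt φ' a → HasDegInt (φ' + ψ) s' →
      ∀ m : ℕ, HasDegInt ((m : ℤ) • φ' + ψ) ((m : ℤ) ^ 2 * a + m * (s' - a - b) + b) by
    obtain ⟨m, rfl | rfl⟩ := Int.eq_nat_or_neg n
    · exact key φ s hφ hsum m
    · have h1 : HasDegInt (-φ + ψ) (2 * a + 2 * b - s) := by
        have := hψ.add hφ.neg (c := s) (by rwa [sub_neg_eq_add, add_comm])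
        rw [add_comm] at this
        convert this using 1
        ring
      have := key (-φ) _ hφ.neg h1 m
      rw [smul_neg, ← neg_smul] at this
      convert this using 1
      ring
  intro φ' s' hφ' hs'
  suffices ∀ m : ℕ, HasDegInt ((m : ℤ) • φ' + ψ) ((m : ℤ) ^ 2 * a + m * (s' - a - b) + b) ∧
      HasDegInt (((m + 1 : ℕ) : ℤ) • φ' + ψ)
        (((m + 1 : ℕ) : ℤ) ^ 2 * a + (m + 1 : ℕ) * (s' - a - b) + b) from fun m ↦ (this m).1
  intro m
  induction m with
  | zero =>
    refine ⟨?_, ?_⟩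
    · simpa using hψ
    · simpa using (by convert hs' using 1; ring : HasDegInt (φ' + ψ) (a + (s' - a - b) + b))
  | succ m ih =>
    refine ⟨ih.2, ?_⟩
    have h := ih.2.add hφ' (c := (m : ℤ) ^ 2 * a + m * (s' - a - b) + b) ?_
    · convert h using 1
      · push_cast; module
      · push_cast; ring
    · convert ih.1 using 1
      push_cast; module

/-- An endomorphism of degree zero is zero. -/
theorem HasDeg.eq_zero (h : HasDeg φ 0) : φ = 0 := by
  classical
  obtain ⟨v, ⟨-, bad, hbad⟩, hdeg, hv⟩ := h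
  set B : Set V.Point := {P | P = 0 ∨ ∃ x ∈ bad, P.xRep = ![x, 1]} with hB
  have hBfin : B.Finite := by
    have : B ⊆ insert 0 (⋃ x ∈ bad, {P : V.Point | P.xRep = ![x, 1]}) := by
      rintro P (rfl | ⟨x, hx, e⟩)
      · exact Set.mem_insert _ _
      · exact Set.mem_insert_of_mem _ (Set.mem_biUnion hx e)
    refine Set.Finite.subset (Set.Finite.insert _ (bad.finite_toSet.biUnion fun x _ ↦ ?_)) this
    obtain ⟨y, hy⟩ := exists_nonsingular V x
    refine ((Set.finite_singleton (-Affine.Point.some x y hy)).insert (.some x y hy)).subset ?_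
    intro P hP
    rcases P with _ | ⟨x', y', h'⟩
    · simpa [← Affine.Point.zero_def] using congrFun hP 1
    · have hx' : x' = x := by simpa using congrFun hP 0
      exact (Affine.Point.X_eq_iff (h₁ := h') (h₂ := hy)).mp hx'
  have : Infinite V.Point := by
    choose f hf using exists_nonsingular V
    exact Infinite.of_injective (fun x ↦ Affine.Point.some x (f x) (hf x))
      fun x x' e ↦ (Affine.Point.some.inj e).1
  -- away from `B` the abscissa of the image is constant
  have hgood : ∀ P ∉ B, ∃ r : k, r ≠ 0 ∧ (fun i ↦ (v i).coeff 0) = r • (φ P).xRep := by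
    intro P hP
    rcases P with _ | ⟨x, y, h⟩
    · exact absurd (Or.inl rfl) hP
    obtain ⟨r, hr, e⟩ := hbad x y h fun hx ↦ hP (Or.inr ⟨x, hx, Affine.Point.xRep_some h⟩)
    refine ⟨r, hr, ?_⟩
    rw [← e]
    funext i
    rw [evalVec, eq_C_of_natDegree_eq_zero (Nat.le_zero.mp (hdeg i)), eval_C, coeff_C_zero]
  have hpm : ∀ P ∉ B, ∀ Q ∉ B, φ P = φ Q ∨ φ P = -φ Q := by
    intro P hP Q hQ
    obtain ⟨r, hr, er⟩ := hgood P hP
    obtain ⟨t, ht, et⟩ := hgood Q hQ
    rw [et] at er
    generalize φ P = P' at er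
    generalize φ Q = Q' at er
    rcases P' with _ | ⟨x, y, h⟩ <;> rcases Q' with _ | ⟨x', y', h'⟩
    · exact Or.inl rfl
    · simpa [← Affine.Point.zero_def, ht, hr, eq_comm] using congrFun er 1
    · simpa [← Affine.Point.zero_def, ht, hr, eq_comm] using congrFun er 1
    · have h1 : t = r := by simpa using congrFun er 1
      have h0 : t * x' = r * x := by simpa using congrFun er 0
      rw [h1] at h0
      exact (Affine.Point.X_eq_iff).mp (mul_left_cancel₀ hr h0).symm
  have hzero : ∀ P ∉ B, φ P = 0 := by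
    intro P hP
    have hfin : (B ∪ (fun R ↦ R - P) '' B ∪ (fun R ↦ P - R) '' B).Finite :=
      (hBfin.union (hBfin.image _)).union (hBfin.image _)
    obtain ⟨Q, hQ⟩ := hfin.exists_notMem
    simp only [Set.mem_union, Set.mem_image, not_or, not_exists, not_and] at hQ
    have h1 : P + Q ∉ B := fun h ↦ hQ.1.2 _ h (by abel)
    have h2 : P - Q ∉ B := fun h ↦ hQ.2 _ h (by abel)
    rcases hpm P hP Q hQ.1.1 with e | e
    · rcases hpm _ h2 P hP with e' | e' <;>
        simpa [map_sub, e, eq_comm] using e'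
    · rcases hpm _ h1 P hP with e' | e' <;>
        simpa [map_add, e, eq_comm] using e'
  ext P
  have hfin : (B ∪ (fun R ↦ P - R) '' B).Finite := hBfin.union (hBfin.image _)
  obtain ⟨Q, hQ⟩ := hfin.exists_notMem
  simp only [Set.mem_union, Set.mem_image, not_or, not_exists, not_and] at hQ
  have h1 : P - Q ∉ B := fun h ↦ hQ.2 _ h (by abel)
  rw [← sub_add_cancel P Q, map_add, hzero _ h1, hzero _ hQ.1, zero_add, AddMonoidHom.zero_apply]

lemma HasDegInt.eq_zero (h : HasDegInt φ 0) : φ = 0 := by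
  obtain ⟨e, he, h0⟩ := h
  obtain rfl : e = 0 := by omega
  exact he.eq_zero

/-- Multiplication by `n` is onto, for `n ≠ 0` in `k`. -/
lemma exists_nsmul_eq {n : ℕ} (hn : (n : k) ≠ 0) (T : V.Point) : ∃ P : V.Point, n • P = T := by
  rcases T with _ | ⟨c, d, hcd⟩
  · exact ⟨0, smul_zero _⟩
  have hn2 : 0 < n ^ 2 := Nat.one_le_pow _ _ (Nat.pos_of_ne_zero (by rintro rfl; simp at hn))
  have hdeg : (num V n - C c * den V n).coeff (n ^ 2) = 1 := by
    have hle := (natDegree_C_mul_le c (den V n)).trans (natDegree_den_le V n)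
    rw [coeff_sub, coeff_num, coeff_eq_zero_of_natDegree_lt (p := C c * den V n) (by omega),
      sub_zero]
  have hne : (num V n - C c * den V n).degree ≠ 0 := fun e ↦ by
    rw [eq_C_of_degree_eq_zero e, coeff_C, if_neg hn2.ne'] at hdeg
    exact zero_ne_one hdeg
  obtain ⟨x, hx⟩ := IsAlgClosed.exists_root _ hne
  simp only [IsRoot, eval_sub, eval_mul, eval_C, sub_eq_zero] at hx
  obtain ⟨y, hns⟩ := exists_nonsingular V x
  obtain ⟨r, hr, e⟩ := exists_eval_xMul_eq hns n
  rcases hR : n • Affine.Point.some x y hns with _ | ⟨x', y', h'⟩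
  · rw [hR] at e
    have e1 : (den V n).eval x = 0 := by simpa [← Affine.Point.zero_def] using congrFun e 1
    have e0 : (num V n).eval x = r := by simpa [← Affine.Point.zero_def] using congrFun e 0
    exact absurd (by rw [← e0, hx, e1, mul_zero]) hr
  · rw [hR] at e
    have e1 : (den V n).eval x = r := by simpa using congrFun e 1
    have e0 : (num V n).eval x = r * x' := by simpa using congrFun e 0
    rw [e0, e1, mul_comm c] at hx
    rcases (Affine.Point.X_eq_iff (h₁ := h') (h₂ := hcd)).mp (mul_left_cancel₀ hr hx) with e' | e'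
    · exact ⟨_, hR.trans e'⟩
    · exact ⟨-Affine.Point.some x y hns, by rw [smul_neg, hR, e', neg_neg]⟩

end Degree

variable {F : Type*} [Field F] [Fintype F] {k : Type*} [Field k] [Algebra F k] [IsAlgClosed k]
  [DecidableEq k] (W : WeierstrassCurve F) [W.IsElliptic]

local notation "q" => Fintype.card F

/-- The trace `q + 1 - #E(F)` of Frobenius. -/
def frobTrace : ℤ := (q : ℤ) + 1 - Nat.card W.toAffine.Point

/-- **Frobenius satisfies its characteristic equation.** -/
theorem frobHom_quadratic (P : (W⁄k).toAffine.Point) :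
    frobHom W (frobHom W P) - frobTrace W • frobHom W P + (q : ℤ) • P = 0 := by
  have : (W⁄k).toAffine.IsElliptic := inferInstanceAs (W.map (algebraMap F k)).IsElliptic
  set π := frobHom (k := k) W with hπ
  set Id := AddMonoidHom.id (W⁄k).toAffine.Point with hI
  set a := frobTrace W with ha
  have hq : 1 < q := Fintype.one_lt_card
  have dπ : HasDegInt π q := (hasDeg_frobHom W).toInt
  have d1 : HasDegInt Id 1 := (hasDeg_id (V := (W⁄k).toAffine)).toInt
  have dm : HasDegInt (π - Id) (q + 1 - a) := by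
    have := (hasDeg_frobHom_sub_id (k := k) W).toInt
    rw [ha, frobTrace]; convert this using 1; ring
  have dp : HasDegInt (π + Id) (q + 1 + a) := by
    convert dπ.add d1 dm using 1; ring
  obtain ⟨ep, hep, hee⟩ := dp
  have hepos : 0 < ep := by
    rcases Nat.eq_zero_or_pos ep with rfl | h
    · have hπI : π = -Id := eq_neg_of_add_eq_zero_left hep.eq_zero
      have := dπ.unique (hπI ▸ d1.neg)
      omega
    · exact h
  obtain ⟨em, hem, hee'⟩ := dm
  have dline : ∀ n : ℤ, HasDegInt (n • Id + π) (n ^ 2 + n * a + q) := fun n ↦ by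
    convert d1.zsmul_add dπ (s := q + 1 + a) ⟨ep, by rwa [add_comm], hee⟩ n using 1; ring
  set ψ := π.comp π + (q : ℤ) • Id with hψ
  have dψ : HasDegInt ψ (q * a ^ 2) := by
    have hpos : 0 < q := by omega
    have d2 : HasDegInt (π.comp π) ((q : ℤ) * q) :=
      ⟨q * q, (hasDeg_frobHom W).comp (hasDeg_frobHom W) hpos, by push_cast; ring⟩
    have d2m : HasDegInt (π.comp π - Id) ((q + 1 - a) * (q + 1 + a)) := by
      refine ⟨em * ep, ?_, by push_cast; rw [hee, hee']⟩
      have e : π.comp π - Id = (π - Id).comp (π + Id) := by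
        ext P; simp [hI, map_add]; abel
      rw [e]; exact hem.comp hep hepos
    have d2p := d2.add d1 d2m
    rw [add_comm] at d2p
    have := d1.zsmul_add d2 d2p q
    rw [add_comm] at this
    convert this using 1
    ring
  set φ := ((q : ℤ) + 1) • π with hφ
  have dφ : HasDegInt φ (((q : ℤ) + 1) ^ 2 * q) := by
    have := dπ.zsmul_add (ψ := 0) (b := 0) (s := q) ⟨0, hasDeg_zero, rfl⟩
      (by rwa [add_zero]) ((q : ℤ) + 1)
    rw [add_zero] at this
    convert this using 1
    ring
  have dψφ : HasDegInt (ψ + φ) (q * (q + 1 + a) ^ 2) := by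
    obtain ⟨e, he, heq⟩ := dline (q : ℤ)
    refine ⟨e * ep, ?_, by push_cast; rw [heq, hee]; ring⟩
    have e' : ψ + φ = ((q : ℤ) • Id + π).comp (π + Id) := by
      ext P; simp [hψ, hφ, hI, map_add]; module
    rw [e']; exact he.comp hep hepos
  have dsψ : HasDegInt (((q : ℤ) + 1) • ψ) (((q : ℤ) + 1) ^ 2 * (q * a ^ 2)) := by
    have := dψ.zsmul_add (ψ := 0) (b := 0) (s := q * a ^ 2) ⟨0, hasDeg_zero, rfl⟩
      (by rwa [add_zero]) ((q : ℤ) + 1)
    rw [add_zero] at this
    convert this using 1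
    ring
  have dsψφ := dψ.zsmul_add dφ dψφ ((q : ℤ) + 1)
  rw [add_comm] at dsψφ
  have dz := dφ.zsmul_add dsψ dsψφ (-a)
  have h0 : -a • φ + ((q : ℤ) + 1) • ψ = 0 := HasDegInt.eq_zero (by convert dz using 1; ring)
  obtain ⟨Q, hQ⟩ := exists_nsmul_eq (n := q + 1)
    (by rw [Nat.cast_add, ← map_natCast (algebraMap F k), FiniteField.cast_card_eq_zero]; simp) P
  have h := DFunLike.congr_fun h0 Q
  rw [← hQ]
  simp only [map_nsmul]
  simp [hψ, hφ, hI] at h
  rw [← h]
  module

end Fermat.Agent.EC
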