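import Mathlib.FieldTheory.IsAlgClosed.Basic
import Mathlib.RingTheory.IntegralClosure.IntegrallyClosed
import Mathlib.RingTheory.LocalRing.ResidueField.Basic
import Mathlib.RingTheory.Valuation.LocalSubring
import Mathlib.RingTheory.Valuation.ValuationSubring
import Mathlib.Tactic.FieldSimp
import Mathlib.Tactic.LinearCombination
import Mathlib.Tactic.Ring

/-!
# Helpers for valuation subrings of a field

They support reduction of points modulo a place.
-/

noncomputable section

namespace Fermat.Agent.EC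

open IsLocalRing Polynomial

variable {L : Type*} [Field L] (A : ValuationSubring L)

open Classical in
/-- The residue of an element of `A`; junk value `0` outside `A`. -/
def res (x : L) : ResidueField A :=
  if h : x ∈ A then residue A ⟨x, h⟩ else 0

lemma res_eq {x : L} (h : x ∈ A) : res A x = residue A ⟨x, h⟩ := by
  rw [res, dif_pos h]

@[simp] lemma res_coe (x : A) : res A (x : L) = residue A x :=
  res_eq A x.2

@[simp] lemma coe_two : ((2 : A) : L) = 2 := map_ofNat A.subtype 2

@[simp] lemma coe_four : ((4 : A) : L) = 4 := map_ofNat A.subtype 4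

variable {A} {x y z : L}

lemma res_sub (hx : x ∈ A) (hy : y ∈ A) : res A (x - y) = res A x - res A y :=
  (res_coe A (⟨x, hx⟩ - ⟨y, hy⟩)).trans (by rw [map_sub, res_eq A hx, res_eq A hy])

lemma res_mul (hx : x ∈ A) (hy : y ∈ A) : res A (x * y) = res A x * res A y :=
  (res_coe A (⟨x, hx⟩ * ⟨y, hy⟩)).trans (by rw [map_mul, res_eq A hx, res_eq A hy])

lemma res_neg (hx : x ∈ A) : res A (-x) = -res A x :=
  (res_coe A (-⟨x, hx⟩)).trans (by rw [map_neg, res_eq A hx])

@[simp] lemma res_zero : res A 0 = 0 := (res_coe A 0).trans (map_zero _)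

@[simp] lemma res_one : res A 1 = 1 := (res_coe A 1).trans (map_one _)

lemma res_pow (hx : x ∈ A) (n : ℕ) : res A (x ^ n) = res A x ^ n :=
  (res_coe A (⟨x, hx⟩ ^ n)).trans (by rw [map_pow, res_eq A hx])

lemma res_natCast (n : ℕ) : res A (n : L) = n :=
  (res_coe A (n : A)).trans (map_natCast _ n)

lemma res_eq_zero_iff (hx : x ∈ A) : res A x = 0 ↔ x ∈ A.nonunits := by
  rw [res_eq A hx, residue_eq_zero_iff]
  exact ValuationSubring.coe_mem_nonunits_iff.symm

/-- Elements with nonzero residue have inverse in `A`. -/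
lemma inv_mem_of_res_ne_zero (hx : x ∈ A) (h : res A x ≠ 0) : x⁻¹ ∈ A := by
  by_contra h'
  exact h ((res_eq_zero_iff hx).mpr (A.mem_nonunits_iff_or.mpr (Or.inr h')))

lemma ne_zero_of_res_ne_zero (h : res A x ≠ 0) : x ≠ 0 :=
  fun e ↦ h (e ▸ res_zero)

lemma res_inv (hx : x ∈ A) (h : res A x ≠ 0) : res A x⁻¹ = (res A x)⁻¹ := by
  refine eq_inv_of_mul_eq_one_left ?_
  rw [← res_mul (inv_mem_of_res_ne_zero hx h) hx, inv_mul_cancel₀ (ne_zero_of_res_ne_zero h),
    res_one]

lemma div_mem_of_res_ne_zero (hx : x ∈ A) (hy : y ∈ A) (h : res A y ≠ 0) : x / y ∈ A :=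
  div_eq_mul_inv x y ▸ mul_mem hx (inv_mem_of_res_ne_zero hy h)

lemma res_div (hx : x ∈ A) (hy : y ∈ A) (h : res A y ≠ 0) :
    res A (x / y) = res A x / res A y := by
  rw [div_eq_mul_inv, res_mul hx (inv_mem_of_res_ne_zero hy h), res_inv hy h, div_eq_mul_inv]

lemma inv_mem_nonunits_of_notMem (hx : x ∉ A) : x⁻¹ ∈ A.nonunits :=
  A.inv_mem_nonunits_iff.mpr (Or.inr hx)

lemma inv_mem_of_notMem (hx : x ∉ A) : x⁻¹ ∈ A :=
  (A.mem_or_inv_mem x).resolve_left hx

lemma ne_zero_of_notMem (hx : x ∉ A) : x ≠ 0 :=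
  fun e ↦ hx (e ▸ A.zero_mem)

lemma res_inv_of_notMem (hx : x ∉ A) : res A x⁻¹ = 0 :=
  (res_eq_zero_iff (inv_mem_of_notMem hx)).mpr (inv_mem_nonunits_of_notMem hx)

/-- A root of a monic quadratic with coefficients in `A` lies in `A`. -/
lemma mem_of_quadratic {b c : L} (hb : b ∈ A) (hc : c ∈ A) (h : z ^ 2 + b * z + c = 0) :
    z ∈ A := by
  by_contra hz
  have hz0 := ne_zero_of_notMem hz
  apply hz
  have : z = -b - c * z⁻¹ := by field_simp; linear_combination h
  rw [this]
  exact sub_mem (neg_mem hb) (mul_mem hc (inv_mem_of_notMem hz))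

/-- A root of a polynomial over `A` whose leading coefficient is a unit lies in `A`. -/
lemma mem_of_isRoot {p : A[X]} {d : ℕ} (hd : p.natDegree ≤ d) (hu : IsUnit (p.coeff d))
    (hz : (p.map A.subtype).IsRoot z) : z ∈ A := by
  obtain ⟨u, hu⟩ := hu
  set q := C (↑u⁻¹ : A) * p
  have hq : q.Monic := monic_of_natDegree_le_of_coeff_eq_one d
    ((natDegree_C_mul_le _ _).trans hd) (by rw [coeff_C_mul, ← hu, Units.inv_mul])
  have hint : IsIntegral A z := ⟨q, hq, by
    rw [eval₂_mul, eval₂_C, ← eval_map]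
    exact mul_eq_zero_of_right _ hz⟩
  obtain ⟨y, rfl⟩ := IsIntegrallyClosed.isIntegral_iff.mp hint
  exact y.2

/-- The residue field of a valuation subring of an algebraically closed field is algebraically
closed. -/
instance residueField_isAlgClosed [IsAlgClosed L] (B : ValuationSubring L) :
    IsAlgClosed (ResidueField B) := by
  refine IsAlgClosed.of_exists_root _ fun p hp hirr => ?_
  have hl : p ∈ lifts (residue B) := (lifts_iff_coeff_lifts _).mpr fun n => residue_surjective _
  obtain ⟨q, hq, hdeg, hmon⟩ := lifts_and_degree_eq_and_monic hl hp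
  have hqd : (q.map (algebraMap B L)).degree ≠ 0 := by
    rw [degree_map_eq_of_injective (FaithfulSMul.algebraMap_injective B L), hdeg]
    exact (degree_pos_of_irreducible hirr).ne'
  obtain ⟨w, hw⟩ := IsAlgClosed.exists_root _ hqd
  obtain ⟨v, rfl⟩ := IsIntegrallyClosed.isIntegral_iff.mp
    (⟨q, hmon, by rwa [IsRoot.def, eval_map] at hw⟩ : IsIntegral B w)
  refine ⟨residue B v, ?_⟩
  rw [← hq, eval_map_apply]
  rw [IsRoot.def, eval_map_apply, map_eq_zero_iff _ (FaithfulSMul.algebraMap_injective B L)] at hw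
  rw [hw, map_zero]

end Fermat.Agent.EC
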