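import Fermat.Prelude.Def_EllipticCurve_ZeroComponentAt
import Fermat.Agent.EC.Place
import Fermat.Agent.EC.TorsionCard

/-!
# Reduction of points at a valuation subring

`V` over `L` and `Vb` over the residue field of `A` are related by `IsReduction A V Vb` when they
come from a common curve over `A`; `Vb` may be singular.  The points with nonsingular reduction
form a subgroup, `red` is additive on it, and its kernel has no `n`-torsion for `n ∈ Aˣ`.
-/

noncomputable section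

namespace Fermat.Agent.EC

open IsLocalRing WeierstrassCurve Polynomial

variable {L : Type*} [Field L] {A : ValuationSubring L}
variable {V : Affine L} {Vb : Affine (ResidueField A)}

/-- `V` has a model over `A` with reduction `Vb`. -/
def IsReduction (A : ValuationSubring L) (V : WeierstrassCurve L)
    (Vb : WeierstrassCurve (ResidueField A)) : Prop :=
  ∃ W₀ : WeierstrassCurve A, W₀.map A.subtype = V ∧ W₀.map (residue A) = Vb

/-- An affine point with integral coordinates reducing to a nonsingular point of `Vb`. -/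
def UnitPt (Vb : Affine (ResidueField A)) : V.Point → Prop
  | 0 => False
  | .some x y _ => x ∈ A ∧ y ∈ A ∧ Vb.Nonsingular (res A x) (res A y)

/-- A point reducing to the origin. -/
def InKer (A : ValuationSubring L) : V.Point → Prop
  | 0 => True
  | .some x _ _ => x ∉ A

/-- A point whose reduction is nonsingular. -/
def InZero (Vb : Affine (ResidueField A)) (P : V.Point) : Prop :=
  InKer A P ∨ UnitPt Vb P

open Classical in
/-- The reduction map, with junk value `0` outside the points of nonsingular reduction. -/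
def red (Vb : Affine (ResidueField A)) : V.Point → Vb.Point
  | 0 => 0
  | .some x y _ =>
    if h : x ∈ A ∧ y ∈ A ∧ Vb.Nonsingular (res A x) (res A y) then
      .some (res A x) (res A y) h.2.2
    else 0

@[simp] lemma inKer_zero : InKer A (0 : V.Point) := trivial

@[simp] lemma red_zero : red Vb (0 : V.Point) = 0 := rfl

lemma not_inKer_of_unitPt {P : V.Point} (h : UnitPt Vb P) : ¬ InKer A P := by
  rcases P with _ | ⟨x, y, hP⟩
  · exact h.elim
  · exact fun h' ↦ h' h.1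

lemma red_of_inKer {P : V.Point} (h : InKer A P) : red Vb P = 0 := by
  rcases P with _ | ⟨x, y, hP⟩
  · rfl
  · exact dif_neg fun h' ↦ h h'.1

lemma red_some {x y : L} {h : V.Nonsingular x y} (hx : x ∈ A) (hy : y ∈ A)
    (hs : Vb.Nonsingular (res A x) (res A y)) :
    red Vb (.some x y h) = .some (res A x) (res A y) hs :=
  dif_pos ⟨hx, hy, hs⟩

lemma red_eq_zero_iff {P : V.Point} (h : InZero Vb P) : red Vb P = 0 ↔ InKer A P := by
  refine ⟨fun e ↦ h.resolve_right fun hu ↦ ?_, red_of_inKer⟩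
  rcases P with _ | ⟨x, y, hP⟩
  · exact hu
  · rw [red_some hu.1 hu.2.1 hu.2.2] at e
    exact Affine.Point.some_ne_zero _ e

lemma InKer.neg {P : V.Point} (h : InKer A P) : InKer A (-P) := by
  rcases P with _ | ⟨x, y, hP⟩
  · exact h
  · exact h

section Coefficients

variable (hV : IsReduction A V Vb)
include hV

lemma IsReduction.equation_res {x y : L} (hx : x ∈ A) (hy : y ∈ A) (h : V.Equation x y) :
    Vb.Equation (res A x) (res A y) := by
  obtain ⟨W₀, rfl, rfl⟩ := hV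
  have := (Affine.map_equation (W := W₀) (f := A.subtype) Subtype.val_injective ⟨x, hx⟩
    ⟨y, hy⟩).mp h
  rw [res_eq A hx, res_eq A hy]
  exact this.map _

lemma IsReduction.negY_res {x y : L} (hx : x ∈ A) (hy : y ∈ A) :
    V.negY x y ∈ A ∧ res A (V.negY x y) = Vb.negY (res A x) (res A y) := by
  obtain ⟨W₀, rfl, rfl⟩ := hV
  have e : (W₀.map A.subtype).toAffine.negY x y =
      A.subtype (W₀.toAffine.negY ⟨x, hx⟩ ⟨y, hy⟩) :=
    Affine.map_negY (W' := W₀.toAffine) (f := A.subtype) ⟨x, hx⟩ ⟨y, hy⟩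
  rw [e, A.subtype_apply, res_eq A hx, res_eq A hy, res_coe]
  exact ⟨(W₀.toAffine.negY ⟨x, hx⟩ ⟨y, hy⟩).2, (Affine.map_negY ..).symm⟩

lemma IsReduction.coeff_mem :
    V.a₁ ∈ A ∧ V.a₂ ∈ A ∧ V.a₃ ∈ A ∧ V.a₄ ∈ A ∧ V.a₆ ∈ A := by
  obtain ⟨W₀, rfl, rfl⟩ := hV
  exact ⟨W₀.a₁.2, W₀.a₂.2, W₀.a₃.2, W₀.a₄.2, W₀.a₆.2⟩

lemma IsReduction.y_mem {x y : L} (hx : x ∈ A) (h : V.Equation x y) : y ∈ A := by
  obtain ⟨h1, h2, h3, h4, h6⟩ := hV.coeff_mem
  refine mem_of_quadratic (b := V.a₁ * x + V.a₃)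
    (c := -(x ^ 3 + V.a₂ * x ^ 2 + V.a₄ * x + V.a₆)) ?_ ?_ ?_
  · exact add_mem (mul_mem h1 hx) h3
  · exact neg_mem (add_mem (add_mem (add_mem (pow_mem hx 3) (mul_mem h2 (pow_mem hx 2)))
      (mul_mem h4 hx)) h6)
  · linear_combination (Affine.equation_iff x y).mp h

lemma UnitPt.neg {P : V.Point} (h : UnitPt Vb P) : UnitPt Vb (-P) := by
  rcases P with _ | ⟨x, y, hP⟩
  · exact h
  · obtain ⟨hm, he⟩ := hV.negY_res h.1 h.2.1
    refine ⟨h.1, hm, ?_⟩
    rw [he]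
    exact (Affine.nonsingular_neg ..).mpr h.2.2

end Coefficients

/-- For `n` prime to the residue characteristic the top coefficient of `den W₀ n` is a unit. -/
lemma isUnit_coeff_den {n : ℕ} (hn : (n : ResidueField A) ≠ 0) (W₀ : WeierstrassCurve A) :
    IsUnit ((den W₀ n).coeff (n ^ 2 - 1)) := by
  rw [coeff_den]
  refine IsUnit.pow 2 ((notMem_maximalIdeal (R := A)).mp fun h ↦ hn ?_)
  rw [← map_natCast (residue A), residue_eq_zero_iff]
  exact h

variable [DecidableEq L]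

/-- The slope times the difference of the ordinates. -/
lemma slope_mul_eq {F : Type*} [Field F] [DecidableEq F] (W : Affine F) {x₁ x₂ y₁ y₂ : F}
    (h₁ : W.Equation x₁ y₁) (h₂ : W.Equation x₂ y₂) (hxy : ¬(x₁ = x₂ ∧ y₁ = W.negY x₂ y₂)) :
    W.slope x₁ x₂ y₁ y₂ * (y₁ - W.negY x₂ y₂) =
      x₁ ^ 2 + x₁ * x₂ + x₂ ^ 2 + W.a₂ * (x₁ + x₂) + W.a₄ - W.a₁ * y₁ := by
  by_cases hx : x₁ = x₂
  · have hy : y₁ ≠ W.negY x₂ y₂ := fun h ↦ hxy ⟨hx, h⟩
    have hy12 := Affine.Y_eq_of_Y_ne h₁ h₂ hx hy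
    subst hx; subst hy12
    rw [Affine.slope_of_Y_ne rfl hy, div_mul_cancel₀ _ (sub_ne_zero.mpr hy)]
    ring
  · have hd : x₁ - x₂ ≠ 0 := sub_ne_zero.mpr hx
    have e₁ := (Affine.equation_iff x₁ y₁).mp h₁
    have e₂ := (Affine.equation_iff x₂ y₂).mp h₂
    rw [Affine.slope_of_X_ne hx, div_mul_eq_mul_div, div_eq_iff hd, Affine.negY]
    linear_combination e₁ - e₂

variable [DecidableEq (ResidueField A)] (hV : IsReduction A V Vb)
include hV

/-- Sum of two integral points whose reductions are not opposite. -/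
lemma red_add_of_ne {x₁ y₁ x₂ y₂ : L} {h₁ : V.Nonsingular x₁ y₁} {h₂ : V.Nonsingular x₂ y₂}
    (u₁ : UnitPt Vb (.some x₁ y₁ h₁)) (u₂ : UnitPt Vb (.some x₂ y₂ h₂))
    (hne : ¬(res A x₁ = res A x₂ ∧ res A y₁ = Vb.negY (res A x₂) (res A y₂))) :
    UnitPt Vb (Affine.Point.some x₁ y₁ h₁ + .some x₂ y₂ h₂) ∧
      red Vb (Affine.Point.some x₁ y₁ h₁ + .some x₂ y₂ h₂) =
        red Vb (.some x₁ y₁ h₁) + red Vb (.some x₂ y₂ h₂) := by
  obtain ⟨hx₁, hy₁, hs₁⟩ := u₁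
  obtain ⟨hx₂, hy₂, hs₂⟩ := u₂
  have hn := hV.negY_res hx₂ hy₂
  have hxy : ¬(x₁ = x₂ ∧ y₁ = V.negY x₂ y₂) := fun ⟨e, e'⟩ ↦
    hne ⟨by rw [e], by rw [e', hn.2]⟩
  set ℓ := V.slope x₁ x₂ y₁ y₂ with hℓdef
  have hℓ : ℓ ∈ A ∧ res A ℓ = Vb.slope (res A x₁) (res A x₂) (res A y₁) (res A y₂) := by
    by_cases hx : res A x₁ = res A x₂
    · have hy : res A y₁ ≠ Vb.negY (res A x₂) (res A y₂) := fun h ↦ hne ⟨hx, h⟩
      have hd : res A (y₁ - V.negY x₂ y₂) ≠ 0 := by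
        rw [res_sub hy₁ hn.1, hn.2]; exact sub_ne_zero.mpr hy
      obtain ⟨W₀, rfl, rfl⟩ := hV
      let n₀ : A := (⟨x₁, hx₁⟩ : A) ^ 2 + ⟨x₁, hx₁⟩ * ⟨x₂, hx₂⟩ + (⟨x₂, hx₂⟩ : A) ^ 2 +
        W₀.a₂ * (⟨x₁, hx₁⟩ + ⟨x₂, hx₂⟩) + W₀.a₄ - W₀.a₁ * ⟨y₁, hy₁⟩
      have e : ℓ = n₀ / (y₁ - (W₀.map A.subtype).toAffine.negY x₂ y₂) := by
        rw [eq_div_iff (ne_zero_of_res_ne_zero hd), hℓdef, slope_mul_eq _ h₁.1 h₂.1 hxy]
        simp [n₀]
      refine ⟨e ▸ div_mem_of_res_ne_zero n₀.2 (sub_mem hy₁ hn.1) hd, ?_⟩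
      rw [e, res_div n₀.2 (sub_mem hy₁ hn.1) hd, div_eq_iff hd, res_sub hy₁ hn.1, hn.2,
        slope_mul_eq _ hs₁.1 hs₂.1 hne, res_coe]
      simp only [n₀, map_add, map_sub, map_mul, map_pow, res_eq A hx₁, res_eq A hx₂, res_eq A hy₁,
        WeierstrassCurve.map_a₁, WeierstrassCurve.map_a₂, WeierstrassCurve.map_a₄]
    · have hd : res A (x₁ - x₂) ≠ 0 := by rw [res_sub hx₁ hx₂]; exact sub_ne_zero.mpr hx
      have hx' : x₁ ≠ x₂ := fun e ↦ hx (by rw [e])
      rw [hℓdef, Affine.slope_of_X_ne hx', Affine.slope_of_X_ne hx]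
      exact ⟨div_mem_of_res_ne_zero (sub_mem hy₁ hy₂) (sub_mem hx₁ hx₂) hd,
        by rw [res_div (sub_mem hy₁ hy₂) (sub_mem hx₁ hx₂) hd, res_sub hx₁ hx₂, res_sub hy₁ hy₂]⟩
  obtain ⟨hℓA, hℓr⟩ := hℓ
  have key : V.addX x₁ x₂ ℓ ∈ A ∧ V.addY x₁ x₂ y₁ ℓ ∈ A ∧
      res A (V.addX x₁ x₂ ℓ) = Vb.addX (res A x₁) (res A x₂) (res A ℓ) ∧
      res A (V.addY x₁ x₂ y₁ ℓ) = Vb.addY (res A x₁) (res A x₂) (res A y₁) (res A ℓ) := by
    obtain ⟨W₀, rfl, rfl⟩ := hV
    have eX : (W₀.map A.subtype).toAffine.addX x₁ x₂ ℓ =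
        A.subtype (W₀.toAffine.addX ⟨x₁, hx₁⟩ ⟨x₂, hx₂⟩ ⟨ℓ, hℓA⟩) :=
      Affine.map_addX (W' := W₀.toAffine) (f := A.subtype) ⟨x₁, hx₁⟩ ⟨x₂, hx₂⟩ ⟨ℓ, hℓA⟩
    have eY : (W₀.map A.subtype).toAffine.addY x₁ x₂ y₁ ℓ =
        A.subtype (W₀.toAffine.addY ⟨x₁, hx₁⟩ ⟨x₂, hx₂⟩ ⟨y₁, hy₁⟩ ⟨ℓ, hℓA⟩) :=
      Affine.map_addY (W' := W₀.toAffine) (f := A.subtype)
        ⟨x₁, hx₁⟩ ⟨y₁, hy₁⟩ ⟨x₂, hx₂⟩ ⟨ℓ, hℓA⟩
    rw [eX, eY, res_eq A hx₁, res_eq A hx₂, res_eq A hy₁, res_eq A hℓA]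
    simp only [A.subtype_apply, res_coe]
    exact ⟨Subtype.coe_prop _, Subtype.coe_prop _, (Affine.map_addX ..).symm,
      (Affine.map_addY ..).symm⟩
  rw [hℓr] at key
  have hs := Affine.nonsingular_add hs₁ hs₂ hne
  rw [← key.2.2.1, ← key.2.2.2] at hs
  rw [Affine.Point.add_some hxy, red_some hx₁ hy₁ hs₁, red_some hx₂ hy₂ hs₂,
    Affine.Point.add_some hne, red_some key.1 key.2.1 hs]
  exact ⟨⟨key.1, key.2.1, hs⟩, by simp only [key.2.2.1, key.2.2.2]⟩

omit [DecidableEq (ResidueField A)] in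
/-- Two integral points with opposite nonsingular reductions sum into the kernel. -/
lemma inKer_add_of_eq {x₁ y₁ x₂ y₂ : L} {h₁ : V.Nonsingular x₁ y₁} {h₂ : V.Nonsingular x₂ y₂}
    (u₁ : UnitPt Vb (.some x₁ y₁ h₁)) (u₂ : UnitPt Vb (.some x₂ y₂ h₂))
    (he : res A x₁ = res A x₂ ∧ res A y₁ = Vb.negY (res A x₂) (res A y₂)) :
    InKer A (Affine.Point.some x₁ y₁ h₁ + .some x₂ y₂ h₂) := by
  obtain ⟨hx₁, hy₁, hs₁⟩ := u₁
  obtain ⟨hx₂, hy₂, hs₂⟩ := u₂
  have hn := hV.negY_res hx₂ hy₂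
  by_cases hxy : x₁ = x₂ ∧ y₁ = V.negY x₂ y₂
  · rw [Affine.Point.add_of_Y_eq hxy.1 hxy.2]
    exact inKer_zero
  rw [Affine.Point.add_some hxy]
  set ℓ := V.slope x₁ x₂ y₁ y₂ with hℓdef
  intro hx₃
  obtain ⟨m1, m2, m3, m4, m6⟩ := hV.coeff_mem
  have hℓ : ℓ ∈ A := mem_of_quadratic (b := V.a₁) (c := -V.a₂ - x₁ - x₂ - V.addX x₁ x₂ ℓ) m1
    (sub_mem (sub_mem (sub_mem (neg_mem m2) hx₁) hx₂) hx₃) (by rw [Affine.addX]; ring)
  have hd : res A (y₁ - V.negY x₂ y₂) = 0 := by rw [res_sub hy₁ hn.1, hn.2, he.2, sub_self]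
  have hnum : res A (x₁ ^ 2 + x₁ * x₂ + x₂ ^ 2 + V.a₂ * (x₁ + x₂) + V.a₄ - V.a₁ * y₁) = 0 := by
    rw [← slope_mul_eq V h₁.1 h₂.1 hxy, res_mul hℓ (sub_mem hy₁ hn.1), hd, mul_zero]
  have hn' : tangentNum Vb (res A x₁) (res A y₁) = 0 := by
    obtain ⟨W₀, rfl, rfl⟩ := hV
    have e : tangentNum (W₀.map (residue A)).toAffine (res A x₁) (res A y₁) =
        residue A ((⟨x₁, hx₁⟩ : A) ^ 2 + ⟨x₁, hx₁⟩ * ⟨x₂, hx₂⟩ + (⟨x₂, hx₂⟩ : A) ^ 2 +
          W₀.a₂ * (⟨x₁, hx₁⟩ + ⟨x₂, hx₂⟩) + W₀.a₄ - W₀.a₁ * ⟨y₁, hy₁⟩) := by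
      simp only [tangentNum, res_eq A hx₁, res_eq A hy₁, map_add, map_sub, map_mul, map_pow,
        WeierstrassCurve.map_a₁, WeierstrassCurve.map_a₂, WeierstrassCurve.map_a₄]
      rw [show residue A ⟨x₂, hx₂⟩ = residue A ⟨x₁, hx₁⟩ from
        (res_eq A hx₂).symm.trans (he.1.symm.trans (res_eq A hx₁))]
      ring
    rw [e, ← res_coe]
    exact hnum
  -- the reductions are not 2-torsion, hence the points have different abscissae
  have hne : res A y₁ ≠ res A y₂ := by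
    intro h
    exact tangentNum_ne_zero_of_Y_eq hs₁ (by rw [he.1, h]; exact h ▸ he.2) hn'
  have hx : x₁ ≠ x₂ := by
    intro hx
    rcases (Affine.Point.X_eq_iff (h₁ := h₁) (h₂ := h₂)).mp hx with e | e
    · rw [Affine.Point.some.injEq] at e
      exact hne (by rw [e.2])
    · rw [Affine.Point.neg_some, Affine.Point.some.injEq] at e
      exact hxy e
  apply hne
  rw [← sub_eq_zero, ← res_sub hy₁ hy₂]
  have : y₁ - y₂ = ℓ * (x₁ - x₂) := by
    rw [hℓdef, Affine.slope_of_X_ne hx, div_mul_cancel₀ _ (sub_ne_zero.mpr hx)]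
  rw [this, res_mul hℓ (sub_mem hx₁ hx₂), res_sub hx₁ hx₂, he.1, sub_self, mul_zero]

omit [DecidableEq (ResidueField A)] in
/-- The kernel of reduction is closed under addition. -/
lemma InKer.add {P Q : V.Point} (hP : InKer A P) (hQ : InKer A Q) : InKer A (P + Q) := by
  rcases P with _ | ⟨x₁, y₁, h₁⟩
  · rwa [← Affine.Point.zero_def, zero_add]
  rcases Q with _ | ⟨x₂, y₂, h₂⟩
  · rwa [← Affine.Point.zero_def, add_zero]
  set P := Affine.Point.some x₁ y₁ h₁ with hP'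
  set Q := Affine.Point.some x₂ y₂ h₂ with hQ'
  have t₁ : x₁⁻¹ ∈ A := inv_mem_of_notMem hP
  have t₂ : x₂⁻¹ ∈ A := inv_mem_of_notMem hQ
  obtain ⟨c, hc, e⟩ := addSubEval_sym2x P Q
  have hscale : (x₁⁻¹ * x₂⁻¹) • P.sym2x Q = ![1, x₂⁻¹ + x₁⁻¹, x₁⁻¹ * x₂⁻¹] := by
    have := ne_zero_of_notMem hP
    have := ne_zero_of_notMem hQ
    rw [hP', hQ', Affine.Point.sym2x_some_some]
    funext i
    fin_cases i <;> simp <;> field_simp
  set u := x₁⁻¹ * x₂⁻¹ with hu
  set k := u ^ 2 * c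
  have hk : addSubEval V ![1, x₂⁻¹ + x₁⁻¹, u] = k • (P + Q).sym2x (P - Q) := by
    rw [← hscale, addSubEval_smul, e, smul_smul]
  obtain ⟨W₀, rfl, rfl⟩ := hV
  let T : A := ⟨x₂⁻¹, t₂⟩ + ⟨x₁⁻¹, t₁⟩
  let U : A := ⟨x₁⁻¹, t₁⟩ * ⟨x₂⁻¹, t₂⟩
  have hT : residue A T = 0 := by
    simp only [T, map_add]
    rw [← res_eq A t₁, ← res_eq A t₂, res_inv_of_notMem hP, res_inv_of_notMem hQ, add_zero]
  have hU : residue A U = 0 := by
    simp only [U, map_mul]
    rw [← res_eq A t₁, res_inv_of_notMem hP, zero_mul]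
  let C₀ : A := 1 - W₀.b₄ * U - W₀.b₆ * T * U - W₀.b₈ * U ^ 2
  let C₁ : A := 2 * T + W₀.b₂ * U + W₀.b₄ * T * U + W₀.b₆ * U ^ 2
  let C₂ : A := T ^ 2 - 4 * U
  have r₀ : residue A C₀ = 1 := by simp [C₀, hT, hU]
  have r₁ : residue A C₁ = 0 := by simp [C₁, hT, hU]
  have r₂ : residue A C₂ = 0 := by simp [C₂, hT, hU]
  rw [addSubEval_eq] at hk
  have e₀ : (C₀ : L) = k * (P + Q).sym2x (P - Q) 0 := by
    rw [← smul_eq_mul, ← Pi.smul_apply, ← hk]; simp [C₀, T, U, hu]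
  have e₁ : (C₁ : L) = k * (P + Q).sym2x (P - Q) 1 := by
    rw [← smul_eq_mul, ← Pi.smul_apply, ← hk]; simp [C₁, T, U, hu]
  have e₂ : (C₂ : L) = k * (P + Q).sym2x (P - Q) 2 := by
    rw [← smul_eq_mul, ← Pi.smul_apply, ← hk]; simp [C₂, T, U, hu]
  have n₁ : (C₁ : L) ∈ A.nonunits :=
    ValuationSubring.coe_mem_nonunits_iff.mpr ((residue_eq_zero_iff _).mp r₁)
  have n₂ : (C₂ : L) ∈ A.nonunits :=
    ValuationSubring.coe_mem_nonunits_iff.mpr ((residue_eq_zero_iff _).mp r₂)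
  have n₀ : (C₀ : L) ∉ A.nonunits := fun h ↦ one_ne_zero (α := ResidueField A)
    (r₀ ▸ (residue_eq_zero_iff _).mpr (ValuationSubring.coe_mem_nonunits_iff.mp h))
  have absorb : ∀ {a b : L}, a ∈ A.nonunits → b ∈ A → a * b ∈ A.nonunits := by
    intro a b ha hb
    rw [A.mem_nonunits_iff, map_mul]
    exact mul_lt_one_of_nonneg_of_lt_one_left zero_le ha ((A.valuation_le_one_iff b).mpr hb)
  generalize P + Q = R at e₀ e₁ e₂
  generalize P - Q = S at e₀ e₁ e₂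
  rcases R with _ | ⟨a, b, hab⟩
  · exact inKer_zero
  intro ha
  apply n₀
  rcases S with _ | ⟨a', b', hab'⟩
  · simp [← Affine.Point.zero_def] at e₀ e₁
    rw [e₀]
    exact absorb (e₁ ▸ n₁) ha
  · simp at e₀ e₁ e₂
    have hk' : k ∈ A.nonunits := e₂ ▸ n₂
    have h1 : k * a' ∈ A.nonunits := by
      have := sub_mem (e₁ ▸ n₁) (absorb hk' ha)
      rwa [mul_add, add_sub_cancel_left] at this
    rw [e₀, show k * (a * a') = k * a' * a by ring]
    exact absorb h1 ha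

omit [DecidableEq (ResidueField A)] in
/-- Adding a kernel point does not change the abscissa of the reduction. -/
lemma x_add_of_inKer {x₁ y₁ x₂ y₂ : L} {h₁ : V.Nonsingular x₁ y₁} {h₂ : V.Nonsingular x₂ y₂}
    (hP : x₁ ∉ A) (hx₂ : x₂ ∈ A) :
    ∃ a b h, Affine.Point.some x₁ y₁ h₁ + .some x₂ y₂ h₂ = .some a b h ∧ a ∈ A ∧
      res A a = res A x₂ := by
  have hne : x₁ ≠ x₂ := fun e ↦ hP (e ▸ hx₂)
  refine ⟨_, _, _, Affine.Point.add_of_X_ne hne, ?_⟩
  set a := V.addX x₁ x₂ (V.slope x₁ x₂ y₁ y₂)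
  set a' := V.addX x₁ x₂ (V.slope x₁ x₂ y₁ (V.negY x₂ y₂))
  have hs := addX_of_X_ne_sum h₁.1 h₂.1 hne
  have hp := addX_of_X_ne_mul h₁.1 h₂.1 hne
  have t₁ : x₁⁻¹ ∈ A := inv_mem_of_notMem hP
  have h0 : x₁ ≠ 0 := ne_zero_of_notMem hP
  obtain ⟨W₀, rfl, rfl⟩ := hV
  let T : A := ⟨x₁⁻¹, t₁⟩
  let X₂ : A := ⟨x₂, hx₂⟩
  have hT : residue A T = 0 := by rw [← res_eq A t₁, res_inv_of_notMem hP]
  let D : A := (1 - X₂ * T) ^ 2
  let S : A := 2 * (1 + X₂ * T) * X₂ + W₀.b₂ * X₂ * T + W₀.b₄ * (1 + X₂ * T) * T + W₀.b₆ * T ^ 2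
  let M : A := X₂ ^ 2 - W₀.b₄ * X₂ * T - W₀.b₆ * (1 + X₂ * T) * T - W₀.b₈ * T ^ 2
  have hD : IsUnit D := (notMem_maximalIdeal (R := A)).mp fun h ↦ one_ne_zero (α := ResidueField A)
    (by rw [← residue_eq_zero_iff] at h; simp [D, hT] at h)
  obtain ⟨D', hD'⟩ := hD
  have eD : (D : L) * x₁ ^ 2 = (x₁ - x₂) ^ 2 := by
    simp [D, T, X₂]; field_simp
  have eS : (S : L) * x₁ ^ 2 = (D : L) * x₁ ^ 2 * (a + a') := by
    rw [eD, hs]; simp [S, T, X₂]; field_simp
  have eM : (M : L) * x₁ ^ 2 = (D : L) * x₁ ^ 2 * (a * a') := by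
    rw [eD, hp]; simp [M, T, X₂]; field_simp
  let s : A := S * ↑D'⁻¹
  let m : A := M * ↑D'⁻¹
  have hDD : (D : L) * ((↑D'⁻¹ : A) : L) = 1 := by
    rw [← hD']; exact congrArg Subtype.val (D'.mul_inv)
  have es : (s : L) = a + a' := by
    apply mul_right_cancel₀ (pow_ne_zero 2 h0)
    simp only [s, MulMemClass.coe_mul]
    linear_combination ((↑D'⁻¹ : A) : L) * eS + x₁ ^ 2 * (a + a') * hDD
  have em : (m : L) = a * a' := by
    apply mul_right_cancel₀ (pow_ne_zero 2 h0)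
    simp only [m, MulMemClass.coe_mul]
    linear_combination ((↑D'⁻¹ : A) : L) * eM + x₁ ^ 2 * (a * a') * hDD
  have ha : a ∈ A := mem_of_quadratic (b := -(s : L)) (c := m) (neg_mem s.2) m.2
    (by rw [es, em]; ring)
  refine ⟨ha, ?_⟩
  have rD : residue A (↑D'⁻¹ : A) = 1 := by
    have := congrArg (residue A) D'.mul_inv
    rw [map_mul, hD', map_one] at this
    simpa [D, hT] using this
  have key : (⟨a, ha⟩ : A) ^ 2 - s * ⟨a, ha⟩ + m = 0 :=
    Subtype.ext (by simp only [AddMemClass.coe_add, AddSubgroupClass.coe_sub,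
      MulMemClass.coe_mul, SubmonoidClass.coe_pow, es, em, ZeroMemClass.coe_zero]; ring)
  have := congrArg (residue A) key
  simp only [s, m, S, M, map_add, map_sub, map_mul, map_pow, map_zero, map_one, rD, hT,
    map_ofNat (residue A) 2, mul_zero, add_zero, sub_zero, mul_one,
    zero_pow (two_ne_zero)] at this
  rw [res_eq A ha, res_eq A hx₂]
  exact sub_eq_zero.mp (pow_eq_zero_iff (n := 2) (by omega) |>.mp (by linear_combination this))

/-- Adding a kernel point does not change the reduction. -/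
lemma red_add_inKer {P Q : V.Point} (hP : InKer A P) (hQ : UnitPt Vb Q) :
    UnitPt Vb (P + Q) ∧ red Vb (P + Q) = red Vb Q := by
  rcases P with _ | ⟨x₁, y₁, h₁⟩
  · rw [← Affine.Point.zero_def, zero_add]; exact ⟨hQ, rfl⟩
  rcases Q with _ | ⟨x₂, y₂, h₂⟩
  · exact hQ.elim
  obtain ⟨a, b, hab, e, ha, hra⟩ := x_add_of_inKer hV hP hQ.1 (h₁ := h₁) (h₂ := h₂)
  rw [e]
  have hb : b ∈ A := hV.y_mem ha hab.1
  have hn := hV.negY_res hQ.1 hQ.2.1
  have heq := hV.equation_res ha hb hab.1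
  rw [hra] at heq
  rcases Affine.Y_eq_of_X_eq heq hQ.2.2.1 rfl with hy | hy
  · have hs : Vb.Nonsingular (res A a) (res A b) := by rw [hra, hy]; exact hQ.2.2
    exact ⟨⟨ha, hb, hs⟩, by rw [red_some ha hb hs, red_some hQ.1 hQ.2.1 hQ.2.2]; simp [hra, hy]⟩
  · have hs : Vb.Nonsingular (res A a) (res A b) := by
      rw [hra, hy]; exact (Affine.nonsingular_neg ..).mpr hQ.2.2
    refine ⟨⟨ha, hb, hs⟩, ?_⟩
    rw [red_some ha hb hs, red_some hQ.1 hQ.2.1 hQ.2.2]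
    by_contra hne
    simp [hra, hy] at hne
    -- `P + 2Q` is then in the kernel, so `2Q` is, although its reduction is affine
    have hker : InKer A (Affine.Point.some a b hab + .some x₂ y₂ h₂) :=
      inKer_add_of_eq hV (h₁ := hab) (h₂ := h₂) ⟨ha, hb, hs⟩ hQ ⟨hra, hy⟩
    have h2 : InKer A (Affine.Point.some x₂ y₂ h₂ + .some x₂ y₂ h₂) := by
      have := InKer.add hV hker (InKer.neg (P := Affine.Point.some x₁ y₁ h₁) hP)
      rw [← e] at this
      convert this using 1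
      abel
    exact not_inKer_of_unitPt (red_add_of_ne hV hQ hQ (fun h ↦ hne h.2.symm)).1 h2

/-- Reduction is additive on points of nonsingular reduction. -/
theorem red_add {P Q : V.Point} (hP : InZero Vb P) (hQ : InZero Vb Q) :
    InZero Vb (P + Q) ∧ red Vb (P + Q) = red Vb P + red Vb Q := by
  rcases hP with hP | hP <;> rcases hQ with hQ | hQ
  · exact ⟨Or.inl (InKer.add hV hP hQ),
      by rw [red_of_inKer (InKer.add hV hP hQ), red_of_inKer hP, red_of_inKer hQ, add_zero]⟩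
  · obtain ⟨h, e⟩ := red_add_inKer hV hP hQ
    exact ⟨Or.inr h, by rw [e, red_of_inKer hP, zero_add]⟩
  · obtain ⟨h, e⟩ := red_add_inKer hV hQ hP
    rw [add_comm P]
    exact ⟨Or.inr h, by rw [e, red_of_inKer hQ, add_zero]⟩
  · rcases P with _ | ⟨x₁, y₁, h₁⟩
    · exact hP.elim
    rcases Q with _ | ⟨x₂, y₂, h₂⟩
    · exact hQ.elim
    by_cases he : res A x₁ = res A x₂ ∧ res A y₁ = Vb.negY (res A x₂) (res A y₂)
    · have h := inKer_add_of_eq hV hP hQ he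
      refine ⟨Or.inl h, ?_⟩
      rw [red_of_inKer h, red_some hP.1 hP.2.1 hP.2.2, red_some hQ.1 hQ.2.1 hQ.2.2,
        Affine.Point.add_of_Y_eq he.1 he.2]
    · obtain ⟨h, e⟩ := red_add_of_ne hV hP hQ he
      exact ⟨Or.inr h, e⟩

/-- The points of nonsingular reduction. -/
def zeroComponent : AddSubgroup V.Point where
  carrier := {P | InZero Vb P}
  add_mem' hP hQ := (red_add hV hP hQ).1
  zero_mem' := Or.inl inKer_zero
  neg_mem' hP := hP.imp (fun h ↦ InKer.neg h) (fun h ↦ UnitPt.neg hV h)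

/-- Reduction as a homomorphism on `zeroComponent`. -/
def redHom : zeroComponent hV →+ Vb.Point where
  toFun P := red Vb P.1
  map_zero' := rfl
  map_add' P Q := (red_add hV P.2 Q.2).2

omit [DecidableEq L] [DecidableEq (ResidueField A)] in
lemma inZero_of_isElliptic [Vb.IsElliptic] (P : V.Point) : InZero Vb P := by
  rcases P with _ | ⟨x, y, h⟩
  · exact Or.inl inKer_zero
  by_cases hx : x ∈ A
  · have hy := hV.y_mem hx h.1
    exact Or.inr ⟨hx, hy, Affine.equation_iff_nonsingular.mp (hV.equation_res hx hy h.1)⟩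
  · exact Or.inl hx

/-- Reduction as a homomorphism, for good reduction. -/
def redHomGood [Vb.IsElliptic] : V.Point →+ Vb.Point where
  toFun := red Vb
  map_zero' := rfl
  map_add' P Q := (red_add hV (inZero_of_isElliptic hV P) (inZero_of_isElliptic hV Q)).2

/-! ### Torsion -/

omit [DecidableEq (ResidueField A)] in
/-- Torsion points of order prime to the residue characteristic are integral. -/
theorem torsion_mem {n : ℕ} (hn : (n : ResidueField A) ≠ 0) {x y : L} {h : V.Nonsingular x y}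
    (hP : n • Affine.Point.some x y h = 0) : x ∈ A ∧ y ∈ A := by
  have hroot := (nsmul_eq_zero_iff h n).mp hP
  obtain ⟨W₀, rfl, rfl⟩ := hV
  have hu := isUnit_coeff_den hn W₀
  rw [den_map] at hroot
  have hx := mem_of_isRoot (natDegree_den_le W₀ n) hu hroot
  exact ⟨hx, IsReduction.y_mem (Vb := (W₀.map (residue A)).toAffine) ⟨W₀, rfl, rfl⟩ hx h.1⟩

omit [DecidableEq (ResidueField A)] in
/-- The kernel of reduction has no nontrivial torsion prime to the residue characteristic. -/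
theorem eq_zero_of_inKer {n : ℕ} (hn : (n : ResidueField A) ≠ 0) {P : V.Point}
    (hP : n • P = 0) (hk : InKer A P) : P = 0 := by
  rcases P with _ | ⟨x, y, h⟩
  · rfl
  · exact absurd (torsion_mem hV hn hP).1 hk

theorem red_nsmul {P : V.Point} (hP : InZero Vb P) (n : ℕ) : red Vb (n • P) = n • red Vb P :=
  map_nsmul (redHom hV) n ⟨P, hP⟩

/-- Reduction is injective on torsion prime to the residue characteristic. -/
theorem red_injOn_torsion {n : ℕ} (hn : (n : ResidueField A) ≠ 0) {P Q : V.Point}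
    (hP : InZero Vb P) (hQ : InZero Vb Q) (hPn : n • P = 0) (hQn : n • Q = 0)
    (h : red Vb P = red Vb Q) : P = Q := by
  have hd : InZero Vb (P - Q) := (zeroComponent hV).sub_mem hP hQ
  refine sub_eq_zero.mp (eq_zero_of_inKer hV hn (by rw [nsmul_sub, hPn, hQn, sub_self]) ?_)
  rw [← red_eq_zero_iff hd]
  exact (map_sub (redHom hV) ⟨P, hP⟩ ⟨Q, hQ⟩).trans (sub_eq_zero.mpr h)

/-- Every torsion point of `Vb` lifts to a torsion point of nonsingular reduction. -/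
theorem exists_torsion_lift [IsAlgClosed L] {n : ℕ} (hn : (n : ResidueField A) ≠ 0)
    (hΔ : V.Δ ≠ 0) {Pb : Vb.Point} (hPb : n • Pb = 0) :
    ∃ P : V.Point, InZero Vb P ∧ n • P = 0 ∧ red Vb P = Pb := by
  rcases Pb with _ | ⟨xb, yb, hb⟩
  · exact ⟨0, Or.inl inKer_zero, smul_zero n, rfl⟩
  have : V.IsElliptic := ⟨hΔ.isUnit⟩
  have hroot := (nsmul_eq_zero_iff hb n).mp hPb
  obtain ⟨r, hr, hrr⟩ : ∃ r : A, (den V n).eval (r : L) = 0 ∧ residue A r = xb := by
    obtain ⟨W₀, rfl, rfl⟩ := hV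
    rw [den_map] at hroot ⊢
    have hu := isUnit_coeff_den hn W₀
    set p := (den W₀ n).map A.subtype with hp
    have hnL : (n : L) ≠ 0 := by
      intro h
      apply hn
      rw [← res_natCast (A := A), h, res_zero]
    have hp0 : p ≠ 0 := by
      rw [hp, ← den_map]; exact den_ne_zero _ hnL
    have hmem : ∀ r ∈ p.roots, r ∈ A := fun r hr ↦
      mem_of_isRoot (natDegree_den_le W₀ n) hu (isRoot_of_mem_roots hr)
    let lift : {r // r ∈ p.roots} → A := fun r ↦ ⟨r.1, hmem r.1 r.2⟩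
    have hlc : p.leadingCoeff ∈ A := by
      rw [Polynomial.leadingCoeff, hp, coeff_map]; exact Subtype.coe_prop _
    have key : den W₀ n = C (⟨p.leadingCoeff, hlc⟩ : A) *
        ((p.roots.attach.map lift).map fun a ↦ X - C a).prod := by
      apply map_injective A.subtype Subtype.val_injective
      rw [← hp, Polynomial.map_mul, map_C, Polynomial.map_multiset_prod, Multiset.map_map,
        Multiset.map_map]
      conv_lhs => rw [(IsAlgClosed.splits p).eq_prod_roots, ← p.roots.attach_map_val]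
      rw [Multiset.map_map]
      simp [lift, Function.comp_def]
    rw [key, Polynomial.map_mul, map_C, eval_mul, eval_C, mul_eq_zero] at hroot
    rcases hroot with h | h
    · exfalso
      have h' := congrArg (coeff · (n ^ 2 - 1)) key
      simp only [coeff_C_mul] at h'
      rw [h'] at hu
      have := (isUnit_of_mul_isUnit_left hu).map (residue A)
      rw [h] at this
      exact not_isUnit_zero this
    · rw [Polynomial.map_multiset_prod, eval_multiset_prod, Multiset.prod_eq_zero_iff] at h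
      simp only [Multiset.map_map, Multiset.mem_map, Function.comp_apply, Polynomial.map_sub,
        map_X, map_C, eval_sub, eval_X, eval_C, sub_eq_zero, Multiset.mem_attach, true_and,
        Subtype.exists] at h
      obtain ⟨r, hr, e⟩ := h
      exact ⟨lift ⟨r, hr⟩, isRoot_of_mem_roots hr, e.symm⟩
  obtain ⟨s, hs⟩ := exists_nonsingular V (r : L)
  have hsA : s ∈ A := hV.y_mem r.2 hs.1
  have hres : res A (r : L) = xb := by rw [res_coe, hrr]
  have heq := hV.equation_res r.2 hsA hs.1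
  have hP : n • Affine.Point.some (r : L) s hs = 0 := (nsmul_eq_zero_iff hs n).mpr hr
  rw [hres] at heq
  rcases Affine.Y_eq_of_X_eq heq hb.1 rfl with hy | hy
  · have hns : Vb.Nonsingular (res A (r : L)) (res A s) := by rw [hres, hy]; exact hb
    exact ⟨.some (r : L) s hs, Or.inr ⟨r.2, hsA, hns⟩, hP,
      by rw [red_some r.2 hsA hns]; simp only [hres, hy]⟩
  · obtain ⟨hm, hn'⟩ := hV.negY_res r.2 hsA
    rw [hres, hy, Affine.negY_negY] at hn'
    have hns : Vb.Nonsingular (res A (r : L)) (res A (V.negY r s)) := by rw [hres, hn']; exact hb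
    refine ⟨.some _ _ ((Affine.nonsingular_neg ..).mpr hs), Or.inr ⟨r.2, hm, hns⟩, ?_, ?_⟩
    · rw [← Affine.Point.neg_some hs, smul_neg, hP, neg_zero]
    · rw [red_some r.2 hm hns]; simp only [hres, hn']

end Fermat.Agent.EC
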