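import Fermat.Prelude.Def_FLTPrelim_Modularity
import Fermat.Prelude.Def_FLTPrelim_Ramification
import Fermat.Agent.EC.Reduction
import Fermat.Agent.EC.TorsionGalois
import Fermat.Agent.Gal.Basic

/-!
# Reduction at places of `ℚ̄` of curves with an integral model

Good reduction implies that the `n`-torsion is unramified away from `n` (the easy direction of
Néron–Ogg–Shafarevich); `InZeroComponentAt` is a subgroup.
-/

noncomputable section

namespace Fermat.Agent.EC

open IsLocalRing WeierstrassCurve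
open scoped WeierstrassCurve.Affine

local notation "Qbar" => AlgebraicClosure ℚ

variable (W : WeierstrassCurve ℤ) (A : ValuationSubring (AlgebraicClosure ℚ))

/-- The reduction at `A` of an integral model. -/
def reductionAt : WeierstrassCurve (ResidueField A) :=
  W.map (Int.castRingHom (ResidueField A))

lemma isReduction_int :
    IsReduction A ((W.map (Int.castRingHom ℚ))⁄Qbar).toAffine (reductionAt W A) := by
  refine ⟨W.map (Int.castRingHom A), ?_, ?_⟩
  · show (W.map (Int.castRingHom A)).map A.subtype =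
      (W.map (Int.castRingHom ℚ)).map (algebraMap ℚ Qbar)
    rw [map_map, map_map]
    congr 1
  · rw [map_map, reductionAt]
    congr 1

lemma inZero_iff_inZeroComponentAt (P : ((W.map (Int.castRingHom ℚ))⁄Qbar).Point) :
    InZero (reductionAt W A).toAffine P ↔ W.InZeroComponentAt A P := by
  rcases P with _ | ⟨x, y, h⟩
  · exact iff_of_true (Or.inl trivial) (Or.inl rfl)
  constructor
  · rintro (hx | ⟨hx, hy, hs⟩)
    · exact Or.inr ⟨x, y, h, rfl, Or.inl hx⟩
    · rw [res_eq A hx, res_eq A hy] at hs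
      exact Or.inr ⟨x, y, h, rfl, Or.inr ⟨hx, hy, hs⟩⟩
  · rintro (e | ⟨x', y', h', e, hx⟩)
    · exact absurd e (Affine.Point.some_ne_zero _)
    · obtain ⟨rfl, rfl⟩ := Affine.Point.some.inj e
      rcases hx with hx | ⟨hx, hy, hs⟩
      · exact Or.inl hx
      · exact Or.inr ⟨hx, hy, by rw [res_eq A hx, res_eq A hy]; exact hs⟩

open Classical in
/-- `InZeroComponentAt` is closed under the group operations. -/
def zeroComponentAt : AddSubgroup ((W.map (Int.castRingHom ℚ))⁄Qbar).Point :=
  (zeroComponent (isReduction_int W A)).copy {P | W.InZeroComponentAt A P}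
    (Set.ext fun P ↦ (inZero_iff_inZeroComponentAt W A P).symm)

lemma reductionAt_Δ_ne_zero {q : ℕ} (hq : q.Prime) (hA : A.LiesOverPrime q)
    (hgood : W.IsGoodPrimeFor q) : (reductionAt W A).Δ ≠ 0 := by
  have := Gal.residueField_charP hq hA
  rw [reductionAt, map_Δ]
  exact fun h ↦ hgood ((CharP.intCast_eq_zero_iff (ResidueField A) q W.Δ).mp h)

lemma natCast_residue_ne_zero {q n : ℕ} (hq : q.Prime) (hA : A.LiesOverPrime q) (hqn : ¬ q ∣ n) :
    (n : ResidueField A) ≠ 0 := by
  have := Gal.residueField_charP hq hA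
  exact fun h ↦ hqn ((CharP.cast_eq_zero_iff (ResidueField A) q n).mp h)

variable {W A}

open Classical in
/-- An inertia element fixes torsion points of order prime to the residue characteristic whose
reduction is nonsingular (any reduction type). -/
theorem inertia_fixes_torsion {q n : ℕ} (hq : q.Prime) (hA : A.LiesOverPrime q) (hqn : ¬ q ∣ n)
    {σ : Qbar ≃ₐ[ℚ] Qbar} (hσ : σ ∈ A.inertiaSubgroupIn ℚ)
    {P : ((W.map (Int.castRingHom ℚ))⁄Qbar).Point} (hP : W.InZeroComponentAt A P)
    (hn : n • P = 0) : σ • P = P := by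
  have hV := isReduction_int W A
  have hnk := natCast_residue_ne_zero A hq hA hqn
  rw [← inZero_iff_inZeroComponentAt] at hP
  rcases P with _ | ⟨x, y, h⟩
  · rfl
  obtain ⟨hx, hy⟩ := torsion_mem hV hnk hn
  have hPu : UnitPt (reductionAt W A).toAffine (Affine.Point.some x y h :
      ((W.map (Int.castRingHom ℚ))⁄Qbar).Point) := hP.resolve_left fun h' ↦ h' hx
  obtain ⟨hD, hI⟩ := Gal.mem_inertia_iff.mp hσ
  have hx' : σ x ∈ A := (Gal.mem_decomposition_iff.mp hD x).mpr hx
  have hy' : σ y ∈ A := (Gal.mem_decomposition_iff.mp hD y).mpr hy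
  have ex : res A (σ x) = res A x := by
    rw [← sub_eq_zero, ← res_sub hx' hx, res_eq_zero_iff (sub_mem hx' hx)]; exact hI x hx
  have ey : res A (σ y) = res A y := by
    rw [← sub_eq_zero, ← res_sub hy' hy, res_eq_zero_iff (sub_mem hy' hy)]; exact hI y hy
  have h' : ((W.map (Int.castRingHom ℚ))⁄Qbar).Nonsingular (σ x) (σ y) :=
    (Affine.baseChange_nonsingular _ σ.toAlgHom.injective x y).mpr h
  rw [Affine.Point.algEquiv_smul_def, Affine.Point.map_some]
  refine red_injOn_torsion hV hnk (P := Affine.Point.some (σ x) (σ y) h')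
    (Or.inr ⟨hx', hy', by rw [ex, ey]; exact hPu.2.2⟩) (Or.inr hPu) ?_ hn ?_
  · have e : Affine.Point.some (σ x) (σ y) h' = σ • (Affine.Point.some x y h :
        ((W.map (Int.castRingHom ℚ))⁄Qbar).Point) := rfl
    rw [e, ← natCast_zsmul, ← Affine.Point.algEquiv_smul_zsmul, natCast_zsmul, hn, smul_zero]
  · rw [red_some hx' hy' (by rw [ex, ey]; exact hPu.2.2), red_some hx hy hPu.2.2]
    simp only [ex, ey]

open Classical in
lemma inZeroComponentAt_of_good {q : ℕ} (hq : q.Prime) (hA : A.LiesOverPrime q)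
    (hgood : W.IsGoodPrimeFor q) (P : ((W.map (Int.castRingHom ℚ))⁄Qbar).Point) :
    W.InZeroComponentAt A P := by
  have : (reductionAt W A).IsElliptic := ⟨(reductionAt_Δ_ne_zero W A hq hA hgood).isUnit⟩
  exact (inZero_iff_inZeroComponentAt W A P).mp (inZero_of_isElliptic (isReduction_int W A) P)

/-- **Néron–Ogg–Shafarevich, easy direction.** -/
theorem galoisRepUnramifiedAt_of_good (W : WeierstrassCurve ℤ) (n q : ℕ) (hq : q.Prime)
    (hqn : ¬ q ∣ n) (hgood : W.IsGoodPrimeFor q) :
    Affine.Point.GaloisRepUnramifiedAt (K := Qbar) ℚ (W.map (Int.castRingHom ℚ)) n q :=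
  fun A hA σ hσ x ↦ Subtype.ext
    (inertia_fixes_torsion hq hA hqn hσ (inZeroComponentAt_of_good hq hA hgood x.1)
      (by rw [← natCast_zsmul]; exact (Submodule.mem_torsionBy_iff _ _).mp x.2))

/-- Good reduction at `q ≠ p` implies that `E[p]` is unramified at `q`. -/
theorem residualRep_isUnramifiedAt_of_good (W : WeierstrassCurve ℤ)
    [(W.map (Int.castRingHom ℚ)).IsElliptic] (p q : ℕ) [Fact p.Prime] (hq : q.Prime)
    (hqp : q ≠ p) (hgood : W.IsGoodPrimeFor q) :
    (residualRep (W.map (Int.castRingHom ℚ)) p).IsUnramifiedAt q := fun A hA σ hσ ↦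
  LinearMap.ext fun x ↦ galoisRepUnramifiedAt_of_good W p q hq
    (fun h ↦ hqp ((Nat.prime_dvd_prime_iff_eq hq (Fact.out : p.Prime)).mp h)) hgood A hA σ hσ x

end Fermat.Agent.EC
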