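import Mathlib.Algebra.Algebra.ZMod
import Fermat.Prelude.Def_EllipticCurve_FrobeniusTrace
import Fermat.Agent.EC.DetCyclotomic
import Fermat.Agent.EC.FrobTraceQuad
import Fermat.Agent.EC.GoodReduction
import Fermat.Agent.Gal.RepTwo

/-!
# The trace of Frobenius on the torsion of an elliptic curve with good reduction

At a prime `ℓ ≠ p` of good reduction a Frobenius element acts on `E[p]` with characteristic
polynomial `X² - a_ℓ X + ℓ`.
-/

noncomputable section

namespace Fermat.Agent.EC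

open IsLocalRing WeierstrassCurve Polynomial
open scoped WeierstrassCurve.Affine

local notation "Qbar" => AlgebraicClosure ℚ

variable (W : WeierstrassCurve ℤ) (p ℓ : ℕ) {A : ValuationSubring (AlgebraicClosure ℚ)}
  {σ : AlgebraicClosure ℚ ≃ₐ[ℚ] AlgebraicClosure ℚ}

/-- A model with a good prime has nonzero discriminant. -/
lemma isElliptic_rat_of_good {W : WeierstrassCurve ℤ} {ℓ : ℕ} (hgood : W.IsGoodPrimeFor ℓ) :
    (W.map (Int.castRingHom ℚ)).IsElliptic := by
  refine ⟨IsUnit.mk0 _ ?_⟩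
  rw [map_Δ, eq_intCast, Int.cast_ne_zero]
  intro h
  exact hgood (h ▸ dvd_zero _)

open Classical in
/-- A Frobenius element satisfies the characteristic equation of the reduced curve on torsion. -/
theorem frobenius_torsion_quadratic {n : ℕ} (hℓ : ℓ.Prime) (hn : ¬ ℓ ∣ n)
    (hgood : W.IsGoodPrimeFor ℓ) (hA : A.LiesOverPrime ℓ) (hσ : A.IsFrobeniusAt σ ℓ)
    {P : ((W.map (Int.castRingHom ℚ))⁄Qbar).Point} (hP : n • P = 0) :
    σ • σ • P - W.apOfModel ℓ • σ • P + (ℓ : ℤ) • P = 0 := by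
  have : Fact ℓ.Prime := ⟨hℓ⟩
  have := Gal.residueField_charP hℓ hA
  have : IsAlgClosed (ResidueField A) := Gal.residueField_isAlgClosed
  let _ : Algebra (ZMod ℓ) (ResidueField A) := ZMod.algebra _ ℓ
  set k := ResidueField A
  set Wb := W.reductionMod ℓ with hWb
  have : Wb.IsElliptic := by
    refine ⟨IsUnit.mk0 _ ?_⟩
    rw [hWb, reductionMod, map_Δ]
    exact fun h ↦ hgood ((ZMod.intCast_zmod_eq_zero_iff_dvd _ ℓ).mp h)
  set Vb := (Wb⁄k).toAffine with hVb
  have : Vb.IsElliptic := inferInstanceAs (Wb.map (algebraMap (ZMod ℓ) k)).IsElliptic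
  have heq : reductionAt W A = Vb := by
    show W.map _ = (W.map _).map _
    rw [WeierstrassCurve.map_map]
    congr 1
    exact Subsingleton.elim _ _
  have hV : IsReduction A ((W.map (Int.castRingHom ℚ))⁄Qbar).toAffine Vb :=
    heq ▸ isReduction_int W A
  have hnk := natCast_residue_ne_zero A hℓ hA hn
  set rd := redHomGood hV with hrd
  obtain ⟨hD, hF⟩ := Gal.isFrobeniusAt_iff.mp hσ
  have htor : ∀ {Q : ((W.map (Int.castRingHom ℚ))⁄Qbar).Point}, n • Q = 0 → n • σ • Q = 0 :=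
    fun {Q} h ↦ by
      rw [← natCast_zsmul, ← Affine.Point.algEquiv_smul_zsmul, natCast_zsmul, h, smul_zero]
  -- reduction carries `σ` to Frobenius
  have key : ∀ {Q : ((W.map (Int.castRingHom ℚ))⁄Qbar).Point}, n • Q = 0 →
      rd (σ • Q) = frobHom Wb (rd Q) := by
    intro Q hQ
    rcases Q with _ | ⟨x, y, h⟩
    · show rd (σ • (0 : ((W.map (Int.castRingHom ℚ))⁄Qbar).Point)) = frobHom Wb (rd 0)
      exact (map_zero (frobHom Wb)).symm
    obtain ⟨hx, hy⟩ := torsion_mem hV hnk hQ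
    have hfrob : ∀ {z : Qbar} (hz : z ∈ A), ∃ hz' : σ z ∈ A, res A (σ z) = res A z ^ ℓ := by
      intro z hz
      have hz' : σ z ∈ A := (Gal.mem_decomposition_iff.mp hD z).mpr hz
      refine ⟨hz', ?_⟩
      rw [← res_pow hz, ← sub_eq_zero, ← res_sub hz' (pow_mem hz ℓ),
        res_eq_zero_iff (sub_mem hz' (pow_mem hz ℓ))]
      exact hF z hz
    obtain ⟨hx', ex⟩ := hfrob hx
    obtain ⟨hy', ey⟩ := hfrob hy
    have hns : Vb.Nonsingular (res A x) (res A y) :=
      Affine.equation_iff_nonsingular.mp (IsReduction.equation_res hV hx hy h.1)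
    obtain ⟨h', e'⟩ := frobHom_some Wb hns
    have hσQ : ∃ h'', σ • (Affine.Point.some x y h : ((W.map (Int.castRingHom ℚ))⁄Qbar).Point) =
        .some (σ x) (σ y) h'' := ⟨_, Affine.Point.map_some _ h⟩
    obtain ⟨h'', e''⟩ := hσQ
    show red Vb (σ • (Affine.Point.some x y h : ((W.map (Int.castRingHom ℚ))⁄Qbar).Point)) =
      frobHom Wb (red Vb (Affine.Point.some x y h : ((W.map (Int.castRingHom ℚ))⁄Qbar).Point))
    rw [e'', red_some hx hy hns, e',
      red_some hx' hy'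
          (Affine.equation_iff_nonsingular.mp (IsReduction.equation_res hV hx' hy' h''.1))]
    simp only [ex, ey, ZMod.card]
  have hz : rd (σ • σ • P - W.apOfModel ℓ • σ • P + (ℓ : ℤ) • P) = rd 0 := by
    rw [map_add, map_sub, map_zsmul, map_zsmul, key (htor hP), key hP, map_zero]
    have := frobHom_quadratic Wb (rd P)
    rwa [ZMod.card, show frobTrace Wb = W.apOfModel ℓ by
      simp [frobTrace, apOfModel, traceOfFrobenius, WeierstrassCurve.card, hWb]] at this
  refine red_injOn_torsion hV hnk (inZero_of_isElliptic hV _) (inZero_of_isElliptic hV _) ?_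
    (smul_zero n) hz
  rw [nsmul_add, nsmul_sub, htor (htor hP), smul_comm n (W.apOfModel ℓ), htor hP,
    smul_comm n (ℓ : ℤ), hP, smul_zero, smul_zero, sub_zero, add_zero]

open Classical in
/-- The determinant of Frobenius on `E[p]` is `ℓ`. -/
theorem det_frobenius (E : WeierstrassCurve ℚ) [E.IsElliptic] [Fact p.Prime] (hℓ : ℓ.Prime)
    (hℓp : ℓ ≠ p) (hA : A.LiesOverPrime ℓ) (hσ : A.IsFrobeniusAt σ ℓ) :
    LinearMap.det (Affine.Point.galoisRepModuleEnd (K := Qbar) ℚ E.toAffine p σ) =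
      (ℓ : ZMod p) := by
  have hp : p.Prime := Fact.out
  have : NeZero p := ⟨hp.ne_zero⟩
  have : NeZero (p : Qbar) := ⟨Nat.cast_ne_zero.mpr hp.ne_zero⟩
  have hn : Nat.card (rootsOfUnity p Qbar) = p := HasEnoughRootsOfUnity.natCard_rootsOfUnity Qbar p
  have h := congrArg Units.val (galoisRepDetEqCyclotomic E p hn σ)
  rw [Affine.Point.galoisRepDet_apply, LinearEquiv.coe_det] at h
  refine h.trans (Eq.symm ?_)
  refine modularCyclotomicCharacter.unique Qbar hn _ fun t ht ↦ ?_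
  have htp : (t : Qbar) ^ p = 1 := by
    rw [← Units.val_pow_eq_pow_val, (mem_rootsOfUnity p t).mp ht, Units.val_one]
  have hdvd : ¬ ℓ ∣ p := fun h ↦ hℓp ((Nat.prime_dvd_prime_iff_eq hℓ hp).mp h)
  show σ (t : Qbar) = ((t ^ ((ℓ : ZMod p)).val : Qbarˣ) : Qbar)
  rw [Gal.isFrobeniusAt_rootOfUnity hℓ hA hσ hdvd htp, Units.val_pow_eq_pow_val, ZMod.val_natCast,
    ← pow_mod_orderOf, ← pow_mod_orderOf (t : Qbar) (ℓ % p),
    Nat.mod_mod_of_dvd _ (orderOf_dvd_of_pow_eq_one htp)]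

open Classical in
/-- **Frobenius trace.**  The trace of Frobenius on `E[p]` is `a_ℓ`. -/
theorem galoisTrace_frobenius [Fact p.Prime] (hℓ : ℓ.Prime) (hℓp : ℓ ≠ p)
    (hgood : W.IsGoodPrimeFor ℓ) (hA : A.LiesOverPrime ℓ) (hσ : A.IsFrobeniusAt σ ℓ) :
    Affine.Point.galoisTrace ℚ (W.map (Int.castRingHom ℚ)).toAffine p σ =
      (W.apOfModel ℓ : ZMod p) := by
  have hp : p.Prime := Fact.out
  have := isElliptic_rat_of_good hgood
  set E := W.map (Int.castRingHom ℚ) with hE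
  have hpQ : (p : Qbar) ≠ 0 := Nat.cast_ne_zero.mpr hp.ne_zero
  have hrank := finrank_torsionBy E p hpQ
  have : Finite (Submodule.torsionBy ℤ (E⁄Qbar).Point (p : ℤ)) := finite_torsionBy E p hpQ
  have : Module.Finite (ZMod p) (Submodule.torsionBy ℤ (E⁄Qbar).Point (p : ℤ)) :=
    Module.Finite.of_finite
  set f := Affine.Point.galoisRepModuleEnd (K := Qbar) ℚ E.toAffine p σ with hf
  have hdvd : ¬ ℓ ∣ p := fun h ↦ hℓp ((Nat.prime_dvd_prime_iff_eq hℓ hp).mp h)
  have hquad : ∀ x, f (f x) - (W.apOfModel ℓ : ZMod p) • f x + (ℓ : ZMod p) • x = 0 := fun x ↦ by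
    rw [Int.cast_smul_eq_zsmul, Nat.cast_smul_eq_nsmul, ← natCast_zsmul]
    apply Subtype.ext
    exact frobenius_torsion_quadratic W ℓ hℓ hdvd hgood hA hσ (P := x.1)
      (by rw [← natCast_zsmul]; exact (Submodule.mem_torsionBy_iff _ _).mp x.2)
  have hdet := det_frobenius p ℓ E hℓ hℓp hA hσ
  rw [← hf] at hdet
  have hne : (ℓ : ZMod p) ≠ 0 := by
    rw [Ne, ZMod.natCast_eq_zero_iff]
    exact fun h ↦ hℓp ((Nat.prime_dvd_prime_iff_eq hp hℓ).mp h).symm
  obtain ⟨x, hx⟩ := @exists_ne _ (nontrivial_torsionBy E p hpQ) 0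
  have hfx : f x ≠ 0 := fun h ↦ by
    have := hquad x
    rw [h, map_zero, smul_zero, sub_zero, zero_add, smul_eq_zero] at this
    exact this.elim hne hx
  have hch := LinearMap.congr_fun (Gal.cayleyHamilton_two hrank f) x
  simp only [Module.End.mul_apply, LinearMap.sub_apply, LinearMap.smul_apply,
    Module.End.one_apply, hdet] at hch
  have h := hquad x
  rw [hch] at h
  have : (Affine.Point.galoisTrace ℚ E.toAffine p σ - (W.apOfModel ℓ : ZMod p)) • f x = 0 := by
    rw [sub_smul, Affine.Point.galoisTrace_def, ← h, ← hf]; abel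
  exact sub_eq_zero.mp ((smul_eq_zero.mp this).resolve_right hfx)

open Classical in
/-- **Frobenius characteristic polynomial.**  On `E[p]` it is `X² - a_ℓ X + ℓ`. -/
theorem charpoly_frobenius [Fact p.Prime]
    [Module.Free (ZMod p)
      (Submodule.torsionBy ℤ ((W.map (Int.castRingHom ℚ))⁄Qbar).Point (p : ℤ))]
    [Module.Finite (ZMod p)
      (Submodule.torsionBy ℤ ((W.map (Int.castRingHom ℚ))⁄Qbar).Point (p : ℤ))]
    (hℓ : ℓ.Prime) (hℓp : ℓ ≠ p) (hgood : W.IsGoodPrimeFor ℓ)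
    (hA : A.LiesOverPrime ℓ) (hσ : A.IsFrobeniusAt σ ℓ) :
    LinearMap.charpoly (Affine.Point.galoisRepModuleEnd (K := Qbar) ℚ
        (W.map (Int.castRingHom ℚ)).toAffine p σ) =
      X ^ 2 - C (W.apOfModel ℓ : ZMod p) * X + C (ℓ : ZMod p) := by
  have := isElliptic_rat_of_good hgood
  rw [Gal.charpoly_fin_two' (finrank_torsionBy (W.map (Int.castRingHom ℚ)) p
      (Nat.cast_ne_zero.mpr (Fact.out : p.Prime).ne_zero)),
    ← galoisTrace_frobenius W p ℓ hℓ hℓp hgood hA hσ,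
    det_frobenius p ℓ (W.map (Int.castRingHom ℚ)) hℓ hℓp hA hσ, Affine.Point.galoisTrace_def]

end Fermat.Agent.EC
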