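import Fermat.Agent.EC.TorsionCard

/-!
# The degree of an endomorphism, read off from `x`-coordinates

An endomorphism `φ` of the group of points over an algebraically closed field has degree `d` when,
outside finitely many abscissae, `x(φ P)` is given by a pair of coprime polynomials of maximal
degree `d`.  This degree satisfies the parallelogram law and is multiplicative.
-/

noncomputable section

namespace Fermat.Agent.EC

open WeierstrassCurve Polynomial

/-- The symmetric product of two pairs. -/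
def sym3 {R : Type*} [CommRing R] (v w : Fin 2 → R) : Fin 3 → R :=
  ![v 0 * w 0, v 0 * w 1 + v 1 * w 0, v 1 * w 1]

variable {k : Type*} [Field k] {n : ℕ}

/-- The values of a vector of polynomials. -/
def evalVec (v : Fin n → k[X]) (x : k) : Fin n → k := fun i ↦ (v i).eval x

/-- A vector of polynomials without common zero. -/
def Primitive (v : Fin n → k[X]) : Prop := ∀ x, evalVec v x ≠ 0

/-- The maximal degree of the entries is `d`. -/
def HasMaxDeg (v : Fin n → k[X]) (d : ℕ) : Prop :=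
  (∀ i, (v i).natDegree ≤ d) ∧ (fun i ↦ (v i).coeff d) ≠ 0

lemma HasMaxDeg.unique {v : Fin n → k[X]} {d e : ℕ} (hd : HasMaxDeg v d) (he : HasMaxDeg v e) :
    d = e := by
  rcases lt_trichotomy d e with h | h | h
  · exact absurd (funext fun i ↦ coeff_eq_zero_of_natDegree_lt ((hd.1 i).trans_lt h)) he.2
  · exact h
  · exact absurd (funext fun i ↦ coeff_eq_zero_of_natDegree_lt ((he.1 i).trans_lt h)) hd.2

lemma HasMaxDeg.smul {v : Fin n → k[X]} {d : ℕ} (hd : HasMaxDeg v d) {c : k} (hc : c ≠ 0) :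
    HasMaxDeg (fun i ↦ C c * v i) d := by
  refine ⟨fun i ↦ (natDegree_C_mul_le _ _).trans (hd.1 i), fun h ↦ hd.2 (funext fun i ↦ ?_)⟩
  simpa [hc] using congrFun h i

lemma Primitive.ne_zero {v : Fin n → k[X]} (hv : Primitive v) : v ≠ 0 := fun h ↦
  hv 0 (funext fun i ↦ by simp [evalVec, h])

lemma exists_hasMaxDeg {v : Fin n → k[X]} (hv : Primitive v) : ∃ d, HasMaxDeg v d := by
  classical
  obtain ⟨i, hi⟩ := Function.ne_iff.mp hv.ne_zero
  have hne : (Finset.univ : Finset (Fin n)).Nonempty := ⟨i, Finset.mem_univ i⟩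
  obtain ⟨j, -, hj⟩ := Finset.exists_max_image Finset.univ (fun j ↦ (v j).natDegree) hne
  refine ⟨(v j).natDegree, fun l ↦ hj l (Finset.mem_univ l), fun h ↦ ?_⟩
  have hj0 : v j = 0 := leadingCoeff_eq_zero.mp (congrFun h j)
  have hi0 : (v i).natDegree = 0 := by
    have := hj i (Finset.mem_univ i); rw [hj0, natDegree_zero] at this; omega
  have hd : (v j).natDegree = 0 := by rw [hj0, natDegree_zero]
  have := congrFun h i
  simp only [hd, Pi.zero_apply] at this
  exact hi (by rw [eq_C_of_natDegree_eq_zero hi0, this, map_zero]; rfl)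

variable [IsAlgClosed k]

lemma Primitive.exists_bezout {v : Fin n → k[X]} (hv : Primitive v) :
    ∃ u : Fin n → k[X], ∑ i, u i * v i = 1 := by
  rw [← Ideal.mem_span_range_iff_exists_fun, ← Ideal.eq_top_iff_one]
  obtain ⟨g, hg⟩ := (IsPrincipalIdealRing.principal (Ideal.span (Set.range v))).principal
  rw [hg]
  refine Ideal.span_singleton_eq_top.mpr ?_
  have hdvd : ∀ i, g ∣ v i := fun i ↦ Ideal.mem_span_singleton.mp
    ((hg ▸ Ideal.subset_span ⟨i, rfl⟩ : v i ∈ Submodule.span k[X] {g}))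
  have hroot : ∀ x, g.eval x ≠ 0 := fun x hx ↦ hv x (funext fun i ↦ by
    obtain ⟨q, hq⟩ := hdvd i
    simp [evalVec, hq, hx])
  have hg0 : g ≠ 0 := fun h ↦ hroot 0 (by rw [h, eval_zero])
  rw [Polynomial.isUnit_iff_degree_eq_zero]
  by_contra hdeg
  obtain ⟨x, hx⟩ := IsAlgClosed.exists_root g hdeg
  exact hroot x hx

/-- Two primitive vectors that are everywhere proportional differ by a constant. -/
lemma eq_smul_of_cross {v w : Fin n → k[X]} (hv : Primitive v) (hw : Primitive w)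
    (h : ∀ i j, v i * w j = v j * w i) : ∃ c : k, c ≠ 0 ∧ w = fun i ↦ C c * v i := by
  obtain ⟨u, hu⟩ := hv.exists_bezout
  set g := ∑ i, u i * w i with hg
  have hwg : ∀ j, w j = g * v j := fun j ↦ by
    calc w j = (∑ i, u i * v i) * w j := by rw [hu, one_mul]
      _ = g * v j := by
        rw [hg, Finset.sum_mul, Finset.sum_mul]
        exact Finset.sum_congr rfl fun i _ ↦ by rw [mul_assoc, h i j]; ring
  have hroot : ∀ x, g.eval x ≠ 0 := fun x hx ↦ hw x (funext fun i ↦ by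
    simp [evalVec, hwg i, hx])
  have hdeg : g.degree = 0 := by
    by_contra hdeg
    obtain ⟨x, hx⟩ := IsAlgClosed.exists_root g hdeg
    exact hroot x hx
  obtain ⟨c, hc, hgc⟩ := Polynomial.isUnit_iff.mp (Polynomial.isUnit_iff_degree_eq_zero.mpr hdeg)
  exact ⟨c, hc.ne_zero, funext fun j ↦ by rw [hwg j, hgc]⟩

omit [IsAlgClosed k] in
lemma cross_of_cofinite [Infinite k] {v w : Fin n → k[X]} {bad : Finset k}
    (h : ∀ x ∉ bad, ∃ c : k, evalVec w x = c • evalVec v x) (i j : Fin n) :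
    v i * w j = v j * w i := by
  refine sub_eq_zero.mp (eq_zero_of_infinite_isRoot _
    ((bad.finite_toSet.infinite_compl).mono fun x hx ↦ ?_))
  obtain ⟨c, hc⟩ := h x hx
  have hi := congrFun hc i
  have hj := congrFun hc j
  simp only [evalVec, Pi.smul_apply, smul_eq_mul] at hi hj
  simp only [Set.mem_ofPred_eq, IsRoot, eval_sub, eval_mul, hi, hj]
  ring

lemma sym3_smul {R : Type*} [CommRing R] (a b : R) (v w : Fin 2 → R) :
    sym3 (a • v) (b • w) = (a * b) • sym3 v w := by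
  funext i; fin_cases i <;> simp [sym3] <;> ring

omit [IsAlgClosed k] in
lemma sym3_ne_zero {v w : Fin 2 → k} (hv : v ≠ 0) (hw : w ≠ 0) : sym3 v w ≠ 0 := by
  intro h
  have h0 : v 0 * w 0 = 0 := congrFun h 0
  have h1 : v 0 * w 1 + v 1 * w 0 = 0 := congrFun h 1
  have h2 : v 1 * w 1 = 0 := congrFun h 2
  rcases mul_eq_zero.mp h0 with a | a
  · have : v 1 ≠ 0 := fun b ↦ hv (funext fun i ↦ by fin_cases i <;> assumption)
    rw [a, zero_mul, zero_add] at h1
    exact hw (funext fun i ↦ by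
      fin_cases i
      · exact (mul_eq_zero.mp h1).resolve_left this
      · exact (mul_eq_zero.mp h2).resolve_left this)
  · have : w 1 ≠ 0 := fun b ↦ hw (funext fun i ↦ by fin_cases i <;> assumption)
    rw [a, mul_zero, add_zero] at h1
    exact hv (funext fun i ↦ by
      fin_cases i
      · exact (mul_eq_zero.mp h1).resolve_right this
      · exact (mul_eq_zero.mp h2).resolve_right this)

omit [IsAlgClosed k] in
lemma sym3_cancel {v w u : Fin 2 → k} (hu : u ≠ 0) (h : sym3 v u = sym3 w u) : v = w := by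
  have h0 : v 0 * u 0 = w 0 * u 0 := congrFun h 0
  have h1 : v 0 * u 1 + v 1 * u 0 = w 0 * u 1 + w 1 * u 0 := congrFun h 1
  have h2 : v 1 * u 1 = w 1 * u 1 := congrFun h 2
  by_cases a : u 0 = 0
  · have hb : u 1 ≠ 0 := fun b ↦ hu (funext fun i ↦ by fin_cases i <;> assumption)
    rw [a, mul_zero, add_zero, mul_zero, add_zero] at h1
    exact funext fun i ↦ by
      fin_cases i
      · exact mul_right_cancel₀ hb h1
      · exact mul_right_cancel₀ hb h2
  · have e := mul_right_cancel₀ a h0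
    rw [e, add_right_inj] at h1
    exact funext fun i ↦ by
      fin_cases i
      · exact e
      · exact mul_right_cancel₀ a h1

omit [IsAlgClosed k] in
lemma evalVec_sym3 (v w : Fin 2 → k[X]) (x : k) :
    evalVec (sym3 v w) x = sym3 (evalVec v x) (evalVec w x) := by
  funext i; fin_cases i <;> simp [evalVec, sym3]

omit [IsAlgClosed k] in
lemma hasMaxDeg_sym3 {v w : Fin 2 → k[X]} {d e : ℕ} (hv : HasMaxDeg v d) (hw : HasMaxDeg w e) :
    HasMaxDeg (sym3 v w) (d + e) := by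
  have hp : ∀ i j, DegCoeff (v i * w j) (d + e) ((v i).coeff d * (w j).coeff e) := fun i j ↦
    DegCoeff.mul ⟨hv.1 i, rfl⟩ ⟨hw.1 j, rfl⟩
  refine ⟨fun i ↦ ?_, fun h ↦ sym3_ne_zero hv.2 hw.2 ?_⟩
  · fin_cases i
    · exact (hp 0 0).1
    · exact ((hp 0 1).add (hp 1 0)).1
    · exact (hp 1 1).1
  · rw [← h]
    funext i
    fin_cases i
    · exact (hp 0 0).2.symm
    · exact ((hp 0 1).add (hp 1 0)).2.symm
    · exact (hp 1 1).2.symm

omit [IsAlgClosed k] in
/-- Splitting a symmetric product off a coprime pair. -/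
lemma exists_sym3_factor {T : Fin 3 → k[X]} {u : Fin 2 → k[X]} (hu : IsCoprime (u 0) (u 1))
    (h : T 0 * u 1 ^ 2 - T 1 * u 0 * u 1 + T 2 * u 0 ^ 2 = 0) :
    ∃ v : Fin 2 → k[X], T = sym3 v u := by
  by_cases h0 : u 0 = 0
  · rw [h0, isCoprime_zero_left] at hu
    obtain ⟨w, hw⟩ := hu
    have hT0 : T 0 = 0 := by
      rw [h0] at h
      simpa [← hw] using h
    refine ⟨![T 1 * ↑w⁻¹, T 2 * ↑w⁻¹], funext fun i ↦ ?_⟩
    fin_cases i <;> simp [sym3, h0, hT0, ← hw, mul_assoc]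
  by_cases h1 : u 1 = 0
  · rw [h1, isCoprime_zero_right] at hu
    obtain ⟨w, hw⟩ := hu
    have hT2 : T 2 = 0 := by
      rw [h1] at h
      simpa [← hw] using h
    refine ⟨![T 0 * ↑w⁻¹, T 1 * ↑w⁻¹], funext fun i ↦ ?_⟩
    fin_cases i <;> simp [sym3, h1, hT2, ← hw, mul_assoc]
  obtain ⟨A, hA⟩ : u 0 ∣ T 0 := (hu.pow_right (n := 2)).dvd_of_dvd_mul_right
    ⟨T 1 * u 1 - T 2 * u 0, by linear_combination h⟩
  obtain ⟨B, hB⟩ : u 1 ∣ T 2 := (hu.symm.pow_right (n := 2)).dvd_of_dvd_mul_right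
    ⟨T 1 * u 0 - T 0 * u 1, by linear_combination h⟩
  refine ⟨![A, B], funext fun i ↦ ?_⟩
  have hmid : T 1 = A * u 1 + B * u 0 := by
    apply mul_left_cancel₀ (mul_ne_zero h0 h1)
    rw [hA, hB] at h
    linear_combination -h
  fin_cases i
  · simp [sym3, hA, mul_comm]
  · simp [sym3, hmid]
  · simp [sym3, hB, mul_comm]

lemma Primitive.isCoprime {v : Fin 2 → k[X]} (hv : Primitive v) : IsCoprime (v 0) (v 1) := by
  obtain ⟨u, hu⟩ := hv.exists_bezout
  rw [Fin.sum_univ_two] at hu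
  exact ⟨u 0, u 1, hu⟩

/-! ### Representations of endomorphisms -/

variable {V : Affine k} [DecidableEq k]

/-- `v` gives the `x`-coordinate of `φ` outside finitely many abscissae. -/
def IsRep (φ : V.Point →+ V.Point) (v : Fin 2 → k[X]) : Prop :=
  Primitive v ∧ ∃ bad : Finset k, ∀ (x y : k) (h : V.Nonsingular x y), x ∉ bad →
    ∃ c : k, c ≠ 0 ∧ evalVec v x = c • (φ (.some x y h)).xRep

/-- `φ` has degree `d`. -/
def HasDeg (φ : V.Point →+ V.Point) (d : ℕ) : Prop :=
  ∃ v, IsRep φ v ∧ HasMaxDeg v d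

variable [V.IsElliptic] {φ ψ : V.Point →+ V.Point} {a b c d : ℕ}

lemma IsRep.unique {v w : Fin 2 → k[X]} (hv : IsRep φ v) (hw : IsRep φ w) :
    ∃ c : k, c ≠ 0 ∧ w = fun i ↦ C c * v i := by
  classical
  obtain ⟨bv, hbv⟩ := hv.2
  obtain ⟨bw, hbw⟩ := hw.2
  refine eq_smul_of_cross hv.1 hw.1 (cross_of_cofinite (bad := bv ∪ bw) fun x hx ↦ ?_)
  rw [Finset.mem_union, not_or] at hx
  obtain ⟨y, hy⟩ := exists_nonsingular V x
  obtain ⟨r, hr, er⟩ := hbv x y hy hx.1
  obtain ⟨s, -, es⟩ := hbw x y hy hx.2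
  exact ⟨s / r, by rw [er, es, smul_smul, div_mul_cancel₀ s hr]⟩

/-- The degree is well defined. -/
theorem HasDeg.unique (hd : HasDeg φ a) (he : HasDeg φ b) : a = b := by
  obtain ⟨v, hv, hvd⟩ := hd
  obtain ⟨w, hw, hwd⟩ := he
  obtain ⟨c, hc, rfl⟩ := hv.unique hw
  exact (hvd.smul hc).unique hwd

omit [IsAlgClosed k] [V.IsElliptic] in
theorem hasDeg_zero : HasDeg (0 : V.Point →+ V.Point) 0 := by
  refine ⟨![1, 0], ⟨fun x h ↦ ?_, ∅, fun x y h _ ↦ ⟨1, one_ne_zero, ?_⟩⟩,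
    fun i ↦ by fin_cases i <;> simp, fun h ↦ ?_⟩
  · simpa [evalVec] using congrFun h 0
  · funext i; fin_cases i <;> simp [evalVec]
  · simpa using congrFun h 0

omit [IsAlgClosed k] [V.IsElliptic] in
theorem hasDeg_id : HasDeg (AddMonoidHom.id V.Point) 1 := by
  refine ⟨![X, 1], ⟨fun x h ↦ ?_, ∅, fun x y h _ ↦ ⟨1, one_ne_zero, ?_⟩⟩,
    fun i ↦ by fin_cases i <;> simp, fun h ↦ ?_⟩
  · simpa [evalVec] using congrFun h 1
  · funext i; fin_cases i <;> simp [evalVec]
  · simpa using congrFun h 0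

omit [IsAlgClosed k] [V.IsElliptic] in
theorem HasDeg.neg (hd : HasDeg φ a) : HasDeg (-φ) a := by
  obtain ⟨v, ⟨hv, bad, hb⟩, hd⟩ := hd
  exact ⟨v, ⟨hv, bad, fun x y h hx ↦ by
    obtain ⟨c, hc, e⟩ := hb x y h hx
    exact ⟨c, hc, by rw [AddMonoidHom.neg_apply, Affine.Point.xRep_neg]; exact e⟩⟩, hd⟩

omit [IsAlgClosed k] [DecidableEq k] [V.IsElliptic] in
lemma addSubEval_evalVec (T : Fin 3 → k[X]) (x : k) :
    evalVec (addSubEval (V.map C) T) x = addSubEval V (evalVec T x) := by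
  obtain ⟨s, t, u, rfl⟩ : ∃ s t u, T = ![s, t, u] :=
    ⟨T 0, T 1, T 2, by ext i; fin_cases i <;> simp⟩
  have e : evalVec ![s, t, u] x = ![s.eval x, t.eval x, u.eval x] := by
    funext i; fin_cases i <;> simp [evalVec]
  rw [e, addSubEval_eq, addSubEval_eq]
  funext i
  fin_cases i <;> simp [evalVec]

omit [IsAlgClosed k] [DecidableEq k] in
lemma hasMaxDeg_addSub {T : Fin 3 → k[X]} {d : ℕ} (hT : HasMaxDeg T d) :
    HasMaxDeg (addSubEval (V.map C) T) (d + d) := by
  obtain ⟨s, t, u, rfl⟩ : ∃ s t u, T = ![s, t, u] :=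
    ⟨T 0, T 1, T 2, by ext i; fin_cases i <;> simp⟩
  have hs : DegCoeff s d (s.coeff d) := ⟨hT.1 0, rfl⟩
  have ht : DegCoeff t d (t.coeff d) := ⟨hT.1 1, rfl⟩
  have hu : DegCoeff u d (u.coeff d) := ⟨hT.1 2, rfl⟩
  have hc : ∀ r : k, DegCoeff (C r) 0 r := fun r ↦ DegCoeff.const r
  have h2 : DegCoeff (2 : k[X]) 0 2 := by simpa only [map_ofNat] using DegCoeff.const (2 : k)
  have h4 : DegCoeff (4 : k[X]) 0 4 := by simpa only [map_ofNat] using DegCoeff.const (4 : k)
  have z : 0 + d + d = d + d := by omega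
  have e0 : DegCoeff (s ^ 2 - C V.b₄ * s * u - C V.b₆ * t * u - C V.b₈ * u ^ 2) (d + d) _ :=
    (((hs.pow 2).of_eq (by omega) rfl).sub ((((hc V.b₄).mul hs).mul hu).of_eq z rfl)).sub
      ((((hc V.b₆).mul ht).mul hu).of_eq z rfl) |>.sub
      (((hc V.b₈).mul (hu.pow 2)).of_eq (by omega) rfl)
  have e1 : DegCoeff (2 * t * s + C V.b₂ * s * u + C V.b₄ * t * u + C V.b₆ * u ^ 2) (d + d) _ :=
    ((((h2.mul ht).mul hs).of_eq z rfl).add ((((hc V.b₂).mul hs).mul hu).of_eq z rfl)).add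
      ((((hc V.b₄).mul ht).mul hu).of_eq z rfl) |>.add
      (((hc V.b₆).mul (hu.pow 2)).of_eq (by omega) rfl)
  have e2 : DegCoeff (t ^ 2 - 4 * s * u) (d + d) _ :=
    ((ht.pow 2).of_eq (by omega) rfl).sub (((h4.mul hs).mul hu).of_eq z rfl)
  rw [addSubEval_eq]
  simp only [map_b₂, map_b₄, map_b₆, map_b₈]
  refine ⟨fun i ↦ ?_, fun h ↦ addSubMap_ne_zero V hT.2 ?_⟩
  · fin_cases i
    exacts [e0.1, e1.1, e2.1]
  · have key : addSubEval V (fun i ↦ (![s, t, u] i).coeff d) = 0 := by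
      rw [← h, show (fun i ↦ (![s, t, u] i).coeff d) = ![s.coeff d, t.coeff d, u.coeff d] from
        funext fun i ↦ by fin_cases i <;> rfl, addSubEval_eq]
      funext i
      fin_cases i
      exacts [e0.2.symm, e1.2.symm, e2.2.symm]
    exact key

/-- The parallelogram law, together with the existence of the fourth term. -/
theorem HasDeg.add (hφ : HasDeg φ a) (hψ : HasDeg ψ b) (hsub : HasDeg (φ - ψ) c) :
    ∃ e, HasDeg (φ + ψ) e ∧ e + c = 2 * a + 2 * b := by
  classical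
  obtain ⟨v, hv, hva⟩ := hφ
  obtain ⟨w, hw, hwb⟩ := hψ
  obtain ⟨u, hu, huc⟩ := hsub
  obtain ⟨bv, hbv⟩ := hv.2
  obtain ⟨bw, hbw⟩ := hw.2
  obtain ⟨bu, hbu⟩ := hu.2
  set T := addSubEval (V.map C) (sym3 v w) with hT
  set bad := bv ∪ bw ∪ bu
  have hgood : ∀ (x y : k) (h : V.Nonsingular x y), x ∉ bad → ∃ r : k, r ≠ 0 ∧
      evalVec T x = r • sym3 ((φ + ψ) (.some x y h)).xRep (evalVec u x) := by
    intro x y h hx
    simp only [bad, Finset.mem_union, not_or] at hx
    obtain ⟨r₁, h₁, e₁⟩ := hbv x y h hx.1.1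
    obtain ⟨r₂, h₂, e₂⟩ := hbw x y h hx.1.2
    obtain ⟨r₃, h₃, e₃⟩ := hbu x y h hx.2
    obtain ⟨r, hr, er⟩ := addSubEval_sym2x (φ (.some x y h)) (ψ (.some x y h))
    refine ⟨(r₁ * r₂) ^ 2 * r * r₃⁻¹, by simp [h₁, h₂, hr, h₃], ?_⟩
    rw [hT, addSubEval_evalVec, evalVec_sym3, e₁, e₂, sym3_smul, addSubEval_smul, e₃,
      AddMonoidHom.sub_apply, AddMonoidHom.add_apply]
    show (r₁ * r₂) ^ 2 • addSubEval V ((φ _).sym2x (ψ _)) = _
    rw [er, smul_smul]
    conv_rhs => rw [← one_smul k (φ (.some x y h) + ψ (.some x y h)).xRep, sym3_smul, smul_smul,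
      one_mul, inv_mul_cancel_right₀ h₃]
    rfl
  have hTprim : Primitive T := fun x ↦ by
    rw [hT, addSubEval_evalVec]
    exact addSubMap_ne_zero V (by rw [evalVec_sym3]; exact sym3_ne_zero (hv.1 x) (hw.1 x))
  have hrel : T 0 * u 1 ^ 2 - T 1 * u 0 * u 1 + T 2 * u 0 ^ 2 = 0 := by
    refine eq_zero_of_infinite_isRoot _ ((bad.finite_toSet.infinite_compl).mono fun x hx ↦ ?_)
    obtain ⟨y, hy⟩ := exists_nonsingular V x
    obtain ⟨r, -, er⟩ := hgood x y hy hx
    have g0 := congrFun er 0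
    have g1 := congrFun er 1
    have g2 := congrFun er 2
    simp [evalVec, sym3] at g0 g1 g2
    simp only [Set.mem_ofPred_eq, IsRoot, eval_sub, eval_add, eval_mul, eval_pow, g0, g1, g2]
    ring
  obtain ⟨p, hp⟩ := exists_sym3_factor hu.1.isCoprime hrel
  have hpprim : Primitive p := fun x h0 ↦ hTprim x (by
    rw [hp, evalVec_sym3, h0]; funext i; fin_cases i <;> simp [sym3])
  have hprep : IsRep (φ + ψ) p := ⟨hpprim, bad, fun x y h hx ↦ by
    obtain ⟨r, hr, er⟩ := hgood x y h hx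
    refine ⟨r, hr, sym3_cancel (hu.1 x) ?_⟩
    rw [← evalVec_sym3, ← hp, er]
    conv_rhs => rw [← one_smul k (evalVec u x), sym3_smul, mul_one]⟩
  obtain ⟨e, he⟩ := exists_hasMaxDeg hpprim
  refine ⟨e, ⟨p, hprep, he⟩, ?_⟩
  have h₁ := hasMaxDeg_sym3 he huc
  rw [← hp] at h₁
  have := h₁.unique (hasMaxDeg_addSub (hasMaxDeg_sym3 hva hwb))
  omega

/-- Substituting a pair of polynomials in a polynomial, homogenised in degree `d`. -/
def homSubst (d : ℕ) (A : k[X]) (p q : k[X]) : k[X] :=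
  ∑ i ∈ Finset.range (d + 1), C (A.coeff i) * p ^ i * q ^ (d - i)

omit [IsAlgClosed k] [DecidableEq k] in
lemma eval_homSubst {d : ℕ} {A p q : k[X]} (hA : A.natDegree ≤ d) {x : k} (hq : q.eval x ≠ 0) :
    (homSubst d A p q).eval x = q.eval x ^ d * A.eval (p.eval x / q.eval x) := by
  rw [eval_eq_sum_range' (Nat.lt_succ_of_le hA), homSubst, eval_finsetSum, Finset.mul_sum]
  refine Finset.sum_congr rfl fun i hi ↦ ?_
  have hi : i ≤ d := Nat.lt_succ_iff.mp (Finset.mem_range.mp hi)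
  rw [eval_mul, eval_mul, eval_C, eval_pow, eval_pow, ← Nat.add_sub_cancel' hi, pow_add,
    Nat.add_sub_cancel_left, div_pow]
  field_simp

omit [IsAlgClosed k] [DecidableEq k] in
lemma eval_homSubst_of_zero {d : ℕ} {A p q : k[X]} {x : k} (hq : q.eval x = 0) :
    (homSubst d A p q).eval x = A.coeff d * p.eval x ^ d := by
  rw [homSubst, eval_finsetSum, Finset.sum_eq_single d]
  · simp
  · intro i hi hne
    have : d - i ≠ 0 := by have := Finset.mem_range.mp hi; omega
    simp [hq, zero_pow this]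
  · simp

omit [IsAlgClosed k] [DecidableEq k] in
lemma degCoeff_homSubst {d e : ℕ} (A : k[X]) {p q : k[X]} (hp : p.natDegree ≤ e)
    (hq : q.natDegree ≤ e) :
    DegCoeff (homSubst d A p q) (d * e)
      (∑ i ∈ Finset.range (d + 1), A.coeff i * p.coeff e ^ i * q.coeff e ^ (d - i)) := by
  have h : ∀ i ∈ Finset.range (d + 1), DegCoeff (C (A.coeff i) * p ^ i * q ^ (d - i)) (d * e)
      (A.coeff i * p.coeff e ^ i * q.coeff e ^ (d - i)) := fun i hi ↦ by
    refine ((((DegCoeff.const (A.coeff i)).mul (DegCoeff.pow ⟨hp, rfl⟩ i))).mul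
      (DegCoeff.pow ⟨hq, rfl⟩ (d - i))).of_eq ?_ rfl
    rw [Nat.zero_add, ← Nat.add_mul,
      Nat.add_sub_cancel' (Nat.lt_succ_iff.mp (Finset.mem_range.mp hi))]
  refine ⟨natDegree_sum_le_of_forall_le _ _ fun i hi ↦ (h i hi).1, ?_⟩
  rw [homSubst, finsetSum_coeff]
  exact Finset.sum_congr rfl fun i hi ↦ (h i hi).2

omit [V.IsElliptic] in
/-- The degree is multiplicative. -/
theorem HasDeg.comp (hφ : HasDeg φ a) (hψ : HasDeg ψ b) (hb : 0 < b) :
    HasDeg (φ.comp ψ) (a * b) := by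
  classical
  obtain ⟨v, hv, hva⟩ := hφ
  obtain ⟨w, hw, hwb⟩ := hψ
  obtain ⟨bv, hbv⟩ := hv.2
  obtain ⟨bw, hbw⟩ := hw.2
  set z : Fin 2 → k[X] := fun i ↦ homSubst a (v i) (w 0) (w 1) with hz
  have hw1 : w 1 ≠ 0 := by
    intro h1
    have hu : IsUnit (w 0) := by
      have := hw.1.isCoprime; rwa [h1, isCoprime_zero_right] at this
    refine hwb.2 (funext fun i ↦ ?_)
    fin_cases i
    · show (w 0).coeff b = 0
      exact coeff_eq_zero_of_natDegree_lt (by rw [natDegree_eq_zero_of_isUnit hu]; exact hb)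
    · simp [h1]
  have top : ∀ {p q : k}, ¬ (p = 0 ∧ q = 0) → q = 0 → (fun i ↦ (v i).coeff a * p ^ a) ≠ 0 := by
    intro p q hpq hq h
    have hp : p ≠ 0 := fun hp ↦ hpq ⟨hp, hq⟩
    exact hva.2 (funext fun i ↦ by simpa [hp] using congrFun h i)
  have hzprim : Primitive z := by
    intro x h
    by_cases hq : (w 1).eval x = 0
    · refine top (p := (w 0).eval x) (q := (w 1).eval x)
        (fun e ↦ hw.1 x (funext fun i ↦ by fin_cases i; exacts [e.1, e.2])) hq (funext fun i ↦ ?_)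
      have := congrFun h i
      simpa [evalVec, hz, eval_homSubst_of_zero hq] using this
    · refine hv.1 ((w 0).eval x / (w 1).eval x) (funext fun i ↦ ?_)
      have := congrFun h i
      simpa [evalVec, hz, eval_homSubst (hva.1 i) hq, hq] using this
  have hzdeg : HasMaxDeg z (a * b) := by
    refine ⟨fun i ↦ (degCoeff_homSubst (v i) (hwb.1 0) (hwb.1 1)).1, fun h ↦ ?_⟩
    set p := (w 0).coeff b with hp
    set q := (w 1).coeff b with hq'
    have hsum : ∀ i, ∑ j ∈ Finset.range (a + 1), (v i).coeff j * p ^ j * q ^ (a - j) = 0 :=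
      fun i ↦ ((degCoeff_homSubst (d := a) (v i) (hwb.1 0) (hwb.1 1)).2).symm.trans (congrFun h i)
    by_cases hq : q = 0
    · refine top (p := p) (q := q)
        (fun e ↦ hwb.2 (funext fun i ↦ by fin_cases i; exacts [e.1, e.2]))
        hq (funext fun i ↦ ?_)
      have := hsum i
      rw [Finset.sum_eq_single a] at this
      · simpa using this
      · intro j hj hne
        have : a - j ≠ 0 := by have := Finset.mem_range.mp hj; omega
        simp [hq, zero_pow this]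
      · simp
    · refine hv.1 (p / q) (funext fun i ↦ ?_)
      show (v i).eval (p / q) = 0
      refine (mul_eq_zero.mp (?_ : q ^ a * (v i).eval (p / q) = 0)).resolve_left (pow_ne_zero _ hq)
      rw [eval_eq_sum_range' (Nat.lt_succ_of_le (hva.1 i)), Finset.mul_sum, ← hsum i]
      refine Finset.sum_congr rfl fun j hj ↦ ?_
      have hj : j ≤ a := Nat.lt_succ_iff.mp (Finset.mem_range.mp hj)
      conv_lhs => rw [← Nat.add_sub_cancel' hj, pow_add, div_pow]
      field_simp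
  -- the exceptional abscissae
  set bad := bw ∪ (w 1).roots.toFinset ∪ bv.biUnion fun c ↦ (w 0 - C c * w 1).roots.toFinset
  refine ⟨z, ⟨hzprim, bad, fun x y h hx ↦ ?_⟩, hzdeg⟩
  simp only [bad, Finset.mem_union, Finset.mem_biUnion, Multiset.mem_toFinset, not_or,
    not_exists, not_and] at hx
  obtain ⟨r, hr, er⟩ := hbw x y h hx.1.1
  have hq : (w 1).eval x ≠ 0 := fun e ↦ hx.1.2 ((mem_roots hw1).mpr e)
  rcases hR : ψ (.some x y h) with _ | ⟨x', y', h'⟩
  · refine absurd ?_ hq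
    rw [hR] at er
    simpa [evalVec, ← Affine.Point.zero_def] using congrFun er 1
  rw [hR] at er
  have e0 : (w 0).eval x = r * x' := by simpa [evalVec] using congrFun er 0
  have e1 : (w 1).eval x = r := by simpa [evalVec] using congrFun er 1
  have hx' : x' ∉ bv := fun hmem ↦ by
    refine hx.2 x' hmem ((mem_roots fun e ↦ ?_).mpr ?_)
    · refine hwb.2 (funext fun i ↦ ?_)
      have hu : IsUnit (w 1) := by
        have := hw.1.isCoprime
        rw [sub_eq_zero.mp e] at this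
        exact this.isUnit_of_dvd' (dvd_mul_left _ _) dvd_rfl
      have h1 : (w 1).natDegree = 0 := natDegree_eq_zero_of_isUnit hu
      fin_cases i
      · show (w 0).coeff b = 0
        rw [sub_eq_zero.mp e, coeff_C_mul, coeff_eq_zero_of_natDegree_lt (h1 ▸ hb), mul_zero]
      · exact coeff_eq_zero_of_natDegree_lt (h1 ▸ hb)
    · simp [IsRoot, e0, e1, mul_comm]
  obtain ⟨s, hs, es⟩ := hbv x' y' h' hx'
  refine ⟨r ^ a * s, mul_ne_zero (pow_ne_zero _ hr) hs, funext fun i ↦ ?_⟩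
  have hdiv : (w 0).eval x / (w 1).eval x = x' := by rw [e0, e1]; field_simp
  have := congrFun es i
  simp only [evalVec, Pi.smul_apply, smul_eq_mul] at this ⊢
  rw [AddMonoidHom.comp_apply, hR, hz, eval_homSubst (hva.1 i) hq, hdiv, e1, this]
  ring

end Fermat.Agent.EC
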