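import Mathlib.Algebra.Polynomial.Degree.Lemmas
import Mathlib.Algebra.Polynomial.Div
import Mathlib.Algebra.Polynomial.Expand
import Mathlib.AlgebraicGeometry.EllipticCurve.Affine.Point
import Mathlib.Tactic.ComputeDegree
import Mathlib.Tactic.LinearCombination
import Mathlib.Tactic.Ring

/-!
# Miller functions: elements of the coordinate ring whose only zero is a given torsion point

An element `a + b Y` of the coordinate ring is recorded by the pair of polynomials `(a, b)`.
`IsMiller V m x y a b` says that its norm is `-(X - x)^m`, that it is normalised at infinity and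
that it does not vanish at `-(x, y)`; equivalently its divisor is `m (P) - m (O)`.
-/

noncomputable section

namespace Fermat.Agent.EC

open WeierstrassCurve Polynomial
open scoped Polynomial.Bivariate

variable {K : Type*} [Field K] (V : Affine K)

/-- The right hand side of the Weierstrass equation. -/
def cubicRHS : K[X] := X ^ 3 + C V.a₂ * X ^ 2 + C V.a₄ * X + C V.a₆

/-- The linear coefficient of `Y` in the Weierstrass equation. -/
def linY : K[X] := C V.a₁ * X + C V.a₃

/-- The norm of `a + b Y`. -/
def normForm (a b : K[X]) : K[X] := a ^ 2 - a * b * linY V - b ^ 2 * cubicRHS V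

/-- The value of `a + b Y` at `(x, y)`. -/
def pairEval (a b : K[X]) (x y : K) : K := a.eval x + b.eval x * y

/-- The element `a + b Y` of the coordinate ring. -/
def mkPair (a b : K[X]) : V.CoordinateRing :=
  a • (1 : V.CoordinateRing) + b • Affine.CoordinateRing.mk V Y

/-- `a + b Y` has divisor `m (x, y) - m O` and is normalised at infinity. -/
structure IsMiller (m : ℕ) (x y : K) (a b : K[X]) : Prop where
  norm : normForm V a b = -(X - C x) ^ m
  lead : b.leadingCoeff = 1
  ne : pairEval a b x (V.negY x y) ≠ 0

variable {V}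

lemma cubicRHS_eval (x : K) :
    (cubicRHS V).eval x = x ^ 3 + V.a₂ * x ^ 2 + V.a₄ * x + V.a₆ := by
  simp [cubicRHS]

lemma linY_eval (x : K) : (linY V).eval x = V.a₁ * x + V.a₃ := by
  simp [linY]

lemma norm_mkPair (a b : K[X]) :
    Algebra.norm K[X] (mkPair V a b) = normForm V a b :=
  Affine.CoordinateRing.norm_smul_basis a b

lemma mkPair_injective {a b a' b' : K[X]} (h : mkPair V a b = mkPair V a' b') :
    a = a' ∧ b = b' := by
  have : (a - a') • (1 : V.CoordinateRing) +
      (b - b') • Affine.CoordinateRing.mk V Y = 0 := by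
    rw [sub_smul, sub_smul]
    unfold mkPair at h
    linear_combination h
  obtain ⟨h₁, h₂⟩ := Affine.CoordinateRing.smul_basis_eq_zero this
  exact ⟨sub_eq_zero.mp h₁, sub_eq_zero.mp h₂⟩

lemma exists_mkPair (z : V.CoordinateRing) : ∃ a b, mkPair V a b = z :=
  Affine.CoordinateRing.exists_smul_basis_eq z

lemma mkPair_zero : mkPair V (0 : K[X]) 0 = 0 := by simp [mkPair]

lemma mkPair_conj_mul (a b : K[X]) :
    mkPair V a b * mkPair V (a - b * linY V) (-b) =
      algebraMap K[X] V.CoordinateRing (normForm V a b) := by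
  have h := Affine.CoordinateRing.coe_norm_smul_basis (W' := V) a b
  rw [← norm_mkPair]
  show _ = AdjoinRoot.of V.polynomial _
  simp only [mkPair]
  rw [h]
  simp only [Affine.CoordinateRing.smul, linY, mul_one, map_mul, map_add, map_sub,
    map_neg]
  ring

lemma mkPair_mul (a b a' b' : K[X]) :
    mkPair V a b * mkPair V a' b' =
      mkPair V (a * a' + b * b' * cubicRHS V) (a * b' + b * a' - b * b' * linY V) := by
  have h := Affine.CoordinateRing.smul_basis_mul_Y (W' := V) a b
  simp only [mkPair, cubicRHS, linY]
  have e : ∀ u : V.CoordinateRing, u * (b' • Affine.CoordinateRing.mk V Y) =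
      b' • (u * Affine.CoordinateRing.mk V Y) := fun u ↦ mul_smul_comm _ _ _
  rw [mul_add, e, h, mul_smul_comm, mul_one]
  simp only [Algebra.smul_def, map_mul, map_add, map_sub, mul_one]
  ring

/-! ### The behaviour at infinity -/

/-- `a + b Y` in the parameter at infinity, truncated: `a(T²) + b(T²) T³`. -/
def infPoly (a b : K[X]) : K[X] := expand K 2 a + expand K 2 b * X ^ 3

lemma infPoly_eq_zero {a b : K[X]} : infPoly a b = 0 ↔ a = 0 ∧ b = 0 := by
  refine ⟨fun h ↦ ⟨Polynomial.ext fun n ↦ ?_, Polynomial.ext fun n ↦ ?_⟩, ?_⟩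
  · have := congrArg (coeff · (n * 2)) h
    simp only [infPoly, coeff_add, coeff_expand_mul two_pos, coeff_zero] at this
    rw [coeff_mul_X_pow'] at this
    split_ifs at this with h3
    · rwa [coeff_expand two_pos, if_neg (by omega), add_zero] at this
    · rwa [add_zero] at this
  · have := congrArg (coeff · (n * 2 + 3)) h
    simp only [infPoly, coeff_add, coeff_zero, coeff_mul_X_pow] at this
    rwa [coeff_expand_mul two_pos, coeff_expand two_pos, if_neg (by omega), zero_add] at this
  · rintro ⟨rfl, rfl⟩; simp [infPoly]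

lemma natDegree_infPoly_ge (a b : K[X]) (hb : b ≠ 0) :
    2 * b.natDegree + 3 ≤ (infPoly a b).natDegree := by
  refine le_natDegree_of_ne_zero ?_
  rw [infPoly, coeff_add, coeff_mul_X_pow, mul_comm 2, coeff_expand_mul two_pos,
    coeff_expand two_pos, if_neg (by omega), zero_add]
  exact leadingCoeff_ne_zero.mpr hb

/-- The leading coefficient at infinity of an element of the coordinate ring. -/
def wlead (z : V.CoordinateRing) : K :=
  (infPoly (exists_mkPair z).choose (exists_mkPair z).choose_spec.choose).leadingCoeff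

lemma wlead_mkPair (a b : K[X]) : wlead (mkPair V a b) = (infPoly a b).leadingCoeff := by
  obtain ⟨h₁, h₂⟩ := mkPair_injective (exists_mkPair (mkPair V a b)).choose_spec.choose_spec
  exact congrArg₂ (fun p q => (infPoly p q).leadingCoeff) h₁ h₂

/-- `wlead` is multiplicative. -/
lemma wlead_mul (z w : V.CoordinateRing) : wlead (z * w) = wlead z * wlead w := by
  obtain ⟨a, b, rfl⟩ := exists_mkPair z
  obtain ⟨a', b', rfl⟩ := exists_mkPair w
  rw [mkPair_mul, wlead_mkPair, wlead_mkPair, wlead_mkPair]
  set E : K[X] := expand K 2 (b * b') *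
    (expand K 2 (C V.a₂ * X ^ 2 + C V.a₄ * X + C V.a₆) - expand K 2 (linY V) * X ^ 3)
  have key : infPoly (a * a' + b * b' * cubicRHS V) (a * b' + b * a' - b * b' * linY V) =
      infPoly a b * infPoly a' b' + E := by
    simp only [infPoly, E, cubicRHS, map_add, map_mul, map_sub, map_pow, expand_X, expand_C]
    ring
  rw [key]
  rcases eq_or_ne b 0 with rfl | hb
  · simp [E, leadingCoeff_mul]
  rcases eq_or_ne b' 0 with rfl | hb'
  · simp [E, leadingCoeff_mul]
  have hE : E.natDegree ≤ 2 * b.natDegree + 2 * b'.natDegree + 5 := by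
    refine natDegree_mul_le.trans (Nat.add_le_add ?_ ?_)
    · rw [natDegree_expand, natDegree_mul hb hb']; omega
    · refine (natDegree_sub_le _ _).trans (max_le ?_ (natDegree_mul_le.trans ?_))
      · rw [natDegree_expand]
        have : (C V.a₂ * X ^ 2 + C V.a₄ * X + C V.a₆ : K[X]).natDegree ≤ 2 :=
          natDegree_quadratic_le
        omega
      · rw [natDegree_expand, natDegree_X_pow]
        have : (linY V).natDegree ≤ 1 := natDegree_linear_le
        omega
  rcases eq_or_ne E 0 with h0 | h0
  · rw [h0, add_zero, leadingCoeff_mul]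
  rw [leadingCoeff_add_of_degree_lt', leadingCoeff_mul]
  apply degree_lt_degree
  rw [natDegree_mul (fun h ↦ hb (infPoly_eq_zero.mp h).2) (fun h ↦ hb' (infPoly_eq_zero.mp h).2)]
  have := natDegree_infPoly_ge a b hb
  have := natDegree_infPoly_ge a' b' hb'
  omega

lemma wlead_algebraMap (p : K[X]) :
    wlead (algebraMap K[X] V.CoordinateRing p) = p.leadingCoeff := by
  have : algebraMap K[X] V.CoordinateRing p = mkPair V p 0 := by
    simp [mkPair, Algebra.smul_def]
  rw [this, wlead_mkPair, infPoly, map_zero, zero_mul, add_zero,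
    leadingCoeff_expand two_pos]

lemma wlead_one : wlead (1 : V.CoordinateRing) = 1 := by
  rw [← map_one (algebraMap K[X] V.CoordinateRing), wlead_algebraMap, leadingCoeff_one]

lemma wlead_pow (z : V.CoordinateRing) (n : ℕ) : wlead (z ^ n) = wlead z ^ n := by
  induction n with
  | zero => simp [wlead_one]
  | succ n ih => rw [pow_succ, pow_succ, wlead_mul, ih]

/-! ### Degrees -/

lemma degree_normForm (a b : K[X]) :
    (normForm V a b).degree = max (2 • a.degree) (2 • b.degree + 3) := by
  rw [← norm_mkPair]
  exact Affine.CoordinateRing.degree_norm_smul_basis a b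

lemma normForm_ne_zero {a b : K[X]} (h : ¬(a = 0 ∧ b = 0)) : normForm V a b ≠ 0 := by
  intro h0
  rcases eq_or_ne b 0 with rfl | hb
  · simp [normForm] at h0
    exact h ⟨h0, rfl⟩
  have := degree_normForm (V := V) a b
  rw [h0, degree_zero, eq_comm, max_eq_bot, degree_eq_natDegree hb, two_nsmul, two_nsmul] at this
  exact WithBot.natCast_ne_bot (b.natDegree + b.natDegree + 3) (by exact_mod_cast this.2)

/-- If the norm has odd degree `m`, the component `b` carries the leading term. -/
lemma degrees_of_normForm {a b : K[X]} {m : ℕ} (hm : Odd m)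
    (h : (normForm V a b).degree = (m : WithBot ℕ)) :
    b ≠ 0 ∧ m = 2 * b.natDegree + 3 ∧ a.natDegree ≤ b.natDegree + 1 := by
  obtain ⟨k, rfl⟩ := hm
  have hnd := natDegree_eq_of_degree_eq_some h
  rcases eq_or_ne b 0 with rfl | hb
  · exfalso
    simp [normForm] at hnd
    omega
  rw [degree_normForm, degree_eq_natDegree hb, two_nsmul, two_nsmul] at h
  rcases eq_or_ne a 0 with rfl | ha
  · rw [degree_zero, WithBot.bot_add, max_bot_left] at h
    norm_cast at h
    exact ⟨hb, by omega, by simp⟩
  · rw [degree_eq_natDegree ha] at h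
    rcases max_choice ((a.natDegree : WithBot ℕ) + a.natDegree)
        ((b.natDegree : WithBot ℕ) + b.natDegree + 3) with e | e
    · rw [e] at h
      have e' := max_eq_left_iff.mp e
      norm_cast at h e'
      omega
    · rw [e] at h
      have e' := max_eq_right_iff.mp e
      norm_cast at h e'
      exact ⟨hb, by omega, by omega⟩

lemma degree_neg_X_sub_C_pow (x : K) (m : ℕ) :
    (-(X - C x) ^ m : K[X]).degree = (m : WithBot ℕ) := by
  rw [degree_neg, degree_pow, degree_X_sub_C, nsmul_one]

/-- When `b` carries the leading term, `wlead (a + b Y)` is its leading coefficient. -/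
lemma wlead_mkPair_of_natDegree_le {a b : K[X]} (hb : b ≠ 0)
    (ha : a.natDegree ≤ b.natDegree + 1) : wlead (mkPair V a b) = b.leadingCoeff := by
  have hdeg : (infPoly a b).natDegree ≤ 2 * b.natDegree + 3 := by
    refine (natDegree_add_le _ _).trans (max_le ?_ (natDegree_mul_le.trans ?_))
    · rw [natDegree_expand]; omega
    · rw [natDegree_expand, natDegree_X_pow]; omega
  rw [wlead_mkPair, leadingCoeff, le_antisymm hdeg (natDegree_infPoly_ge a b hb), infPoly,
    coeff_add, coeff_mul_X_pow, mul_comm 2, coeff_expand_mul two_pos, coeff_expand two_pos,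
    if_neg (by omega), zero_add, leadingCoeff]

namespace IsMiller

variable {m : ℕ} {x y : K} {a b : K[X]}

lemma degrees (h : IsMiller V m x y a b) (hm : Odd m) :
    b ≠ 0 ∧ m = 2 * b.natDegree + 3 ∧ a.natDegree ≤ b.natDegree + 1 :=
  degrees_of_normForm hm (by rw [h.norm, degree_neg_X_sub_C_pow])

lemma wlead_eq_one (h : IsMiller V m x y a b) (hm : Odd m) : wlead (mkPair V a b) = 1 := by
  obtain ⟨hb, -, ha⟩ := h.degrees hm
  rw [wlead_mkPair_of_natDegree_le hb ha, h.lead]

end IsMiller

lemma pairEval_mul_negY {x y : K} (h : V.Equation x y) (a b : K[X]) :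
    pairEval a b x y * pairEval a b x (V.negY x y) = (normForm V a b).eval x := by
  simp only [pairEval, normForm, Affine.negY, eval_sub, eval_mul, eval_pow, cubicRHS_eval,
    linY_eval]
  linear_combination -(b.eval x) ^ 2 * (Affine.equation_iff x y).mp h

lemma pairEval_conj {x y : K} (a b : K[X]) :
    pairEval (a - b * linY V) (-b) x y = pairEval a b x (V.negY x y) := by
  simp only [pairEval, Affine.negY, eval_sub, eval_mul, eval_neg, linY_eval]
  ring

/-- A Miller function has no zeros off the fibre of `x`. -/
lemma IsMiller.eval_ne_zero {m : ℕ} {x y : K} {a b : K[X]} (h : IsMiller V m x y a b)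
    {x' y' : K} (he : V.Equation x' y') (hx : x' ≠ x) : pairEval a b x' y' ≠ 0 := by
  intro h0
  have := pairEval_mul_negY he a b
  rw [h0, zero_mul, h.norm] at this
  simp [sub_ne_zero.mpr hx] at this

/-- Evaluation of the coordinate ring at a point. -/
def evalAt {x y : K} (h : V.Equation x y) : V.CoordinateRing →+* K :=
  AdjoinRoot.lift (evalRingHom x) y (by rwa [eval₂_evalRingHom])

lemma evalAt_mk {x y : K} (h : V.Equation x y) (f : K[X][Y]) :
    evalAt h (Affine.CoordinateRing.mk V f) = f.evalEval x y := by
  rw [evalAt, AdjoinRoot.lift_mk, eval₂_evalRingHom]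

lemma evalAt_algebraMap {x y : K} (h : V.Equation x y) (p : K[X]) :
    evalAt h (algebraMap K[X] V.CoordinateRing p) = p.eval x := by
  show evalAt h (Affine.CoordinateRing.mk V (C p)) = _
  rw [evalAt_mk, evalEval_C]

lemma evalAt_mkPair {x y : K} (h : V.Equation x y) (a b : K[X]) :
    evalAt h (mkPair V a b) = pairEval a b x y := by
  rw [mkPair, map_add, Algebra.smul_def, Algebra.smul_def, map_mul, map_mul, map_one, mul_one,
    evalAt_algebraMap, evalAt_algebraMap, evalAt_mk, evalEval_X, pairEval]

end Fermat.Agent.EC
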