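import Mathlib.FieldTheory.Finite.Basic
import Fermat.Agent.EC.FrobTraceRep
import Fermat.Agent.EC.WeilFun

/-!
# The degree of the Frobenius endomorphism and of Frobenius minus the identity

For an elliptic curve over a finite field `F` with `q` elements, the `q`-power map has degree `q`
and its difference with the identity has degree the number of `F`-rational points.  The second
statement is obtained from the explicit `x`-coordinate of that difference: the common factor of
its numerator and of `(X ^ q - X) ^ 2` is read off from the rational points above each abscissa.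

These are the inputs of the quadratic relation of Frobenius.
-/

noncomputable section

namespace Fermat.Agent.EC

open WeierstrassCurve Polynomial
open scoped WeierstrassCurve.Affine

section Powers

variable {k : Type*} [Field k] (V : Affine k)

/-- Coefficients of `y ^ n = α + β * y` on the curve. -/
def yPow : ℕ → k[X] × k[X]
  | 0 => (1, 0)
  | n + 1 => ((yPow n).2 * cubicRHS V, (yPow n).1 - (yPow n).2 * linY V)

lemma equation_iff_eval (x y : k) :
    V.Equation x y ↔ y ^ 2 + (linY V).eval x * y = (cubicRHS V).eval x := by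
  rw [Affine.equation_iff]
  simp [linY, cubicRHS]
  grind

lemma negY_eq_eval (x y : k) : V.negY x y = -y - (linY V).eval x := by
  simp [linY, Affine.negY]; ring

lemma yPow_eval {x y : k} (h : V.Equation x y) (n : ℕ) :
    y ^ n = (yPow V n).1.eval x + (yPow V n).2.eval x * y := by
  rw [equation_iff_eval] at h
  induction n with
  | zero => simp [yPow]
  | succ n ih =>
    simp only [yPow, pow_succ, ih, eval_mul, eval_sub]
    linear_combination (yPow V n).2.eval x * h

lemma normForm_eval {x y : k} (h : V.Equation x y) (γ δ : k[X]) :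
    (normForm V γ δ).eval x =
      (γ.eval x + δ.eval x * y) * (γ.eval x + δ.eval x * V.negY x y) :=
  (pairEval_mul_negY h γ δ).symm

lemma yPow_norm (n : ℕ) : normForm V (yPow V n).1 (yPow V n).2 = (-cubicRHS V) ^ n := by
  induction n with
  | zero => simp [yPow, normForm]
  | succ n ih =>
    rw [pow_succ, ← ih]
    simp only [yPow, normForm]
    ring

/-- At a point fixed by negation, `β` is the derivative of `y ^ n`. -/
lemma yPow_snd_eval_of_ramified {x y : k} (h : V.Equation x y) (hy : V.negY x y = y) (n : ℕ) :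
    (yPow V n).2.eval x * y = n * y ^ n := by
  rw [negY_eq_eval] at hy
  induction n with
  | zero => simp [yPow]
  | succ n ih =>
    have e := yPow_eval V h n
    simp only [yPow, eval_mul, eval_sub, pow_succ, Nat.cast_succ]
    linear_combination (-y) * e + (yPow V n).2.eval x * y * hy + y * ih

/-- At a point fixed by negation with ordinate zero, `β` vanishes for exponents above `1`. -/
lemma yPow_snd_eval_zero {x : k} (hl : (linY V).eval x = 0) (hf : (cubicRHS V).eval x = 0) {n : ℕ}
    (hn : 1 < n) : (yPow V n).2.eval x = 0 := by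
  have h : ∀ m, (yPow V (m + 1)).1.eval x = 0 := fun m ↦ by simp [yPow, hf]
  obtain ⟨m, rfl⟩ : ∃ m, n = m + 2 := ⟨n - 2, by omega⟩
  rw [yPow, eval_sub, h, eval_mul, hl, mul_zero, sub_zero]

lemma natDegree_linY_le : (linY V).natDegree ≤ 1 := natDegree_linear_le

lemma natDegree_cubicRHS_le : (cubicRHS V).natDegree ≤ 3 := by
  rw [cubicRHS]; compute_degree

lemma natDegree_yPow (n : ℕ) :
    (yPow V n).1.natDegree ≤ 3 * n / 2 ∧ (yPow V n).2.natDegree ≤ (3 * n - 3) / 2 := by
  induction n with
  | zero => simp [yPow]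
  | succ n ih =>
    have hf := natDegree_cubicRHS_le V
    have hl := natDegree_linY_le V
    by_cases h0 : n = 0
    · subst h0; simp [yPow]
    simp only [yPow]
    refine ⟨natDegree_mul_le.trans (by omega), (natDegree_sub_le _ _).trans (max_le (by omega) ?_)⟩
    exact natDegree_mul_le.trans (by omega)

end Powers

variable {F : Type*} [Field F] [Fintype F] {k : Type*} [Field k] [Algebra F k]
  (W : WeierstrassCurve F)

local notation "q" => Fintype.card F

/-- The Frobenius endomorphism of the points over `k`. -/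
def frobHom [DecidableEq k] : (W⁄k).toAffine.Point →+ (W⁄k).toAffine.Point :=
  Affine.Point.map (W' := W) (FiniteField.frobeniusAlgHom F k)

/-- The constant coefficient of the numerator `y ^ q + y + (a₁ x + a₃)` of the slope of `π P - P`,
written as a linear polynomial in `y`. -/
def slopeNumConst : k[X] := (yPow (W⁄k).toAffine q).1 + linY (W⁄k).toAffine

/-- The coefficient of `y` in the numerator of the slope of `π P - P`. -/
def slopeNumLin : k[X] := (yPow (W⁄k).toAffine q).2 + 1

/-- The numerator of the abscissa of `π P - P`. -/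
def subNum : k[X] :=
  -normForm (W⁄k).toAffine (slopeNumConst W) (slopeNumLin W) -
    (C (W⁄k).a₂ + X + X ^ q) * (X ^ q - X) ^ 2

omit [Fintype F] in
lemma baseChange_coeffs : (W⁄k).a₁ = algebraMap F k W.a₁ ∧ (W⁄k).a₂ = algebraMap F k W.a₂ ∧
    (W⁄k).a₃ = algebraMap F k W.a₃ ∧ (W⁄k).a₄ = algebraMap F k W.a₄ ∧
    (W⁄k).a₆ = algebraMap F k W.a₆ := ⟨rfl, rfl, rfl, rfl, rfl⟩

lemma algebraMap_pow_card (c : F) : algebraMap F k c ^ q = algebraMap F k c := by
  rw [← map_pow, FiniteField.pow_card]

lemma X_pow_card_sub_X_eq_prod :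
    (X ^ q - X : k[X]) = ∏ c : F, (X - C (algebraMap F k c)) := by
  have h : (X ^ q - X : F[X]) = ∏ c : F, (X - C c) := by
    rw [← prod_multiset_X_sub_C_of_monic_of_roots_card_eq (p := (X ^ q - X : F[X]))
      (monic_X_pow_sub (by rw [degree_X]; exact_mod_cast Fintype.one_lt_card))
      (by rw [FiniteField.roots_X_pow_card_sub_X,
        FiniteField.X_pow_card_sub_X_natDegree_eq F Fintype.one_lt_card]; simp),
      FiniteField.roots_X_pow_card_sub_X]
    rfl
  simpa [Polynomial.map_prod] using congrArg (Polynomial.map (algebraMap F k)) h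

lemma mem_range_of_pow_card_eq {x : k} (h : x ^ q = x) : x ∈ Set.range (algebraMap F k) := by
  have := congrArg (eval x) (X_pow_card_sub_X_eq_prod (F := F) (k := k))
  rw [eval_sub, eval_pow, eval_X, h, sub_self, eval_prod, eq_comm, Finset.prod_eq_zero_iff] at this
  obtain ⟨c, -, hc⟩ := this
  rw [eval_sub, eval_X, eval_C, sub_eq_zero] at hc
  exact ⟨c, hc.symm⟩

lemma eval_slopeNum {x y : k} (h : (W⁄k).toAffine.Equation x y) :
    (slopeNumConst W).eval x + (slopeNumLin W).eval x * y =
      y ^ q + y + (linY (W⁄k).toAffine).eval x := by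
  simp [slopeNumConst, slopeNumLin, yPow_eval _ h]; ring

lemma natDegree_subNum :
    (subNum W : k[X]).natDegree ≤ 2 * q + 1 ∧ (subNum W : k[X]).coeff (2 * q + 1) = 1 := by
  classical
  obtain ⟨p, _⟩ := CharP.exists F
  have := charP_of_injective_algebraMap (algebraMap F k).injective p
  have : Fact p.Prime := ⟨CharP.char_is_prime F p⟩
  obtain ⟨r, -, hr⟩ := FiniteField.card F p
  obtain ⟨h₁, h₂, h₃, h₄, h₆⟩ := baseChange_coeffs (k := k) W
  set V := (W⁄k).toAffine with hV
  set α := (yPow V q).1 with hα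
  set β := (yPow V q).2 with hβ
  set l := linY V with hl
  set f := cubicRHS V with hf
  have hq2 : 2 ≤ q := Fintype.one_lt_card
  have hpow : f ^ q = X ^ (3 * q) + C V.a₂ * X ^ (2 * q) + C V.a₄ * X ^ q + C V.a₆ := by
    have e : ∀ c : F, (C (algebraMap F k c) : k[X]) ^ q = C (algebraMap F k c) := fun c ↦ by
      rw [← C_pow, algebraMap_pow_card]
    have add : ∀ a b : k[X], (a + b) ^ q = a ^ q + b ^ q := fun a b ↦ by
      rw [hr]; exact add_pow_char_pow a b p r
    rw [hf, cubicRHS, add, add, add, mul_pow, mul_pow, ← pow_mul, ← pow_mul]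
    simp only [hV, WeierstrassCurve.toAffine, h₂, h₄, h₆, e]
  have hneg : (-f) ^ q = -(f ^ q) := by
    have h1 : ((-1 : F) : F) ^ q = -1 := FiniteField.pow_card _
    have h2 := congrArg (fun c ↦ C (algebraMap F k c)) h1
    simp only [map_pow, map_neg, map_one] at h2
    rw [neg_pow, h2, neg_one_mul]
  have hkey : subNum W = X ^ (2 * q + 1) + (C V.a₄ * X ^ q + C V.a₆ + 2 * C V.a₂ * X ^ (q + 1) -
      C V.a₂ * X ^ 2 + X ^ (q + 2) - X ^ 3 - (α * l - β * l ^ 2 - 2 * β * f - f)) := by
    have hn := yPow_norm V q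
    rw [hneg, hpow] at hn
    simp only [normForm, ← hα, ← hβ, ← hl, ← hf] at hn
    simp only [subNum, slopeNumConst, slopeNumLin, normForm, ← hV, ← hα, ← hβ, ← hl, ← hf]
    rw [show (W⁄k).a₂ = V.a₂ from rfl]
    linear_combination -hn
  have hdeg : (C V.a₄ * X ^ q + C V.a₆ + 2 * C V.a₂ * X ^ (q + 1) -
      C V.a₂ * X ^ 2 + X ^ (q + 2) - X ^ 3 - (α * l - β * l ^ 2 - 2 * β * f - f)).natDegree
      ≤ 2 * q := by
    have hf' : f.natDegree ≤ 3 := natDegree_cubicRHS_le V
    have hl' : l.natDegree ≤ 1 := natDegree_linY_le V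
    obtain ⟨hα', hβ'⟩ := natDegree_yPow V q
    rw [← hα] at hα'
    rw [← hβ] at hβ'
    have e2 : (2 : k[X]).natDegree = 0 := natDegree_natCast 2
    refine (natDegree_sub_le _ _).trans (max_le ?_ ?_)
    · refine (natDegree_sub_le _ _).trans (max_le ?_ ((natDegree_X_pow_le _).trans (by omega)))
      refine (natDegree_add_le _ _).trans (max_le ?_ ((natDegree_X_pow_le _).trans (by omega)))
      refine (natDegree_sub_le _ _).trans
          (max_le ?_ ((natDegree_C_mul_X_pow_le _ _).trans (by omega)))
      refine (natDegree_add_le _ _).trans (max_le ?_ ?_)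
      · exact (natDegree_add_le _ _).trans (max_le ((natDegree_C_mul_X_pow_le _ _).trans (by omega))
          (by simp))
      · rw [mul_assoc]
        refine natDegree_mul_le.trans ?_
        have := natDegree_C_mul_X_pow_le V.a₂ (q + 1)
        omega
    · refine (natDegree_sub_le _ _).trans (max_le ?_ (by omega))
      refine (natDegree_sub_le _ _).trans (max_le ?_ ?_)
      · refine (natDegree_sub_le _ _).trans (max_le (natDegree_mul_le.trans (by omega)) ?_)
        refine natDegree_mul_le.trans ?_
        have := natDegree_pow_le (p := l) (n := 2)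
        omega
      · rw [mul_assoc]
        refine natDegree_mul_le.trans ?_
        have : (β * f).natDegree ≤ β.natDegree + f.natDegree := natDegree_mul_le
        omega
  rw [hkey]
  refine ⟨(natDegree_add_le _ _).trans (max_le (natDegree_X_pow_le _) (hdeg.trans (by omega))), ?_⟩
  rw [coeff_add, coeff_X_pow_self, coeff_eq_zero_of_natDegree_lt (by omega), add_zero]

/-- The rational points above an abscissa. -/
def fibre (c : F) : ℕ := Nat.card {y : F // W.toAffine.Equation c y}

omit [Fintype F] in
lemma yPow_map (n : ℕ) :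
    (yPow (W⁄k).toAffine n).1 = (yPow W.toAffine n).1.map (algebraMap F k) ∧
      (yPow (W⁄k).toAffine n).2 = (yPow W.toAffine n).2.map (algebraMap F k) := by
  induction n with
  | zero => simp [yPow]
  | succ n ih =>
    obtain ⟨h₁, h₂, h₃, h₄, h₆⟩ := baseChange_coeffs (k := k) W
    simp only [yPow, ih.1, ih.2, cubicRHS, linY, h₁, h₂, h₃, h₄, h₆]
    simp

lemma exists_slopeNum_eval (c : F) :
    ∃ g e : F, (slopeNumConst W).eval (algebraMap F k c) = algebraMap F k g ∧
    (slopeNumLin W).eval (algebraMap F k c) = algebraMap F k e := by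
  refine ⟨(yPow W.toAffine q).1.eval c + (linY W.toAffine).eval c,
    (yPow W.toAffine q).2.eval c + 1, ?_, ?_⟩
  · obtain ⟨h₁, h₂, h₃, h₄, h₆⟩ := baseChange_coeffs (k := k) W
    simp only [slopeNumConst, (yPow_map W q).1, linY, h₁, h₃]
    simp [aeval_algebraMap_apply, coe_aeval_eq_eval]
  · simp [slopeNumLin, (yPow_map W q).2, eval_map]

variable [W.IsElliptic]

omit [W.IsElliptic] in
/-- Above an abscissa without rational point the numerator vanishes to order two. -/
lemma sq_dvd_subNum_of_no_point [IsAlgClosed k] {c : F} (hne : ∀ y, ¬ W.toAffine.Equation c y) :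
    (X - C (algebraMap F k c)) ^ 2 ∣ (subNum W : k[X]) := by
  set V := (W⁄k).toAffine with hV
  set ι := algebraMap F k with hι
  obtain ⟨y₀, h₀⟩ := exists_equation V (ι c)
  have hy : y₀ ∉ Set.range ι := fun ⟨y, e⟩ ↦
    hne y ((Affine.map_equation (W := W.toAffine) ι.injective c y).mp (e ▸ h₀))
  have hd : (X - C (ι c)) ∣ (X ^ q - X : k[X]) :=
    dvd_iff_isRoot.mpr (by simp [ι, algebraMap_pow_card])
  have hlin : (linY V).eval (ι c) = ι (W.a₁ * c + W.a₃) := by
    simp [linY, hV, WeierstrassCurve.toAffine, ι]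
  have hu := eval_slopeNum W h₀
  rw [← hV, hlin] at hu
  have hyq : V.Equation (ι c) (y₀ ^ q) := by
    have h := (Affine.baseChange_equation (W := W.toAffine)
      (f := FiniteField.frobeniusAlgHom F k) (RingHom.injective _) (ι c) y₀).mpr h₀
    simpa [ι, algebraMap_pow_card] using h
  have hconj : y₀ ^ q = -y₀ - ι (W.a₁ * c + W.a₃) := by
    rcases Affine.Y_eq_of_X_eq hyq h₀ rfl with e | e
    · exact absurd (mem_range_of_pow_card_eq e) hy
    · rw [e, negY_eq_eval, hlin]
  obtain ⟨g, e, hg, he⟩ := exists_slopeNum_eval (k := k) W c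
  have hz : ι g + ι e * y₀ = 0 := by rw [← hg, ← he, hu, hconj]; ring
  have he0 : e = 0 := by
    by_contra hne0
    refine hy ⟨-g / e, ?_⟩
    have : ι e ≠ 0 := (_root_.map_ne_zero ι).mpr hne0
    rw [map_div₀, map_neg, div_eq_iff this]
    linear_combination -hz
  have hg0 : g = 0 := by simpa [he0] using hz
  have hG : (X - C (ι c)) ∣ (slopeNumConst W : k[X]) := dvd_iff_isRoot.mpr (by simp [hg, hg0, ι])
  have hD : (X - C (ι c)) ∣ (slopeNumLin W : k[X]) := dvd_iff_isRoot.mpr (by simp [he, he0, ι])
  obtain ⟨G, hG⟩ := hG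
  obtain ⟨D, hD⟩ := hD
  obtain ⟨E, hE⟩ := hd
  refine ⟨-(G ^ 2 - G * D * linY V - D ^ 2 * cubicRHS V) -
    (C (W⁄k).a₂ + X + X ^ q) * E ^ 2, ?_⟩
  simp only [subNum, normForm, hG, hD, hE, ← hV]
  ring

/-- At a ramified rational point the numerator has a simple zero. -/
lemma not_sq_dvd_subNum_of_ramified {c b : F} (hb : W.toAffine.Equation c b)
    (hbb : W.toAffine.negY c b = b) :
    ¬ (X - C (algebraMap F k c)) ^ 2 ∣ (subNum W : k[X]) := by
  intro hdvd
  set V := (W⁄k).toAffine with hV
  set ι := algebraMap F k with hι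
  have : V.IsElliptic := inferInstanceAs (W.map (algebraMap F k)).IsElliptic
  have h₀ : V.Equation (ι c) (ι b) :=
    (Affine.map_equation (W := W.toAffine) ι.injective c b).mpr hb
  have hlin : (linY V).eval (ι c) = ι (W.a₁ * c + W.a₃) := by
    simp [linY, hV, WeierstrassCurve.toAffine, ι]
  have hneg : V.negY (ι c) (ι b) = ι (W.toAffine.negY c b) := Affine.map_negY ι c b
  have h2 : 2 * ι b + ι (W.a₁ * c + W.a₃) = 0 := by
    have := congrArg ι hbb
    simp only [Affine.negY, map_sub, map_neg, map_mul, map_add] at this ⊢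
    linear_combination -this
  have hu := eval_slopeNum W h₀
  rw [← hV, hlin] at hu
  have hval : (slopeNumConst W).eval (ι c) + (slopeNumLin W).eval (ι c) * ι b =
      2 * ι b + ι (W.a₁ * c + W.a₃) := by
    rw [hu, ← map_pow, FiniteField.pow_card]; ring
  have hderiv : (derivative (subNum W)).eval (ι c) = 0 :=
    dvd_iff_isRoot.mp (by simpa using pow_sub_one_dvd_derivative_of_pow_dvd hdvd)
  have hchar : (q : k) = 0 := by
    rw [← map_natCast ι, FiniteField.cast_card_eq_zero, map_zero]
  have hfc : (cubicRHS V).eval (ι c) = -(ι b) ^ 2 := by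
    have := (equation_iff_eval V _ _).mp h₀
    rw [hlin] at this
    linear_combination -this + ι b * h2
  have hβ : (yPow V q).2.eval (ι c) = 0 := by
    by_cases hb0 : ι b = 0
    · exact yPow_snd_eval_zero V (by rw [hlin]; simpa [hb0] using h2)
        (by rw [hfc, hb0]; ring) Fintype.one_lt_card
    · have := yPow_snd_eval_of_ramified V h₀ (by rw [hneg, hbb]) q
      rw [hchar, zero_mul] at this
      exact (mul_eq_zero.mp this).resolve_right hb0
  have hδ : (slopeNumLin W).eval (ι c) = 1 := by simp [slopeNumLin, ← hV, hβ]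
  have hγ : (slopeNumConst W).eval (ι c) = -ι b := by
    rw [hδ, one_mul, h2] at hval
    linear_combination hval
  have hl' : (derivative (linY V)).eval (ι c) = V.a₁ := by simp [linY]
  have hns : V.a₁ * ι b - (derivative (cubicRHS V)).eval (ι c) ≠ 0 := by
    have h := ((Affine.nonsingular_iff _ _).mp
      (Affine.equation_iff_nonsingular.mp h₀)).2
    rcases h with h | h
    · intro e; apply h
      simp [cubicRHS] at e
      linear_combination e
    · refine absurd ?_ h
      have := hneg.trans (congrArg ι hbb)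
      rw [Affine.negY] at this
      exact this.symm
  refine hns ?_
  have hdd : eval (ι c)
      (derivative ((C (W⁄k).a₂ + X + X ^ q) * (X ^ q - X : k[X]) ^ 2)) = 0 := by
    simp [derivative_mul, derivative_pow, ι, algebraMap_pow_card]
  rw [subNum, derivative_sub, eval_sub, hdd, sub_zero, derivative_neg, eval_neg, neg_eq_zero,
    ← hV] at hderiv
  simp only [normForm, derivative_sub, derivative_mul, derivative_pow, eval_sub, eval_add,
    eval_mul, hδ, hγ, hl', hlin, hfc, eval_pow, eval_C, Nat.cast_ofNat,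
    Nat.reduceSub, pow_one] at hderiv
  linear_combination (norm := ring) hderiv +
    (eval (ι c) (derivative (slopeNumConst W)) -
      ι b * eval (ι c) (derivative (slopeNumLin W))) * h2

/-- The local study of the numerator at a rational abscissa. -/
lemma fibre_cases [IsAlgClosed k] (c : F) :
    fibre W c ≤ 2 ∧ (X - C (algebraMap F k c)) ^ (2 - fibre W c) ∣ (subNum W : k[X]) ∧
      (0 < fibre W c → ¬ (X - C (algebraMap F k c)) ^ (2 - fibre W c + 1) ∣ (subNum W : k[X])) := by
  classical
  set V := (W⁄k).toAffine with hV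
  set ι := algebraMap F k with hι
  have : V.IsElliptic := inferInstanceAs (W.map (algebraMap F k)).IsElliptic
  have hq0 : q ≠ 0 := Fintype.card_ne_zero
  have hEq : ∀ x y : F, V.Equation (ι x) (ι y) ↔ W.toAffine.Equation x y :=
    fun x y ↦ Affine.map_equation (W := W.toAffine) ι.injective x y
  have hd : (X - C (ι c)) ∣ (X ^ q - X : k[X]) :=
    dvd_iff_isRoot.mpr (by simp [ι, algebraMap_pow_card])
  obtain ⟨y₀, h₀⟩ := exists_equation V (ι c)
  have hlin : (linY V).eval (ι c) = ι (W.a₁ * c + W.a₃) := by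
    simp [linY, hV, WeierstrassCurve.toAffine, ι]
  have hu := eval_slopeNum W h₀
  rw [← hV, hlin] at hu
  -- the value of the numerator
  have hnum : (subNum W).eval (ι c) =
      -(normForm V (slopeNumConst W) (slopeNumLin W)).eval (ι c) := by
    simp [subNum, ι, algebraMap_pow_card, hV]
  by_cases hy : y₀ ∈ Set.range ι
  swap
  · -- no rational point above `c`
    have hne : ∀ y, ¬ W.toAffine.Equation c y := fun y hy' ↦ by
      rcases Affine.Y_eq_of_X_eq h₀ ((hEq c y).mpr hy') rfl with e | e
      · exact hy ⟨y, e.symm⟩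
      · exact hy ⟨W.toAffine.negY c y, by rw [e, ← Affine.map_negY]; rfl⟩
    have hr : fibre W c = 0 := by
      have : IsEmpty {y : F // W.toAffine.Equation c y} := ⟨fun y ↦ hne y.1 y.2⟩
      exact Nat.card_of_isEmpty
    rw [hr]
    exact ⟨by omega, sq_dvd_subNum_of_no_point W hne, fun h ↦ absurd h (lt_irrefl 0)⟩
  obtain ⟨b, rfl⟩ := hy
  have hb : W.toAffine.Equation c b := (hEq c b).mp h₀
  have hval : (slopeNumConst W).eval (ι c) + (slopeNumLin W).eval (ι c) * ι b =
      2 * ι b + ι (W.a₁ * c + W.a₃) := by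
    rw [hu, ← map_pow, FiniteField.pow_card]; ring
  have hneg : V.negY (ι c) (ι b) = ι (W.toAffine.negY c b) := Affine.map_negY ι c b
  have hset : ∀ y, W.toAffine.Equation c y ↔ y = b ∨ y = W.toAffine.negY c b := fun y ↦
    ⟨fun h ↦ Affine.Y_eq_of_X_eq h hb rfl, by
      rintro (rfl | rfl)
      exacts [hb, (Affine.equation_neg c b).mpr hb]⟩
  have hr : fibre W c = ({b, W.toAffine.negY c b} : Finset F).card :=
    Nat.subtype_card _ (fun y ↦ by simp [hset])
  have hnum' : (subNum W).eval (ι c) = (2 * ι b + ι (W.a₁ * c + W.a₃)) ^ 2 := by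
    have hu' := eval_slopeNum W ((Affine.equation_neg _ _).mpr h₀)
    rw [← hV, hneg, ← map_pow, FiniteField.pow_card, hlin] at hu'
    rw [hnum, normForm_eval _ h₀, hval, hneg, hu']
    simp only [Affine.negY, map_sub, map_neg, map_mul, map_add]
    ring
  by_cases hbb : W.toAffine.negY c b = b
  · -- a ramification point
    have hr1 : fibre W c = 1 := by rw [hr, hbb]; simp
    have h2 : 2 * ι b + ι (W.a₁ * c + W.a₃) = 0 := by
      have := congrArg ι hbb
      simp only [Affine.negY, map_sub, map_neg, map_mul, map_add] at this ⊢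
      linear_combination -this
    refine ⟨by omega, by rw [hr1, pow_one, dvd_iff_isRoot, IsRoot, hnum', h2]; ring,
        fun _ hdvd ↦ ?_⟩
    rw [hr1] at hdvd
    exact not_sq_dvd_subNum_of_ramified W hb hbb hdvd
  · -- two rational points
    have hr2 : fibre W c = 2 := by rw [hr, Finset.card_pair (Ne.symm hbb)]
    refine ⟨by omega, by simp [hr2], fun _ hdvd ↦ hbb ?_⟩
    rw [hr2, Nat.sub_self, zero_add, pow_one, dvd_iff_isRoot] at hdvd
    rw [IsRoot, hnum', sq_eq_zero_iff] at hdvd
    apply ι.injective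
    simp only [Affine.negY, map_sub, map_neg, map_mul, map_add] at hdvd ⊢
    linear_combination -hdvd

/-- Counting points by the fibres over the abscissae. -/
theorem natCard_point : Nat.card W.toAffine.Point = 1 + ∑ c, fibre W c := by
  classical
  let e : W.toAffine.Point ≃ Option (Σ c, {y : F // W.toAffine.Equation c y}) :=
    { toFun := fun P ↦ match P with
        | .zero => none
        | .some x y h => some ⟨x, y, h.1⟩
      invFun := fun o ↦ match o with
        | none => .zero
        | some ⟨x, y, h⟩ => .some x y (Affine.equation_iff_nonsingular.mp h)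
      left_inv := by rintro (_ | ⟨x, y, h⟩) <;> rfl
      right_inv := by rintro (_ | ⟨x, y, h⟩) <;> rfl }
  rw [Nat.card_congr e, Finite.card_option, Nat.card_sigma, add_comm]
  rfl

variable [IsAlgClosed k] [DecidableEq k]

omit [IsAlgClosed k] [W.IsElliptic] in
lemma frobHom_some {x y : k} (h : (W⁄k).toAffine.Nonsingular x y) :
    ∃ h', frobHom W (.some x y h) = .some (x ^ q) (y ^ q) h' :=
  ⟨_, Affine.Point.map_some (W' := W) (FiniteField.frobeniusAlgHom F k) h⟩

omit [IsAlgClosed k] [W.IsElliptic] in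
/-- Frobenius has degree `q`. -/
theorem hasDeg_frobHom : HasDeg (frobHom (k := k) W) q := by
  refine ⟨![X ^ q, 1], ⟨fun x h ↦ ?_, ∅, fun x y h _ ↦ ⟨1, one_ne_zero, ?_⟩⟩,
    fun i ↦ by fin_cases i <;> simp, fun h ↦ ?_⟩
  · simpa [evalVec] using congrFun h 1
  · obtain ⟨h', e⟩ := frobHom_some W h
    rw [e]
    funext i; fin_cases i <;> simp [evalVec]
  · simpa using congrFun h 0

omit [IsAlgClosed k] [W.IsElliptic] in
lemma exists_xRep_frobHom_sub {x y : k} (h : (W⁄k).toAffine.Nonsingular x y)
    (hne : x ^ q - x ≠ 0) : ∃ x' : k,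
      (frobHom W (.some x y h) - .some x y h).xRep = ![x', 1] ∧
        (subNum W).eval x = (x ^ q - x) ^ 2 * x' := by
  obtain ⟨h', e⟩ := frobHom_some W h
  have hadd : (frobHom W (.some x y h) - .some x y h) =
      .some _ _ (Affine.nonsingular_add h' ((Affine.nonsingular_neg x y).mpr h)
        fun hxy ↦ sub_ne_zero.mp hne hxy.1) := by
    rw [e, sub_eq_add_neg, Affine.Point.neg_some]
    exact Affine.Point.add_of_X_ne (sub_ne_zero.mp hne)
  refine ⟨_, by rw [hadd, Affine.Point.xRep_some], ?_⟩
  have hu := eval_slopeNum W h.1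
  have hu' := eval_slopeNum W ((Affine.equation_neg x y).mpr h.1)
  have hneg : (W⁄k).toAffine.negY x y ^ q = (W⁄k).toAffine.negY (x ^ q) (y ^ q) :=
    (Affine.baseChange_negY (FiniteField.frobeniusAlgHom F k) x y).symm
  rw [hneg] at hu'
  rw [Affine.slope_of_X_ne (sub_ne_zero.mp hne), subNum, eval_sub, eval_neg,
    normForm_eval _ h.1, hu, hu']
  simp only [Affine.addX, Affine.negY, linY, eval_add, eval_mul, eval_pow, eval_sub, eval_C, eval_X]
  field_simp
  ring

/-- Frobenius minus the identity has as degree the number of rational points. -/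
theorem hasDeg_frobHom_sub_id :
    HasDeg (frobHom (k := k) W - AddMonoidHom.id _) (Nat.card W.toAffine.Point) := by
  classical
  set ι := algebraMap F k with hι
  set r := fibre W with hr
  have hcases := fun c ↦ fibre_cases (k := k) W c
  set G : k[X] := ∏ c, (X - C (ι c)) ^ (2 - r c) with hG
  set D : k[X] := ∏ c, (X - C (ι c)) ^ r c with hD
  have hm : ∀ (c : F) (n : ℕ), ((X - C (ι c)) ^ n).Monic := fun c n ↦ (monic_X_sub_C _).pow n
  have hGD : G * D = (X ^ q - X) ^ 2 := by
    rw [X_pow_card_sub_X_eq_prod (F := F), hG, hD, ← Finset.prod_mul_distrib, ← Finset.prod_pow]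
    refine Finset.prod_congr rfl fun c _ ↦ ?_
    rw [← pow_add, Nat.sub_add_cancel (hcases c).1]
  obtain ⟨N, hN⟩ : G ∣ subNum W := by
    refine Finset.prod_dvd_of_coprime (fun a _ b _ hab ↦ IsCoprime.pow ?_) fun c _ ↦ (hcases c).2.1
    exact pairwise_coprime_X_sub_C ι.injective hab
  have hdegG : G.natDegree = ∑ c, (2 - r c) := by
    rw [hG, natDegree_prod_of_monic _ _ fun c _ ↦ hm c _]; simp
  have hdegD : D.natDegree = ∑ c, r c := by
    rw [hD, natDegree_prod_of_monic _ _ fun c _ ↦ hm c _]; simp
  have hGm : G.Monic := monic_prod_of_monic _ _ fun c _ ↦ hm c _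
  have hsum : (∑ c, (2 - r c)) + ∑ c, r c = 2 * q := by
    rw [← Finset.sum_add_distrib, Finset.sum_congr rfl fun c _ ↦ Nat.sub_add_cancel (hcases c).1]
    simp [mul_comm]
  obtain ⟨hle, hcoe⟩ := natDegree_subNum (k := k) W
  have hdegS : (subNum W : k[X]).natDegree = 2 * q + 1 :=
    natDegree_eq_of_le_of_coeff_ne_zero hle (by rw [hcoe]; exact one_ne_zero)
  have hN0 : N ≠ 0 := by rintro rfl; rw [hN, mul_zero, natDegree_zero] at hdegS; omega
  have hdegN : N.natDegree = 1 + ∑ c, r c := by
    rw [hN, natDegree_mul hGm.ne_zero hN0, hdegG] at hdegS; omega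
  rw [natCard_point, ← hr]
  refine ⟨![N, D], ⟨fun x hx ↦ ?_, Finset.univ.image ι, fun x y h hx ↦ ?_⟩, fun i ↦ ?_, fun h ↦ ?_⟩
  · have h0 : N.eval x = 0 := congrFun hx 0
    have h1 : D.eval x = 0 := congrFun hx 1
    rw [hD, eval_prod, Finset.prod_eq_zero_iff] at h1
    obtain ⟨c, -, hc⟩ := h1
    rw [eval_pow, pow_eq_zero_iff'] at hc
    obtain rfl : x = ι c := sub_eq_zero.mp (by simpa using hc.1)
    refine (hcases c).2.2 (Nat.pos_of_ne_zero hc.2) ?_
    rw [hN, pow_succ]
    exact mul_dvd_mul (Finset.dvd_prod_of_mem (fun c ↦ (X - C (ι c)) ^ (2 - r c))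
      (Finset.mem_univ c)) (dvd_iff_isRoot.mpr h0)
  · have hx' : ∀ c, x - ι c ≠ 0 := fun c e ↦
      hx (Finset.mem_image.mpr ⟨c, Finset.mem_univ c, (sub_eq_zero.mp e).symm⟩)
    have hne : x ^ q - x ≠ 0 := fun e ↦ by
      obtain ⟨c, rfl⟩ := mem_range_of_pow_card_eq (F := F) (sub_eq_zero.mp e)
      exact hx' c (sub_self _)
    have hG0 : G.eval x ≠ 0 := by simp [hG, eval_prod, Finset.prod_ne_zero_iff, hx']
    have hD0 : D.eval x ≠ 0 := by simp [hD, eval_prod, Finset.prod_ne_zero_iff, hx']
    obtain ⟨x', hx'', key⟩ := exists_xRep_frobHom_sub W h hne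
    refine ⟨D.eval x, hD0, ?_⟩
    rw [AddMonoidHom.sub_apply, AddMonoidHom.id_apply, hx'']
    rw [hN, eval_mul] at key
    funext i
    fin_cases i
    · have hGD' := congrArg (eval x) hGD
      simp only [eval_mul, eval_pow, eval_sub, eval_X] at hGD'
      simp only [evalVec, Fin.zero_eta, Matrix.cons_val_zero, Pi.smul_apply, smul_eq_mul]
      apply mul_left_cancel₀ hG0
      rw [key, ← hGD']
      ring
    · simp [evalVec]
  · fin_cases i
    · simp [hdegN]
    · simp [hdegD]
  · have h0 := congrFun h 0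
    simp [← hdegN, hN0] at h0

end Fermat.Agent.EC
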