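import Mathlib.FieldTheory.IsAlgClosed.Basic
import Mathlib.RingTheory.RootsOfUnity.AlgebraicallyClosed
import Fermat.Agent.EC.WeilPairing

/-!
# The nodal cubic `y² + xy = x³`

The smooth points are parametrised by `t = y / x`, equivalently by `u = t / (t + 1)`, and
`u` identifies the group with the multiplicative group.  We compute Miller functions in the
parameter `t`.

It is the special fibre used to prove non-degeneracy of the Weil pairing.
-/

noncomputable section

namespace Fermat.Agent.EC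

open WeierstrassCurve Polynomial

variable {k : Type*} [Field k]

/-- The nodal cubic `y² + xy = x³`. -/
def nodal (k : Type*) [Field k] : Affine k := ⟨1, 0, 0, 0, 0⟩

lemma nodal_equation_iff (x y : k) : (nodal k).Equation x y ↔ y ^ 2 + x * y = x ^ 3 := by
  rw [Affine.equation_iff]
  simp [nodal]

lemma nodal_equation_param (t : k) :
    (nodal k).Equation (t ^ 2 + t) (t ^ 3 + t ^ 2) := by
  rw [nodal_equation_iff]; ring

lemma nodal_nonsingular_iff (x y : k) :
    (nodal k).Nonsingular x y ↔ (nodal k).Equation x y ∧ x ≠ 0 := by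
  rw [Affine.nonsingular_iff]
  refine ⟨fun ⟨he, h⟩ ↦ ⟨he, fun hx ↦ ?_⟩, fun ⟨he, hx⟩ ↦ ⟨he, ?_⟩⟩
  · subst hx
    have hy : y = 0 := by simpa using (nodal_equation_iff 0 y).mp he
    subst hy
    simp [nodal] at h
  · by_contra hcon
    simp only [nodal, not_or, not_not, zero_mul, mul_zero, one_mul, add_zero,
      sub_zero] at hcon
    obtain ⟨h1, h2⟩ := hcon
    have e := (nodal_equation_iff x y).mp he
    have h1' : y = 3 * x ^ 2 := by linear_combination h1
    have h2' : 2 * y + x = 0 := by linear_combination h2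
    subst h1'
    have a : 6 * x + 1 = 0 := by
      refine mul_left_cancel₀ hx ?_
      linear_combination h2'
    have b : 9 * x + 2 = 0 := by
      refine mul_left_cancel₀ (pow_ne_zero 3 hx) ?_
      linear_combination e
    exact one_ne_zero (show (1 : k) = 0 by linear_combination 2 * b - 3 * a)

lemma nodal_negY (x y : k) : (nodal k).negY x y = -y - x := by
  simp [nodal, Affine.negY]

lemma nodal_param {x y : k} (h : (nodal k).Equation x y) (hx : x ≠ 0) :
    x = (y / x) ^ 2 + y / x ∧ y = (y / x) ^ 3 + (y / x) ^ 2 := by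
  have e := (nodal_equation_iff x y).mp h
  have h1 : x = (y / x) ^ 2 + y / x := by
    field_simp
    linear_combination -e
  refine ⟨h1, ?_⟩
  calc y = y / x * x := by field_simp
    _ = y / x * ((y / x) ^ 2 + y / x) := by rw [← h1]
    _ = _ := by ring

/-- A pair of polynomials read in the parameter. -/
def nodalPoly (a b : k[X]) : k[X] :=
  a.comp (X ^ 2 + X) + b.comp (X ^ 2 + X) * (X ^ 3 + X ^ 2)

lemma nodalPoly_eval (a b : k[X]) (t : k) :
    (nodalPoly a b).eval t = pairEval a b (t ^ 2 + t) (t ^ 3 + t ^ 2) := by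
  simp [nodalPoly, pairEval, eval_comp]

lemma monic_nodalPoly {m : ℕ} (hm : Odd m) {x : k} {a b : k[X]}
    (hn : normForm (nodal k) a b = -(X - C x) ^ m) (hl : b.leadingCoeff = 1) :
    (nodalPoly a b).Monic ∧ (nodalPoly a b).natDegree = m := by
  obtain ⟨-, hbm, ha⟩ := degrees_of_normForm hm (by rw [hn, degree_neg_X_sub_C_pow])
  have hq : (X ^ 2 + X : k[X]).natDegree = 2 := by compute_degree!
  have hqm : (X ^ 2 + X : k[X]).Monic :=
    (monic_X_pow 2).add_of_left (by rw [degree_X, degree_X_pow]; norm_num)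
  have hcm : (X ^ 3 + X ^ 2 : k[X]).Monic :=
    (monic_X_pow 3).add_of_left (by rw [degree_X_pow, degree_X_pow]; norm_num)
  have hc : (X ^ 3 + X ^ 2 : k[X]).natDegree = 3 := by compute_degree!
  have hbc : (b.comp (X ^ 2 + X) * (X ^ 3 + X ^ 2)).Monic :=
    ((show b.Monic from hl).comp hqm (by rw [hq]; norm_num)).mul hcm
  have hd : (b.comp (X ^ 2 + X) * (X ^ 3 + X ^ 2)).natDegree = m := by
    rw [(((show b.Monic from hl).comp hqm (by rw [hq]; norm_num))).natDegree_mul hcm, hc,
      natDegree_comp, hq]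
    omega
  have hlt : (a.comp (X ^ 2 + X)).natDegree < m := by
    rw [natDegree_comp, hq]; omega
  have hlt' : (a.comp (X ^ 2 + X)).degree < (b.comp (X ^ 2 + X) * (X ^ 3 + X ^ 2)).degree :=
    degree_lt_degree (by rw [hd]; exact hlt)
  exact ⟨hbc.add_of_right hlt', by rw [nodalPoly, natDegree_add_eq_right_of_degree_lt hlt', hd]⟩

lemma nodalPoly_root {m : ℕ} {x r : k} {a b : k[X]}
    (hn : normForm (nodal k) a b = -(X - C x) ^ m) (hr : (nodalPoly a b).eval r = 0) :
    r ^ 2 + r = x := by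
  rw [nodalPoly_eval] at hr
  have := pairEval_mul_negY (nodal_equation_param r) a b
  rw [hr, zero_mul, hn] at this
  simp at this
  exact sub_eq_zero.mp this.1

/-- A monic polynomial with at most two roots. -/
lemma exists_eval_eq_of_two_roots [IsAlgClosed k] {H : k[X]} (hH : H.Monic) {r s : k}
    (hroots : ∀ t, H.eval t = 0 → t = r ∨ t = s) :
    ∃ i j : ℕ, i + j = H.natDegree ∧ ∀ t, H.eval t = (t - r) ^ i * (t - s) ^ j := by
  classical
  have hs := IsAlgClosed.splits H
  have hcard : H.roots.card = H.natDegree := (Polynomial.Splits.natDegree_eq_card_roots hs).symm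
  have h1 : H.roots.filter (· = r) = Multiset.replicate (H.roots.filter (· = r)).card r :=
    Multiset.eq_replicate_card.mpr fun a ha ↦ (Multiset.mem_filter.mp ha).2
  have h2 : H.roots.filter (¬ · = r) =
      Multiset.replicate (H.roots.filter (¬ · = r)).card s :=
    Multiset.eq_replicate_card.mpr fun a ha ↦ by
      obtain ⟨ha, hne⟩ := Multiset.mem_filter.mp ha
      exact (hroots a (isRoot_of_mem_roots ha)).resolve_left hne
  refine ⟨(H.roots.filter (· = r)).card, (H.roots.filter (¬ · = r)).card, ?_, fun t ↦ ?_⟩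
  · rw [← Multiset.card_add, Multiset.filter_add_not, hcard]
  · conv_lhs => rw [hs.eq_prod_roots_of_monic hH, ← Multiset.filter_add_not (· = r) H.roots,
      h1, h2]
    simp [Multiset.map_replicate, Multiset.prod_replicate]

/-- The shape of a function supported at the node. -/
theorem nodal_eval_node [IsAlgClosed k] {p : ℕ} (hodd : Odd p) {a b : k[X]}
    (hn : normForm (nodal k) a b = -(X - C 0) ^ p) (hl : b.leadingCoeff = 1) :
    ∃ i j : ℕ, 1 ≤ i ∧ 1 ≤ j ∧ i + j = p ∧
      ∀ t : k, pairEval a b (t ^ 2 + t) (t ^ 3 + t ^ 2) = t ^ i * (t + 1) ^ j := by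
  obtain ⟨hmon, hdeg⟩ := monic_nodalPoly hodd hn hl
  obtain ⟨i, j, hij, he⟩ := exists_eval_eq_of_two_roots hmon (r := 0) (s := -1) fun t ht ↦ by
    have := nodalPoly_root hn ht
    rcases mul_eq_zero.mp (show t * (t + 1) = 0 by linear_combination this) with h | h
    · exact Or.inl h
    · exact Or.inr (eq_neg_of_add_eq_zero_left h)
  simp only [nodalPoly_eval, sub_zero, sub_neg_eq_add] at he
  rw [hdeg] at hij
  have h0 := he 0
  have h1 := he (-1)
  norm_num [pairEval] at h0 h1
  have hp0 : p ≠ 0 := hodd.pos.ne'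
  refine ⟨i, j, ?_, ?_, hij, he⟩
  · by_contra hi
    have hi0 : i = 0 := by omega
    rw [hi0] at h0 h1
    simp [show j ≠ 0 by omega] at h0 h1
    simp [h0] at h1
  · by_contra hj
    have hj0 : j = 0 := by omega
    rw [hj0] at h1
    simp [show i ≠ 0 by omega] at h0 h1
    rw [h0] at h1
    exact pow_ne_zero i (neg_ne_zero.mpr one_ne_zero) h1.symm

/-- A Miller function at a smooth point. -/
theorem nodal_eval_miller [IsAlgClosed k] {p : ℕ} (hodd : Odd p) {t₀ : k} {a b : k[X]}
    (h : IsMiller (nodal k) p (t₀ ^ 2 + t₀) (t₀ ^ 3 + t₀ ^ 2) a b) (t : k) :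
    pairEval a b (t ^ 2 + t) (t ^ 3 + t ^ 2) = (t - t₀) ^ p := by
  obtain ⟨hmon, hdeg⟩ := monic_nodalPoly hodd h.norm h.lead
  obtain ⟨i, j, hij, he⟩ := exists_eval_eq_of_two_roots hmon (r := t₀) (s := t₀) fun r hr ↦ by
    have hx := nodalPoly_root h.norm hr
    rcases mul_eq_zero.mp (show (r - t₀) * (r + t₀ + 1) = 0 by linear_combination hx) with e | e
    · exact Or.inl (sub_eq_zero.mp e)
    · exfalso
      apply h.ne
      rw [nodal_negY]
      rw [nodalPoly_eval, show r = -1 - t₀ by linear_combination e] at hr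
      convert hr using 2 <;> ring
  rw [← nodalPoly_eval, he, ← pow_add, hij, hdeg]

variable [DecidableEq k]

/-- A `p`-torsion point has parameter `u = t / (t + 1)` a nontrivial `p`-th root of unity. -/
theorem nodal_torsion_param [IsAlgClosed k] {p : ℕ} (hodd : Odd p) {x y : k}
    {h : (nodal k).Nonsingular x y} (hP : p • Affine.Point.some x y h = 0) :
    y / x + 1 ≠ 0 ∧ (y / x / (y / x + 1)) ^ p = 1 ∧ y / x / (y / x + 1) ≠ 1 := by
  obtain ⟨he, hx⟩ := (nodal_nonsingular_iff x y).mp h
  obtain ⟨h1, h2⟩ := nodal_param he hx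
  set t := y / x with ht
  have htt : t * (t + 1) ≠ 0 := by rwa [show t * (t + 1) = t ^ 2 + t by ring, ← h1]
  have ht1 : t + 1 ≠ 0 := (mul_ne_zero_iff.mp htt).2
  refine ⟨ht1, ?_, fun e ↦ ?_⟩
  · obtain ⟨a, b, hf⟩ : ∃ a b, IsMiller (nodal k) p x y a b :=
      ⟨_, _, isMiller_millerPair hodd h hP⟩
    rw [h1, h2] at hf
    have e0 := nodal_eval_miller hodd hf 0
    have e1 := nodal_eval_miller hodd hf (-1)
    norm_num [pairEval] at e0 e1
    rw [e0, hodd.neg_pow, show (-1 - t) = -(t + 1) by ring, hodd.neg_pow, neg_inj] at e1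
    rw [div_pow, e1, div_self (pow_ne_zero _ ht1)]
  · rw [div_eq_one_iff_eq ht1] at e
    exact one_ne_zero (show (1 : k) = 0 by linear_combination -e)

/-- The point of parameter `u`. -/
def nodalPt (u : k) : (nodal k).Point :=
  if hu : u ≠ 0 ∧ u ≠ 1 then
    .some ((u / (1 - u)) ^ 2 + u / (1 - u)) ((u / (1 - u)) ^ 3 + (u / (1 - u)) ^ 2)
      ((nodal_nonsingular_iff _ _).mpr ⟨nodal_equation_param _, by
        have h1 : (1 : k) - u ≠ 0 := sub_ne_zero.mpr hu.2.symm
        have : (u / (1 - u)) ^ 2 + u / (1 - u) = u / (1 - u) ^ 2 := by field_simp; ring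
        rw [this]
        exact div_ne_zero hu.1 (pow_ne_zero 2 h1)⟩)
  else 0

lemma nodalPt_one : nodalPt (1 : k) = 0 := dif_neg fun h ↦ h.2 rfl

lemma nodalPt_mul {u v : k} (hu : u ≠ 0) (hv : v ≠ 0) :
    nodalPt u + nodalPt v = nodalPt (u * v) := by
  rcases eq_or_ne u 1 with rfl | hu1
  · rw [nodalPt_one, zero_add, one_mul]
  rcases eq_or_ne v 1 with rfl | hv1
  · rw [nodalPt_one, add_zero, mul_one]
  have a1 : (1 : k) - u ≠ 0 := sub_ne_zero.mpr hu1.symm
  have b1 : (1 : k) - v ≠ 0 := sub_ne_zero.mpr hv1.symm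
  rw [nodalPt, dif_pos ⟨hu, hu1⟩, nodalPt, dif_pos ⟨hv, hv1⟩]
  rcases eq_or_ne (u * v) 1 with huv | huv
  · rw [huv, nodalPt_one]
    have hst : u / (1 - u) = -1 - v / (1 - v) := by
      field_simp
      linear_combination -huv
    apply Affine.Point.add_of_Y_eq
    · rw [hst]; ring
    · rw [nodal_negY, hst]; ring
  · rw [nodalPt, dif_pos ⟨mul_ne_zero hu hv, huv⟩]
    obtain ⟨s, hs⟩ : ∃ s, s = u / (1 - u) := ⟨_, rfl⟩
    obtain ⟨t, ht⟩ : ∃ t, t = v / (1 - v) := ⟨_, rfl⟩
    have hD : s + t + 1 = (1 - u * v) / ((1 - u) * (1 - v)) := by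
      rw [hs, ht]; field_simp; ring
    have hD0 : s + t + 1 ≠ 0 := by
      rw [hD]; exact div_ne_zero (sub_ne_zero.mpr huv.symm) (mul_ne_zero a1 b1)
    have hr : u * v / (1 - u * v) = s * t / (s + t + 1) := by
      rw [hD, hs, ht]; field_simp
    have hxy : ¬(s ^ 2 + s = t ^ 2 + t ∧
        s ^ 3 + s ^ 2 = (nodal k).negY (t ^ 2 + t) (t ^ 3 + t ^ 2)) := by
      rintro ⟨hx, hy⟩
      rw [nodal_negY] at hy
      have hst : s = t := by
        rcases mul_eq_zero.mp (show (s - t) * (s + t + 1) = 0 by linear_combination hx) with e | e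
        · exact sub_eq_zero.mp e
        · exact absurd e hD0
      rw [hst] at hy hD0
      have hx0 : t ^ 2 + t ≠ 0 := by
        rw [ht, show (v / (1 - v)) ^ 2 + v / (1 - v) = v / (1 - v) ^ 2 by field_simp; ring]
        exact div_ne_zero hv (pow_ne_zero 2 b1)
      exact mul_ne_zero hx0 hD0 (by linear_combination hy)
    have hℓ : (nodal k).slope (s ^ 2 + s) (t ^ 2 + t) (s ^ 3 + s ^ 2) (t ^ 3 + t ^ 2) =
        s + t - s * t / (s + t + 1) := by
      rcases eq_or_ne (s ^ 2 + s) (t ^ 2 + t) with hx | hx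
      · have hst : s = t := by
          rcases mul_eq_zero.mp (show (s - t) * (s + t + 1) = 0 by linear_combination hx) with e | e
          · exact sub_eq_zero.mp e
          · exact absurd e hD0
        have hy : s ^ 3 + s ^ 2 ≠ (nodal k).negY (t ^ 2 + t) (t ^ 3 + t ^ 2) := fun e ↦ hxy ⟨hx, e⟩
        rw [Affine.slope_of_Y_ne hx hy, hst]
        rw [hst, nodal_negY] at hy
        simp only [nodal, Affine.negY]
        rw [hst] at hD0
        rw [show t + t - t * t / (t + t + 1) = (3 * t ^ 2 + 2 * t) / (t + t + 1) by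
            rw [eq_div_iff hD0, sub_mul, div_mul_cancel₀ _ hD0]; ring,
          div_eq_div_iff (fun h ↦ hy (by linear_combination h)) hD0]
        ring
      · rw [Affine.slope_of_X_ne hx]
        rw [div_eq_iff (sub_ne_zero.mpr hx)]
        field_simp
        ring
    simp only [← hs, ← ht]
    rw [Affine.Point.add_some hxy]
    simp only [hℓ]
    simp only [Affine.Point.some.injEq, hr, Affine.addX, Affine.addY, Affine.negAddY,
      Affine.negY, nodal]
    constructor
    · field_simp; ring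
    · field_simp; ring

lemma nsmul_nodalPt {u : k} (hu : u ≠ 0) (n : ℕ) : n • nodalPt u = nodalPt (u ^ n) := by
  induction n with
  | zero => rw [zero_smul, pow_zero, nodalPt_one]
  | succ n ih => rw [succ_nsmul, ih, nodalPt_mul (pow_ne_zero n hu) hu, pow_succ]

/-- The nodal cubic has a smooth point of order `p`. -/
theorem exists_nodal_torsion [IsAlgClosed k] {p : ℕ} (hp : p.Prime) (hpk : (p : k) ≠ 0) :
    ∃ P : (nodal k).Point, P ≠ 0 ∧ p • P = 0 := by
  have : NeZero (p : k) := ⟨hpk⟩
  obtain ⟨u, hu⟩ := HasEnoughRootsOfUnity.exists_primitiveRoot k p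
  refine ⟨nodalPt u, ?_, by rw [nsmul_nodalPt (hu.ne_zero hp.ne_zero), hu.pow_eq_one, nodalPt_one]⟩
  rw [nodalPt, dif_pos ⟨hu.ne_zero hp.ne_zero, hu.ne_one hp.one_lt⟩]
  exact Affine.Point.some_ne_zero _

end Fermat.Agent.EC
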