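import Fermat.Prelude.Def_FLTPrelim_CofixedLine
import Fermat.Prelude.Def_FLTPrelim_GaloisRep
import Fermat.Prelude.Def_FLTPrelim_Ramification
import Fermat.Agent.SmallExponents.VC

/-!
# Galois-equivariant change of variables on points and torsion

It transports Galois representations between Weierstrass models.
-/

noncomputable section

namespace Fermat.Agent.EC

open WeierstrassCurve
open scoped WeierstrassCurve.Affine

variable {K : Type*} [Field K] [DecidableEq K]

/-- Equal curves have the same points. -/
def pointCongr {V V' : WeierstrassCurve K} (h : V = V') : V.toAffine.Point ≃+ V'.toAffine.Point :=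
  h ▸ AddEquiv.refl _

lemma pointCongr_some {V V' : WeierstrassCurve K} (h : V = V') {x y : K}
    (hP : V.toAffine.Nonsingular x y) :
    pointCongr h (.some x y hP) = .some x y (h ▸ hP) := by
  subst h; rfl

variable {F : Type*} [Field F] [Algebra F K]

/-- Points of `C • E` over `K` versus points of `E` over `K`. -/
def pointEquiv (C : VariableChange F) (E : WeierstrassCurve F) :
    ((C • E)⁄K).Point ≃+ (E⁄K).Point :=
  (pointCongr (E.map_variableChange C (algebraMap F K)).symm).trans
    (SmallExponents.vcEquiv (E.map (algebraMap F K)) (C.map (algebraMap F K)))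

lemma pointEquiv_some (C : VariableChange F) (E : WeierstrassCurve F) {x y : K}
    (h : ((C • E)⁄K).Nonsingular x y) :
    ∃ h', pointEquiv C E (.some x y h) =
      .some (SmallExponents.vcX (C.map (algebraMap F K)) x)
        (SmallExponents.vcY (C.map (algebraMap F K)) x y) h' := by
  refine ⟨?_, ?_⟩
  · exact (SmallExponents.vc_nonsingular_iff _ _ x y).mpr
      ((E.map_variableChange C (algebraMap F K)).symm ▸ h)
  · exact congrArg (SmallExponents.vcHom _ _)
        (pointCongr_some (E.map_variableChange C (algebraMap F K)).symm h)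

lemma pointEquiv_smul (C : VariableChange F) (E : WeierstrassCurve F) (σ : K ≃ₐ[F] K)
    (P : ((C • E)⁄K).Point) : pointEquiv C E (σ • P) = σ • pointEquiv C E P := by
  rcases P with _ | ⟨x, y, h⟩
  · rw [← Affine.Point.zero_def, smul_zero, map_zero, smul_zero]
  · obtain ⟨h₁, e₁⟩ := pointEquiv_some C E h
    rw [e₁, Affine.Point.algEquiv_smul_def, Affine.Point.map_some,
      Affine.Point.algEquiv_smul_def, Affine.Point.map_some]
    obtain ⟨h₂, e₂⟩ := pointEquiv_some C E
      ((Affine.baseChange_nonsingular (C • E) σ.toAlgHom.injective x y).mpr h)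
    refine e₂.trans ?_
    simp only [Affine.Point.some.injEq, SmallExponents.vcX, SmallExponents.vcY, VariableChange.map]
    constructor <;> simp

/-- The induced equivariant linear equivalence on `n`-torsion. -/
def torsionEquiv (C : VariableChange F) (E : WeierstrassCurve F) (n : ℕ) :
    Submodule.torsionBy ℤ ((C • E)⁄K).Point (n : ℤ) ≃ₗ[ZMod n]
      Submodule.torsionBy ℤ (E⁄K).Point (n : ℤ) :=
  let e : Submodule.torsionBy ℤ ((C • E)⁄K).Point (n : ℤ) ≃+
      Submodule.torsionBy ℤ (E⁄K).Point (n : ℤ) :=
    { toFun := fun P ↦ ⟨pointEquiv C E P.1, by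
        rw [Submodule.mem_torsionBy_iff, ← map_zsmul, (Submodule.mem_torsionBy_iff _ _).mp P.2,
          map_zero]⟩
      invFun := fun P ↦ ⟨(pointEquiv C E).symm P.1, by
        rw [Submodule.mem_torsionBy_iff, ← map_zsmul, (Submodule.mem_torsionBy_iff _ _).mp P.2,
          map_zero]⟩
      left_inv := fun P ↦ Subtype.ext ((pointEquiv C E).symm_apply_apply _)
      right_inv := fun P ↦ Subtype.ext ((pointEquiv C E).apply_symm_apply _)
      map_add' := fun P Q ↦ Subtype.ext (map_add (pointEquiv C E) P.1 Q.1) }
  { e with map_smul' := fun c x ↦ ZMod.map_smul e.toAddMonoidHom c x }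

@[simp] lemma coe_torsionEquiv (C : VariableChange F) (E : WeierstrassCurve F) (n : ℕ)
    (P : Submodule.torsionBy ℤ ((C • E)⁄K).Point (n : ℤ)) :
    (torsionEquiv C E n P : (E⁄K).Point) = pointEquiv C E P :=
  rfl

lemma torsionEquiv_smul (C : VariableChange F) (E : WeierstrassCurve F) (n : ℕ)
    (σ : K ≃ₐ[F] K) (P : Submodule.torsionBy ℤ ((C • E)⁄K).Point (n : ℤ)) :
    torsionEquiv C E n (σ • P) = σ • torsionEquiv C E n P :=
  Subtype.ext (pointEquiv_smul C E σ P.1)

lemma isGaloisStable_map_iff (C : VariableChange F) (E : WeierstrassCurve F) (n : ℕ)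
    (N : Submodule (ZMod n) (Submodule.torsionBy ℤ ((C • E)⁄K).Point (n : ℤ))) :
    Affine.Point.IsGaloisStable F (N.map (torsionEquiv (K := K) C E n).toLinearMap) ↔
      Affine.Point.IsGaloisStable F N := by
  constructor
  · intro h σ x hx
    obtain ⟨y, hy, e⟩ := h σ _ (Submodule.mem_map_of_mem hx)
    have : y = σ • x := (torsionEquiv C E n).injective (e.trans (torsionEquiv_smul C E n σ x).symm)
    exact this ▸ hy
  · rintro h σ _ ⟨x, hx, rfl⟩
    exact ⟨σ • x, h σ x hx, torsionEquiv_smul C E n σ x⟩

/-- Irreducibility is invariant under change of variables. -/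
theorem galoisRepIsIrreducible_variableChange (C : VariableChange F) (E : WeierstrassCurve F)
    (n : ℕ) :
    Affine.Point.GaloisRepIsIrreducible (K := K) F (C • E) n ↔
      Affine.Point.GaloisRepIsIrreducible (K := K) F E n := by
  set e := torsionEquiv (K := K) C E n
  refine and_congr e.toEquiv.nontrivial_congr ?_
  constructor
  · intro h N hN
    obtain ⟨M, rfl⟩ : ∃ M, M.map e.toLinearMap = N :=
      ⟨N.comap e.toLinearMap, Submodule.map_comap_eq_of_surjective e.surjective _⟩
    rcases h M ((isGaloisStable_map_iff C E n M).mp hN) with rfl | rfl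
    · exact Or.inl (Submodule.map_bot _)
    · exact Or.inr (by rw [Submodule.map_top, LinearEquiv.range])
  · intro h M hM
    rcases h _ ((isGaloisStable_map_iff C E n M).mpr hM) with h' | h'
    · exact Or.inl (Submodule.map_eq_bot_iff.mp h')
    · refine Or.inr (Submodule.map_injective_of_injective e.injective ?_)
      rw [Submodule.map_top, LinearEquiv.range]
      exact h'

end Fermat.Agent.EC
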