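import Mathlib.Algebra.Ring.Regular
import Mathlib.Data.Nat.Prime.Basic
import Mathlib.RingTheory.Ideal.Quotient.Operations
import Fermat.Agent.EC.WeilFun

/-!
# Existence, uniqueness and multiplicativity of Miller functions

They are the functions from which the Weil pairing is built.
-/

noncomputable section

namespace Fermat.Agent.EC

open WeierstrassCurve Polynomial
open scoped Polynomial.Bivariate nonZeroDivisors
open Affine.CoordinateRing (XYIdeal XIdeal XClass YIdeal YClass)

variable {K : Type*} [Field K] {V : Affine K}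

lemma evalAt_mk_XClass {x y : K} (h : V.Equation x y) (c : K) :
    evalAt h (XClass V c) = x - c := by
  rw [XClass, evalAt_mk, evalEval_C, eval_sub, eval_X, eval_C]

lemma evalAt_mk_YClass {x y : K} (h : V.Equation x y) (p : K[X]) :
    evalAt h (YClass V p) = y - p.eval x := by
  rw [YClass, evalAt_mk, evalEval_sub, evalEval_X, evalEval_C]

lemma isMaximal_XYIdeal {x y : K} (h : V.Equation x y) : (XYIdeal V x (C y)).IsMaximal :=
  Ideal.Quotient.maximal_of_isField _
    (MulEquiv.isField (Field.toIsField K)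
      (Affine.CoordinateRing.quotientXYIdealEquiv (W' := V) (x := x) (y := C y) h).toMulEquiv)

lemma mem_XYIdeal_iff {x y : K} (h : V.Equation x y) (z : V.CoordinateRing) :
    z ∈ XYIdeal V x (C y) ↔ evalAt h z = 0 := by
  have hle : XYIdeal V x (C y) ≤ RingHom.ker (evalAt h) := by
    rw [XYIdeal, Ideal.span_le]
    rintro _ (rfl | rfl) <;>
      simp [RingHom.mem_ker, evalAt_mk_XClass, evalAt_mk_YClass]
  rw [(isMaximal_XYIdeal h).eq_of_le (RingHom.ker_ne_top _) hle, RingHom.mem_ker]

lemma XClass_eq_algebraMap (x : K) :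
    XClass V x = algebraMap K[X] V.CoordinateRing (X - C x) := rfl

/-- Multiplication by the ideal of a nonsingular point cancels. -/
lemma XYIdeal_mul_cancel {x y : K} (h : V.Nonsingular x y) {J J' : Ideal V.CoordinateRing}
    (e : XYIdeal V x (C y) * J = XYIdeal V x (C y) * J') : J = J' := by
  have := congrArg (XYIdeal V x (C (V.negY x y)) * ·) e
  simp only [← mul_assoc, Affine.CoordinateRing.XYIdeal_neg_mul h] at this
  exact (Ideal.span_singleton_mul_right_inj (Affine.CoordinateRing.XClass_ne_zero x)).mp this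

lemma XYIdeal_pow_mul_cancel {x y : K} (h : V.Nonsingular x y) (n : ℕ)
    {J J' : Ideal V.CoordinateRing}
    (e : XYIdeal V x (C y) ^ n * J = XYIdeal V x (C y) ^ n * J') : J = J' := by
  induction n with
  | zero => simpa using e
  | succ n ih => exact ih (XYIdeal_mul_cancel h (by simpa only [← mul_assoc, ← pow_succ'] using e))

lemma equation_negY {x y : K} (h : V.Equation x y) : V.Equation x (V.negY x y) :=
  (Affine.equation_neg x y).mpr h

lemma span_conj_mul (a b : K[X]) {x : K} {m : ℕ} (h : normForm V a b = -(X - C x) ^ m) :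
    Ideal.span {mkPair V a b} * Ideal.span {mkPair V (a - b * linY V) (-b)} = XIdeal V x ^ m := by
  rw [Ideal.span_singleton_mul_span_singleton, mkPair_conj_mul, h, map_neg,
    Ideal.span_singleton_neg, map_pow, ← XClass_eq_algebraMap, ← Ideal.span_singleton_pow]
  rfl

/-- The divisor of a Miller function. -/
theorem IsMiller.span_eq {m : ℕ} {x y : K} {a b : K[X]} (h : IsMiller V m x y a b)
    (hP : V.Nonsingular x y) : Ideal.span {mkPair V a b} = XYIdeal V x (C y) ^ m := by
  set f := mkPair V a b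
  set g := mkPair V (a - b * linY V) (-b)
  set I := XYIdeal V x (C y)
  set I' := XYIdeal V x (C (V.negY x y))
  have hfg := span_conj_mul a b h.norm
  have hI : I' * I = XIdeal V x := Affine.CoordinateRing.XYIdeal_neg_mul hP
  have hP' : V.Nonsingular x (V.negY x y) := (Affine.nonsingular_neg x y).mpr hP
  have key : ∀ {u v : V.CoordinateRing} {J : Ideal V.CoordinateRing}, J.IsMaximal →
      u * v ∈ J ^ m → v ∉ J → u ∈ J ^ m := by
    intro u v J hJ huv hv
    have htop : Ideal.span {v} ⊔ J = ⊤ :=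
      hJ.out.2 _ (lt_of_le_of_ne le_sup_right fun e ↦
        hv (e ▸ Ideal.mem_sup_left (Ideal.subset_span rfl)))
    have := (Ideal.eq_top_iff_one _).mp (Ideal.sup_pow_eq_top (n := m) htop)
    obtain ⟨s, hs, t, ht, e⟩ := Submodule.mem_sup.mp this
    obtain ⟨r, rfl⟩ := Ideal.mem_span_singleton'.mp hs
    have : u = r * (u * v) + t * u := by linear_combination -u * e
    rw [this]
    exact add_mem (Ideal.mul_mem_left _ r huv) (Ideal.mul_mem_right u _ ht)
  have hmem : f * g ∈ I' ^ m * I ^ m := by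
    rw [← mul_pow, hI, ← hfg, Ideal.span_singleton_mul_span_singleton]
    exact Ideal.subset_span rfl
  have hf : f ∈ I ^ m := key (isMaximal_XYIdeal hP.1) (Ideal.mul_le_right hmem) (by
    rw [mem_XYIdeal_iff hP.1, evalAt_mkPair, pairEval_conj]
    exact h.ne)
  have hg : g ∈ I' ^ m := key (u := g) (v := f) (isMaximal_XYIdeal hP'.1)
    (by rw [mul_comm g f]; exact Ideal.mul_le_left hmem) (by
      rw [mem_XYIdeal_iff hP'.1, evalAt_mkPair]
      exact h.ne)
  apply le_antisymm ((Ideal.span_singleton_le_iff_mem _).mpr hf)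
  have h1 : I' ^ m * I ^ m ≤ I' ^ m * Ideal.span {f} := by
    rw [← mul_pow, hI, ← hfg, mul_comm]
    exact Ideal.mul_mono_left ((Ideal.span_singleton_le_iff_mem _).mpr hg)
  have h2 : I' ^ m * Ideal.span {f} = I' ^ m * I ^ m :=
    le_antisymm (Ideal.mul_mono_right ((Ideal.span_singleton_le_iff_mem _).mpr hf)) h1
  exact (XYIdeal_pow_mul_cancel hP' m h2).ge

/-- Units of the coordinate ring are constants. -/
lemma exists_C_of_isUnit {z : V.CoordinateRing} (hz : IsUnit z) :
    ∃ c : K, c ≠ 0 ∧ z = algebraMap K[X] V.CoordinateRing (C c) := by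
  obtain ⟨a, b, rfl⟩ := exists_mkPair z
  have hu := hz.map (Algebra.norm K[X])
  rw [norm_mkPair] at hu
  have hd : (normForm V a b).degree = 0 := degree_eq_zero_of_isUnit hu
  have hb : b = 0 := by
    by_contra hb
    rw [degree_normForm, degree_eq_natDegree hb, two_nsmul, two_nsmul] at hd
    have := (le_max_right _ _).trans_eq hd
    norm_cast at this
  subst hb
  have hn : normForm V a 0 = a ^ 2 := by simp [normForm]
  rw [hn] at hu
  obtain ⟨c, hc, rfl⟩ := Polynomial.isUnit_iff.mp ((isUnit_pow_iff two_ne_zero).mp hu)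
  exact ⟨c, hc.ne_zero, by simp [mkPair, Algebra.smul_def]⟩

lemma span_eq_span_imp_eq {z w : V.CoordinateRing} (h : Ideal.span {z} = Ideal.span {w})
    (hz : wlead z = 1) (hw : wlead w = 1) : z = w := by
  obtain ⟨u, hu⟩ := Ideal.span_singleton_eq_span_singleton.mp h
  obtain ⟨c, -, hc⟩ := exists_C_of_isUnit u.isUnit
  have hwl := congrArg wlead hu
  rw [wlead_mul, hz, one_mul, hw, hc, wlead_algebraMap, leadingCoeff_C] at hwl
  rw [← hu, hc, hwl, C_1, map_one, mul_one]

/-- Miller functions are unique. -/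
theorem IsMiller.unique {m : ℕ} (hm : Odd m) {x y : K} {a b a' b' : K[X]}
    (h : IsMiller V m x y a b) (h' : IsMiller V m x y a' b') (hP : V.Nonsingular x y) :
    a = a' ∧ b = b' :=
  mkPair_injective (span_eq_span_imp_eq ((h.span_eq hP).trans (h'.span_eq hP).symm)
    (h.wlead_eq_one hm) (h'.wlead_eq_one hm))

variable [DecidableEq K]

lemma toClass_nsmul_eq_zero_iff {x y : K} (h : V.Nonsingular x y) (n : ℕ) :
    n • Affine.Point.some x y h = 0 ↔
      ∃ z : V.CoordinateRing, z ≠ 0 ∧ XYIdeal V x (C y) ^ n = Ideal.span {z} := by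
  rw [← Affine.Point.toClass_eq_zero, map_nsmul, Affine.Point.toClass_some]
  show ClassGroup.mk V.FunctionField (Affine.CoordinateRing.XYIdeal' h) ^ n = 1 ↔ _
  rw [← map_pow]
  exact ClassGroup.mk_eq_one_of_coe_ideal (by
    rw [Units.val_pow_eq_pow_val, Affine.CoordinateRing.XYIdeal'_eq, FractionalIdeal.coeIdeal_pow])

theorem IsMiller.nsmul_eq_zero {m : ℕ} (hm : Odd m) {x y : K} {a b : K[X]}
    (h : IsMiller V m x y a b) (hP : V.Nonsingular x y) :
    m • Affine.Point.some x y hP = 0 := by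
  refine (toClass_nsmul_eq_zero_iff hP m).mpr ⟨mkPair V a b, fun e ↦ ?_, (h.span_eq hP).symm⟩
  exact (h.degrees hm).1 (mkPair_injective (e.trans mkPair_zero.symm)).2

omit [DecidableEq K] in
/-- A factor of a power of `X - x` in the coordinate ring has norm a constant times a power of
`X - x`. -/
lemma exists_normForm_eq_pow_mul_C {m : ℕ} {x : K} {a b a' b' : K[X]}
    (h : Ideal.span {mkPair V a b * mkPair V a' b'} =
      Ideal.span {algebraMap K[X] V.CoordinateRing ((X - C x) ^ m)}) :
    ∃ (j : ℕ) (c : K), IsUnit c ∧ (X - C x) ^ j * C c = normForm V a b := by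
  obtain ⟨u, hu⟩ := Ideal.span_singleton_eq_span_singleton.mp h
  have hN := congrArg (Algebra.norm K[X]) hu
  rw [map_mul, map_mul, norm_mkPair, norm_mkPair, Algebra.norm_algebraMap_of_basis
    (Affine.CoordinateRing.basis V), Fintype.card_fin, ← pow_mul] at hN
  have hdvd : normForm V a b ∣ (X - C x) ^ (m * 2) := ⟨_, by rw [← hN, mul_assoc]⟩
  obtain ⟨j, -, hj⟩ := (dvd_prime_pow (prime_X_sub_C x) _).mp hdvd
  obtain ⟨u', hu'⟩ := hj.symm
  obtain ⟨c, hc, hcC⟩ := Polynomial.isUnit_iff.mp u'.isUnit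
  exact ⟨j, c, hc, by rw [hcC, hu']⟩

/-- An odd order point is not fixed by negation. -/
lemma ne_negY_of_odd {p : ℕ} (hodd : Odd p) {x y : K} (h : V.Nonsingular x y)
    (hpP : p • Affine.Point.some x y h = 0) : y ≠ V.negY x y := by
  intro hy
  obtain ⟨k, rfl⟩ := hodd
  rw [add_nsmul, mul_comm, mul_nsmul', one_nsmul, two_nsmul, Affine.Point.add_self_of_Y_eq hy,
    smul_zero, zero_add] at hpP
  exact Affine.Point.some_ne_zero h hpP

/-- Miller functions exist for points killed by an odd `m` and not by `2`. -/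
theorem exists_isMiller {m : ℕ} (hm : Odd m) {x y : K} (hP : V.Nonsingular x y)
    (hy : y ≠ V.negY x y) (hmP : m • Affine.Point.some x y hP = 0) :
    ∃ a b, IsMiller V m x y a b := by
  obtain ⟨z, hz0, hz⟩ := (toClass_nsmul_eq_zero_iff hP m).mp hmP
  obtain ⟨a, b, rfl⟩ := exists_mkPair z
  set I := XYIdeal V x (C y)
  set I' := XYIdeal V x (C (V.negY x y))
  have hP' : V.Nonsingular x (V.negY x y) := (Affine.nonsingular_neg x y).mpr hP
  have hI : I' * I = XIdeal V x := Affine.CoordinateRing.XYIdeal_neg_mul hP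
  have hne : I ⊔ I' = ⊤ := (isMaximal_XYIdeal hP.1).out.2 _
    (lt_of_le_of_ne le_sup_left fun e ↦ by
      have hmem : YClass V (C (V.negY x y)) ∈ I := by
        rw [show I = I ⊔ I' from e]
        exact Ideal.mem_sup_right (Ideal.subset_span (Set.mem_insert_of_mem _ rfl))
      rw [mem_XYIdeal_iff hP.1, evalAt_mk_YClass, eval_C, sub_eq_zero] at hmem
      exact hy hmem)
  have hne' : pairEval a b x (V.negY x y) ≠ 0 := by
    rw [← evalAt_mkPair (equation_negY hP.1), Ne, ← mem_XYIdeal_iff (equation_negY hP.1)]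
    intro hmem
    apply (isMaximal_XYIdeal hP'.1).ne_top
    rw [eq_top_iff, ← Ideal.pow_sup_eq_top (n := m) hne, hz]
    exact sup_le ((Ideal.span_singleton_le_iff_mem _).mpr hmem) le_rfl
  -- the norm is a multiple of a power of `X - x`
  have hP'm : m • Affine.Point.some x (V.negY x y) hP' = 0 := by
    rw [← Affine.Point.neg_some hP, smul_neg, hmP, neg_zero]
  obtain ⟨w, hw0, hw⟩ := (toClass_nsmul_eq_zero_iff hP' m).mp hP'm
  obtain ⟨a', b', rfl⟩ := exists_mkPair w
  have hprod : Ideal.span {mkPair V a b * mkPair V a' b'} =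
      Ideal.span {algebraMap K[X] V.CoordinateRing ((X - C x) ^ m)} := by
    rw [← Ideal.span_singleton_mul_span_singleton, ← hz, ← hw, ← mul_pow, mul_comm, hI,
      map_pow, ← Ideal.span_singleton_pow, ← XClass_eq_algebraMap]
    rfl
  obtain ⟨j, c, hc, hu'⟩ := exists_normForm_eq_pow_mul_C hprod
  have hc0 := hc.ne_zero
  -- the exponent is `m`
  have hXI : ∀ k : ℕ, XIdeal V x ^ k = I' ^ k * I ^ k := fun k ↦ by rw [← mul_pow, hI]
  set g := mkPair V (a - b * linY V) (-b)
  have hfg : I ^ m * Ideal.span {g} = I' ^ j * I ^ j := by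
    rw [← hXI, hz, Ideal.span_singleton_mul_span_singleton, mkPair_conj_mul, ← hu', map_mul,
      map_pow, ← XClass_eq_algebraMap, Ideal.span_singleton_mul_right_unit
        ((Polynomial.isUnit_C.mpr hc).map (algebraMap K[X] V.CoordinateRing)),
      ← Ideal.span_singleton_pow]
    rfl
  have hjm : j = m := by
    rcases lt_trichotomy j m with hlt | heq | hgt
    · exfalso
      obtain ⟨d, rfl⟩ : ∃ d, m = j + (d + 1) := ⟨m - j - 1, by omega⟩
      rw [pow_add, mul_assoc, mul_comm (I' ^ j)] at hfg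
      have h' := XYIdeal_pow_mul_cancel hP j hfg
      have hle : I' ^ j ≤ I := by
        rw [← h', pow_succ']
        exact Ideal.mul_le_left.trans Ideal.mul_le_left
      apply (isMaximal_XYIdeal hP.1).ne_top
      rw [eq_top_iff, ← Ideal.sup_pow_eq_top (n := j) hne]
      exact sup_le le_rfl hle
    · exact heq
    · exfalso
      obtain ⟨d, rfl⟩ : ∃ d, j = m + (d + 1) := ⟨j - m - 1, by omega⟩
      rw [pow_add I m, mul_left_comm] at hfg
      have h' := XYIdeal_pow_mul_cancel hP m hfg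
      have hmem : g ∈ I := by
        have : g ∈ Ideal.span {g} := Ideal.subset_span rfl
        rw [h', pow_succ'] at this
        exact Ideal.mul_le_left (Ideal.mul_le_right this)
      rw [mem_XYIdeal_iff hP.1, evalAt_mkPair, pairEval_conj] at hmem
      exact hne' hmem
  subst hjm
  obtain ⟨hb, hdeg, ha⟩ := degrees_of_normForm hm (a := a) (b := b) (V := V) (by
    rw [← hu', degree_mul, degree_pow, degree_X_sub_C, degree_C hc0, add_zero, nsmul_one])
  -- the leading coefficient of the norm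
  have hwl := congrArg wlead (mkPair_conj_mul (V := V) a b)
  rw [wlead_mul, wlead_algebraMap, ← hu', leadingCoeff_mul, leadingCoeff_C, leadingCoeff_pow,
    leadingCoeff_X_sub_C, one_pow, one_mul] at hwl
  have hlin : (linY V).natDegree ≤ 1 := natDegree_linear_le
  rw [wlead_mkPair_of_natDegree_le hb ha, wlead_mkPair_of_natDegree_le (neg_ne_zero.mpr hb) (by
    rw [natDegree_neg]
    exact (natDegree_sub_le _ _).trans
      (max_le ha (natDegree_mul_le.trans (Nat.add_le_add_left hlin _)))), leadingCoeff_neg] at hwl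
  set l := b.leadingCoeff with hl
  have hl0 : l ≠ 0 := leadingCoeff_ne_zero.mpr hb
  refine ⟨C l⁻¹ * a, C l⁻¹ * b, ?_, ?_, ?_⟩
  · have : normForm V (C l⁻¹ * a) (C l⁻¹ * b) = C (l⁻¹ ^ 2) * normForm V a b := by
      simp only [normForm, C_pow]; ring
    rw [this, ← hu', ← hwl, mul_comm _ (C _), ← mul_assoc, ← C_mul]
    rw [show l⁻¹ ^ 2 * (l * -l) = -1 by field_simp, C_neg, C_1, neg_one_mul]
  · rw [leadingCoeff_mul, leadingCoeff_C, inv_mul_cancel₀ hl0]
  · simp only [pairEval, eval_mul, eval_C, mul_assoc, ← mul_add]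
    exact mul_ne_zero (inv_ne_zero hl0) hne'

omit [DecidableEq K] in
/-- If `a + b Y` has norm `-(X - x)^m` and vanishes at both points above `x`, it is `X - x` times
a pair with norm `-(X - x)^(m - 2)`. -/
lemma exists_normForm_sub_two {m : ℕ} (hm : Odd m) {x y : K} (hy : y ≠ V.negY x y) {a b : K[X]}
    (hn : normForm V a b = -(X - C x) ^ m) (hl : b.leadingCoeff = 1)
    (h₁ : pairEval a b x (V.negY x y) = 0) (h₂ : pairEval a b x y = 0) :
    3 ≤ m ∧ ∃ a' b' : K[X],
      normForm V a' b' = -(X - C x) ^ (m - 2) ∧ b'.leadingCoeff = 1 := by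
  have hb0 : b.IsRoot x := by
    rw [pairEval] at h₁ h₂
    have : b.eval x * (y - V.negY x y) = 0 := by linear_combination h₂ - h₁
    exact (mul_eq_zero.mp this).resolve_right (sub_ne_zero.mpr hy)
  have ha0 : a.IsRoot x := by
    simpa [pairEval, show b.eval x = 0 from hb0] using h₂
  obtain ⟨a', rfl⟩ := dvd_iff_isRoot.mpr ha0
  obtain ⟨b', rfl⟩ := dvd_iff_isRoot.mpr hb0
  have hdeg := (degrees_of_normForm hm (by rw [hn, degree_neg_X_sub_C_pow])).2.1
  refine ⟨by omega, a', b', mul_left_cancel₀ (pow_ne_zero 2 (X_sub_C_ne_zero x)) ?_,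
    by rwa [leadingCoeff_mul, leadingCoeff_X_sub_C, one_mul] at hl⟩
  rw [mul_neg, ← pow_add, show 2 + (m - 2) = m by omega, ← hn]
  simp only [normForm]; ring

/-- A function with the norm of a Miller function which vanishes at a point of exact prime order
is the Miller function of that point. -/
theorem isMiller_of_norm {p : ℕ} (hp : p.Prime) (hodd : Odd p) {x y : K}
    (hP : V.Nonsingular x y) (hpP : p • Affine.Point.some x y hP = 0) {a b : K[X]}
    (hnorm : normForm V a b = -(X - C x) ^ p) (hlead : b.leadingCoeff = 1)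
    (h0 : pairEval a b x y = 0) : IsMiller V p x y a b := by
  have hy : y ≠ V.negY x y := ne_negY_of_odd hodd hP hpP
  have key : ∀ (m : ℕ) (a b : K[X]), Odd m → normForm V a b = -(X - C x) ^ m →
      b.leadingCoeff = 1 → ∃ (j : ℕ) (a' b' : K[X]), j ≤ m ∧ Odd j ∧
        (IsMiller V j x y a' b' ∨ IsMiller V j x (V.negY x y) a' b') := by
    intro m
    induction m using Nat.strong_induction_on with
    | _ m ih =>
      intro a b hm hn hl
      rcases ne_or_eq (pairEval a b x (V.negY x y)) 0 with h₁ | h₁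
      · exact ⟨m, a, b, le_rfl, hm, Or.inl ⟨hn, hl, h₁⟩⟩
      rcases ne_or_eq (pairEval a b x y) 0 with h₂ | h₂
      · exact ⟨m, a, b, le_rfl, hm, Or.inr ⟨hn, hl, by rwa [Affine.negY_negY]⟩⟩
      obtain ⟨hm3, a', b', hn', hl'⟩ := exists_normForm_sub_two hm hy hn hl h₁ h₂
      obtain ⟨j, a₂, b₂, hj, hjo, h⟩ := ih (m - 2) (by omega) a' b'
        (by obtain ⟨k, rfl⟩ := hm; exact ⟨k - 1, by omega⟩) hn' hl'
      exact ⟨j, a₂, b₂, by omega, hjo, h⟩
  have hne1 : pairEval a b x (V.negY x y) ≠ 0 := by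
    intro h₁
    obtain ⟨hp3, a', b', hn', hl'⟩ := exists_normForm_sub_two hodd hy hnorm hlead h₁ h0
    obtain ⟨j, a₂, b₂, hj, hjo, h⟩ := key (p - 2) a' b'
      (by obtain ⟨k, rfl⟩ := hodd; exact ⟨k - 1, by omega⟩) hn' hl'
    have hjP : j • Affine.Point.some x y hP = 0 := by
      rcases h with h | h
      · exact h.nsmul_eq_zero hjo hP
      · have := h.nsmul_eq_zero hjo ((Affine.nonsingular_neg x y).mpr hP)
        rwa [← Affine.Point.neg_some hP, smul_neg, neg_eq_zero] at this
    have hord : addOrderOf (Affine.Point.some x y hP) = p :=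
      (hp.eq_one_or_self_of_dvd _ (addOrderOf_dvd_of_nsmul_eq_zero hpP)).resolve_left
        fun h ↦ Affine.Point.some_ne_zero hP (AddMonoid.addOrderOf_eq_one_iff.mp h)
    have := hord ▸ addOrderOf_dvd_of_nsmul_eq_zero hjP
    have := Nat.le_of_dvd (by obtain ⟨k, rfl⟩ := hjo; omega) this
    omega
  exact ⟨hnorm, hlead, hne1⟩

/-- Multiplicativity: `v^m f₁ f₂ = l^m f₃` for the chord `l` and the vertical `v`. -/
theorem miller_add {m : ℕ} (hm : Odd m) {x₁ y₁ x₂ y₂ : K} {a₁ b₁ a₂ b₂ a₃ b₃ : K[X]}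
    (h₁ : V.Nonsingular x₁ y₁) (h₂ : V.Nonsingular x₂ y₂)
    (hxy : ¬(x₁ = x₂ ∧ y₁ = V.negY x₂ y₂))
    (f₁ : IsMiller V m x₁ y₁ a₁ b₁) (f₂ : IsMiller V m x₂ y₂ a₂ b₂)
    (f₃ : IsMiller V m (V.addX x₁ x₂ (V.slope x₁ x₂ y₁ y₂))
      (V.addY x₁ x₂ y₁ (V.slope x₁ x₂ y₁ y₂)) a₃ b₃) :
    XClass V (V.addX x₁ x₂ (V.slope x₁ x₂ y₁ y₂)) ^ m * (mkPair V a₁ b₁ * mkPair V a₂ b₂) =
      YClass V (Affine.linePolynomial x₁ y₁ (V.slope x₁ x₂ y₁ y₂)) ^ m * mkPair V a₃ b₃ := by
  set ℓ := V.slope x₁ x₂ y₁ y₂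
  set L := Affine.linePolynomial x₁ y₁ ℓ with hL
  have h₃ := Affine.nonsingular_add h₁ h₂ hxy
  have hY : wlead (YClass V L) = 1 := by
    have e : YClass V L = mkPair V (-L) 1 := by
      rw [YClass, mkPair, map_sub, neg_smul, one_smul, Affine.CoordinateRing.smul, mul_one]
      ring
    rw [e, wlead_mkPair, infPoly, map_neg, map_one, one_mul]
    have hd : (expand K 2 L).natDegree ≤ 2 := by
      rw [natDegree_expand]
      have : L.natDegree ≤ 1 := by rw [hL, Affine.linePolynomial]; compute_degree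
      omega
    rw [add_comm, leadingCoeff_add_of_degree_lt', leadingCoeff_X_pow]
    rw [degree_neg, degree_X_pow]
    refine lt_of_le_of_lt degree_le_natDegree ?_
    exact_mod_cast Nat.lt_succ_of_le hd
  refine span_eq_span_imp_eq ?_ ?_ ?_
  · simp only [← Ideal.span_singleton_mul_span_singleton, ← Ideal.span_singleton_pow]
    rw [f₁.span_eq h₁, f₂.span_eq h₂, f₃.span_eq h₃, ← mul_pow, ← mul_pow, ← mul_pow]
    exact congrArg (· ^ m) (Affine.CoordinateRing.XYIdeal_mul_XYIdeal h₁.1 h₂.1 hxy)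
  · rw [wlead_mul, wlead_mul, wlead_pow, XClass_eq_algebraMap, wlead_algebraMap,
      leadingCoeff_X_sub_C, one_pow, f₁.wlead_eq_one hm, f₂.wlead_eq_one hm, one_mul, one_mul]
  · rw [wlead_mul, wlead_pow, hY, one_pow, f₃.wlead_eq_one hm, one_mul]

end Fermat.Agent.EC
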