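import Mathlib.Algebra.BigOperators.Fin
import Mathlib.FieldTheory.IsAlgClosed.Basic
import Mathlib.RingTheory.Polynomial.Resultant.Basic
import Fermat.Agent.EC.WeilMiller

/-!
# Weil reciprocity between a Miller function and a line

The product of the values of a Miller function of `(x, y)` over the three zeros of the line
`Y = ℓ X + ν` is `(ν + ℓ x - y)^p`.  The proof deforms the line to `Y = 1` on `Y² = X³` by the
weighted scaling of the coordinates, through a resultant which is polynomial in the parameter.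
-/

noncomputable section

namespace Fermat.Agent.EC

open WeierstrassCurve Polynomial

variable {K : Type*} [Field K] (V : Affine K)

/-- The polynomial `ℓ X + ν`. -/
def linePoly (ℓ ν : K) : K[X] := C ℓ * X + C ν

/-- The monic cubic whose roots are the abscissae of the zeros of `Y - (ℓ X + ν)`. -/
def lineCubic (ℓ ν : K) : K[X] := cubicRHS V - (linePoly ℓ ν ^ 2 + linY V * linePoly ℓ ν)

variable {V}

lemma lineCubic_monic (ℓ ν : K) : (lineCubic V ℓ ν).Monic := by
  unfold lineCubic cubicRHS linY linePoly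
  monicity!

lemma lineCubic_natDegree (ℓ ν : K) : (lineCubic V ℓ ν).natDegree = 3 := by
  unfold lineCubic cubicRHS linY linePoly
  compute_degree!

lemma linePoly_eval (ℓ ν r : K) : (linePoly ℓ ν).eval r = ℓ * r + ν := by simp [linePoly]

lemma lineCubic_eval {x y : K} (h : V.Equation x y) (ℓ ν : K) :
    (lineCubic V ℓ ν).eval x = -((ℓ * x + ν - y) * (ℓ * x + ν - V.negY x y)) := by
  have e := (Affine.equation_iff x y).mp h
  simp only [lineCubic, eval_sub, eval_add, eval_pow, eval_mul, cubicRHS_eval, linY_eval,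
    linePoly_eval, Affine.negY]
  linear_combination -e

lemma equation_of_lineCubic_root {ℓ ν r : K} (h : (lineCubic V ℓ ν).eval r = 0) :
    V.Equation r (ℓ * r + ν) := by
  rw [Affine.equation_iff]
  simp only [lineCubic, eval_sub, eval_add, eval_pow, eval_mul, cubicRHS_eval, linY_eval,
    linePoly_eval] at h
  linear_combination -h

variable (V)

/-- The scaled line, with coefficients polynomial in the parameter. -/
def scaledLine (ℓ ν : K) : K[X][X] := C (C ℓ * X) * X + C (X ^ 3 * C ν + 1 - X ^ 3)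

/-- The scaled cubic. -/
def scaledCubic (ℓ ν : K) : K[X][X] :=
  X ^ 3 + C (C V.a₂ * X ^ 2) * X ^ 2 + C (C V.a₄ * X ^ 4) * X + C (C V.a₆ * X ^ 6) -
    (scaledLine ℓ ν ^ 2 + (C (C V.a₁ * X) * X + C (C V.a₃ * X ^ 3)) * scaledLine ℓ ν)

/-- The scaled pair `a + b L`. -/
def scaledPair (q : ℕ) (a b : K[X]) (ℓ ν : K) : K[X][X] :=
  ∑ i ∈ Finset.range (q + 2), C (C (a.coeff i) * X ^ (2 * (q + 1 - i) + 1)) * X ^ i +
    (∑ i ∈ Finset.range (q + 1), C (C (b.coeff i) * X ^ (2 * (q - i))) * X ^ i) * scaledLine ℓ ν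

/-- The product of `a + b Y` over the zeros of the scaled line, as a polynomial in the
parameter. -/
def scaledRes (q : ℕ) (a b : K[X]) (ℓ ν : K) : K[X] :=
  resultant (scaledCubic V ℓ ν) (scaledPair q a b ℓ ν) 3 (q + 1)

variable {V}

/-- The parameter of the scaled line, moved back to the original coordinates. -/
def scaledNu (ν e : K) : K := ν + (e ^ 3)⁻¹ - 1

lemma scaledLine_eval (ℓ ν : K) {e : K} (he : e ≠ 0) (r : K) :
    ((scaledLine ℓ ν).map (evalRingHom e)).eval (e ^ 2 * r) =
      e ^ 3 * (ℓ * r + scaledNu ν e) := by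
  simp [scaledLine, scaledNu]
  field_simp

lemma scaledCubic_eval (ℓ ν : K) {e : K} (he : e ≠ 0) (r : K) :
    ((scaledCubic V ℓ ν).map (evalRingHom e)).eval (e ^ 2 * r) =
      e ^ 6 * (lineCubic V ℓ (scaledNu ν e)).eval r := by
  simp only [scaledCubic, Polynomial.map_sub, Polynomial.map_add, Polynomial.map_pow,
    Polynomial.map_mul,
    map_X, map_C, coe_evalRingHom, eval_sub, eval_add, eval_pow, eval_mul, eval_X, eval_C,
    scaledLine_eval ℓ ν he, lineCubic, cubicRHS_eval, linY_eval, linePoly_eval]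
  ring

lemma scaledPair_eval {q : ℕ} {a b : K[X]} (ha : a.natDegree ≤ q + 1) (hb : b.natDegree ≤ q)
    (ℓ ν : K) {e : K} (he : e ≠ 0) (r : K) :
    ((scaledPair q a b ℓ ν).map (evalRingHom e)).eval (e ^ 2 * r) =
      e ^ (2 * q + 3) * pairEval a b r (ℓ * r + scaledNu ν e) := by
  rw [scaledPair, Polynomial.map_add, Polynomial.map_mul, eval_add, eval_mul,
    scaledLine_eval ℓ ν he,
    Polynomial.map_sum, Polynomial.map_sum, eval_finsetSum, eval_finsetSum, pairEval,
    eval_eq_sum_range' (Nat.lt_succ_of_le ha), eval_eq_sum_range' (Nat.lt_succ_of_le hb),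
    mul_add (e ^ (2 * q + 3)), Finset.mul_sum, Finset.sum_mul, Finset.sum_mul, Finset.mul_sum]
  congr 1 <;> refine Finset.sum_congr rfl fun i hi ↦ ?_
  · have hi' : i < q + 2 := Finset.mem_range.mp hi
    simp only [Polynomial.map_mul, map_C, Polynomial.map_pow, map_X, coe_evalRingHom, eval_mul,
      eval_C, eval_pow, eval_X]
    obtain ⟨d, hd⟩ : ∃ d, q + 1 = i + d := ⟨q + 1 - i, by omega⟩
    rw [hd, Nat.add_sub_cancel_left, show 2 * q + 3 = 2 * d + 1 + 2 * i by omega]
    ring
  · have hi' : i < q + 1 := Finset.mem_range.mp hi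
    simp only [Polynomial.map_mul, map_C, Polynomial.map_pow, map_X, coe_evalRingHom, eval_mul,
      eval_C, eval_pow, eval_X]
    obtain ⟨d, rfl⟩ : ∃ d, q = i + d := ⟨q - i, by omega⟩
    rw [Nat.add_sub_cancel_left]
    ring

lemma natDegree_scaledPair_le (q : ℕ) (a b : K[X]) (ℓ ν : K) :
    (scaledPair q a b ℓ ν).natDegree ≤ q + 1 := by
  refine (natDegree_add_le _ _).trans (max_le (natDegree_sum_le_of_forall_le _ _ fun i hi ↦ ?_)
    (natDegree_mul_le.trans (Nat.add_le_add
      (natDegree_sum_le_of_forall_le _ _ fun i hi ↦ ?_) ?_)))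
  · exact (natDegree_C_mul_X_pow_le _ _).trans (by have := Finset.mem_range.mp hi; omega)
  · exact (natDegree_C_mul_X_pow_le _ _).trans (by have := Finset.mem_range.mp hi; omega)
  · exact natDegree_linear_le

lemma monic_scaledCubic (ℓ ν : K) : (scaledCubic V ℓ ν).Monic := by
  unfold scaledCubic scaledLine
  monicity!

lemma natDegree_scaledCubic (ℓ ν : K) : (scaledCubic V ℓ ν).natDegree = 3 := by
  unfold scaledCubic scaledLine
  compute_degree!

variable [IsAlgClosed K]

lemma lineCubic_roots_card (ℓ ν : K) : (lineCubic V ℓ ν).roots.card = 3 := by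
  rw [← (IsAlgClosed.splits (lineCubic V ℓ ν)).natDegree_eq_card_roots, lineCubic_natDegree]

lemma lineCubic_eq_prod (ℓ ν : K) :
    lineCubic V ℓ ν = ((lineCubic V ℓ ν).roots.map fun r ↦ X - C r).prod :=
  (IsAlgClosed.splits _).eq_prod_roots_of_monic (lineCubic_monic ℓ ν)

/-- The product of `a + b Y` over the zeros of `Y - (ℓ X + ν)`. -/
def lineProd (V : Affine K) (a b : K[X]) (ℓ ν : K) : K :=
  ((lineCubic V ℓ ν).roots.map fun r ↦ pairEval a b r (ℓ * r + ν)).prod

lemma scaledRes_eval {q : ℕ} {a b : K[X]} (ha : a.natDegree ≤ q + 1) (hb : b.natDegree ≤ q)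
    (ℓ ν : K) {e : K} (he : e ≠ 0) :
    (scaledRes V q a b ℓ ν).eval e =
      e ^ (3 * (2 * q + 3)) * lineProd V a b ℓ (scaledNu ν e) := by
  rw [scaledRes, ← coe_evalRingHom, ← resultant_map_map]
  set ν' := scaledNu ν e
  have hC : (scaledCubic V ℓ ν).map (evalRingHom e) =
      (((lineCubic V ℓ ν').roots.map (e ^ 2 * ·)).map fun r ↦ X - C r).prod := by
    refine Polynomial.funext fun z ↦ ?_
    have hz : z = e ^ 2 * (z / e ^ 2) := by field_simp
    conv_lhs => rw [hz, scaledCubic_eval ℓ ν he, lineCubic_eq_prod ℓ ν']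
    rw [eval_multiset_prod, eval_multiset_prod, Multiset.map_map, Multiset.map_map,
      Multiset.map_map]
    simp only [Function.comp_def, eval_sub, eval_X, eval_C]
    have : ∀ r : K, z - e ^ 2 * r = e ^ 2 * (z / e ^ 2 - r) := fun r ↦ by field_simp
    rw [Multiset.map_congr rfl (fun r _ ↦ this r), Multiset.prod_map_mul, Multiset.map_const',
      Multiset.prod_replicate, lineCubic_roots_card, ← pow_mul]
  have hd : ((scaledCubic V ℓ ν).map (evalRingHom e)).natDegree = 3 := by
    rw [(monic_scaledCubic ℓ ν).natDegree_map, natDegree_scaledCubic]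
  have hr : ((scaledCubic V ℓ ν).map (evalRingHom e)).roots =
      (lineCubic V ℓ ν').roots.map (e ^ 2 * ·) := by
    rw [hC, roots_multiset_prod_X_sub_C]
  conv_lhs => rw [← hd]
  rw [resultant_eq_prod_eval _ _ _ (natDegree_map_le.trans (natDegree_scaledPair_le q a b ℓ ν))
    (IsAlgClosed.splits _), ((monic_scaledCubic ℓ ν).map (evalRingHom e)).leadingCoeff, one_pow,
    one_mul, hr, Multiset.map_map]
  simp only [Function.comp_def, scaledPair_eval ha hb ℓ ν he]
  rw [Multiset.prod_map_mul, Multiset.map_const', Multiset.prod_replicate, lineCubic_roots_card,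
    ← pow_mul, mul_comm (2 * q + 3)]
  rfl

lemma scaledRes_eval_zero {q : ℕ} {a b : K[X]} (hbd : b.natDegree = q) (hb : b.leadingCoeff = 1)
    (ℓ ν : K) : (scaledRes V q a b ℓ ν).eval 0 = 1 := by
  rw [scaledRes, ← coe_evalRingHom, ← resultant_map_map]
  have hC : (scaledCubic V ℓ ν).map (evalRingHom 0) = X ^ 3 - 1 := by
    simp [scaledCubic, scaledLine]
  have hH : (scaledPair q a b ℓ ν).map (evalRingHom 0) = X ^ q := by
    rw [scaledPair, Polynomial.map_add, Polynomial.map_mul, Polynomial.map_sum, Polynomial.map_sum,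
      Finset.sum_eq_zero, zero_add, Finset.sum_range_succ, Finset.sum_eq_zero, zero_add]
    · simp [scaledLine, ← hbd, hb]
    · intro i hi
      have := Finset.mem_range.mp hi
      simp [zero_pow (show 2 * (q - i) ≠ 0 by omega)]
    · intro i hi
      simp [pow_succ]
  rw [hC, hH]
  have hm : (X ^ 3 - 1 : K[X]).Monic := monic_X_pow_sub_C 1 three_ne_zero
  have hd : (X ^ 3 - 1 : K[X]).natDegree = 3 := natDegree_X_pow_sub_C
  have hres := resultant_eq_prod_eval (X ^ 3 - 1 : K[X]) (X ^ q) (q + 1)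
    ((natDegree_X_pow_le (R := K) q).trans (Nat.le_succ q)) (IsAlgClosed.splits _)
  rw [hd] at hres
  rw [hres, hm.leadingCoeff, one_pow, one_mul]
  simp only [eval_pow, eval_X]
  rw [Multiset.prod_map_pow, Multiset.map_id']
  have := (IsAlgClosed.splits (X ^ 3 - 1 : K[X])).coeff_zero_eq_prod_roots_of_monic hm
  simp [hd] at this
  rw [show ((X ^ 3 - 1 : K[X]).roots).prod = 1 by linear_combination this, one_pow]

lemma isCoprime_of_no_common_root {f g : K[X]} (hg : g ≠ 0)
    (h : ∀ e, f.IsRoot e → ¬ g.IsRoot e) : IsCoprime f g := by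
  refine isCoprime_of_dvd _ _ (fun h' ↦ hg h'.2) fun z hz hz0 hzf hzg ↦ ?_
  obtain ⟨e, he⟩ := IsAlgClosed.exists_root z (fun hd ↦ hz (isUnit_iff_degree_eq_zero.mpr hd))
  exact h e (he.dvd hzf) (he.dvd hzg)

/-- The product of a Miller function and its conjugate over the zeros of a line. -/
lemma lineProd_mul_conj {q : ℕ} {x y : K} {a b : K[X]}
    (h : normForm V a b = -(X - C x) ^ (2 * q + 3)) (he : V.Equation x y) (ℓ ν : K) :
    lineProd V a b ℓ ν * lineProd V (a - b * linY V) (-b) ℓ ν =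
      -((ℓ * x + ν - y) * (ℓ * x + ν - V.negY x y)) ^ (2 * q + 3) := by
  rw [lineProd, lineProd, ← Multiset.prod_map_mul]
  have hr : ∀ r ∈ (lineCubic V ℓ ν).roots,
      pairEval a b r (ℓ * r + ν) * pairEval (a - b * linY V) (-b) r (ℓ * r + ν) =
        (x - r) ^ (2 * q + 3) := by
    intro r hr
    rw [pairEval_conj, pairEval_mul_negY (equation_of_lineCubic_root (isRoot_of_mem_roots hr)),
      h]
    simp only [eval_neg, eval_pow, eval_sub, eval_X, eval_C]
    rw [← neg_sub x r, Odd.neg_pow (show Odd (2 * q + 3) from ⟨q + 1, by ring⟩)]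
    ring
  rw [Multiset.map_congr rfl hr, Multiset.prod_map_pow]
  have hev := congrArg (Polynomial.eval x) (lineCubic_eq_prod (V := V) ℓ ν)
  rw [eval_multiset_prod, Multiset.map_map] at hev
  simp only [Function.comp_def, eval_sub, eval_X, eval_C] at hev
  rw [← hev, lineCubic_eval he, Odd.neg_pow (show Odd (2 * q + 3) from ⟨q + 1, by ring⟩)]

omit [IsAlgClosed K] in
/-- A pair with the norm of a Miller function, nonzero at the point, is nonzero at the zeros of a
line through the point. -/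
lemma lineProd_ne_zero {q : ℕ} {x y : K} {a b : K[X]} {ℓ ν : K}
    (h : normForm V a b = -(X - C x) ^ (2 * q + 3))
    (hne : pairEval a b x y ≠ 0) (hline : ℓ * x + ν = y) : lineProd V a b ℓ ν ≠ 0 := by
  rw [lineProd, Ne, Multiset.prod_eq_zero_iff, Multiset.mem_map]
  rintro ⟨r, hr, hr0⟩
  have hr' : r = x := by
    have := pairEval_mul_negY (equation_of_lineCubic_root (isRoot_of_mem_roots hr)) a b
    rw [hr0, zero_mul, h] at this
    simpa [sub_eq_zero] using this
  subst hr'
  exact hne (hline ▸ hr0)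

/-- The product of the resultants of a pair and of its conjugate along the scaled line. -/
lemma scaledRes_mul_conj {q : ℕ} {x y : K} {a b : K[X]} (ha : a.natDegree ≤ q + 1)
    (hb : b.natDegree ≤ q) (ha' : (a - b * linY V).natDegree ≤ q + 1)
    (hn : normForm V a b = -(X - C x) ^ (2 * q + 3)) (he : V.Equation x y) (ℓ ν : K) :
    scaledRes V q a b ℓ ν * scaledRes V q (a - b * linY V) (-b) ℓ ν =
      -((1 + C (ν - 1 - (y - ℓ * x)) * X ^ 3) ^ (2 * q + 3) *
        (1 + C (ν - 1 - (V.negY x y - ℓ * x)) * X ^ 3) ^ (2 * q + 3)) := by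
  have hb' : (-b).natDegree ≤ q := by rw [natDegree_neg]; exact hb
  refine eq_of_infinite_eval_eq _ _ ?_
  refine Set.Infinite.mono (fun e (hmem : e ∈ ({0} : Set K)ᶜ) ↦ ?_)
    (Set.finite_singleton (0 : K)).infinite_compl
  have he' : e ≠ 0 := hmem
  show eval e _ = eval e _
  rw [eval_mul, scaledRes_eval ha hb ℓ ν he', scaledRes_eval ha' hb' ℓ ν he']
  rw [mul_mul_mul_comm, lineProd_mul_conj hn he, ← pow_add]
  simp only [eval_neg, eval_mul, eval_pow, eval_add, eval_one, eval_C, eval_X, scaledNu,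
    mul_neg, neg_inj]
  rw [show 3 * (2 * q + 3) + 3 * (2 * q + 3) = 6 * (2 * q + 3) by ring, pow_mul, ← mul_pow,
    ← mul_pow]
  congr 1
  field_simp
  ring

/-- **Weil reciprocity** between a Miller function and a line. -/
theorem lineProd_eq {p : ℕ} (hp : Odd p) {x y : K} {a b : K[X]} (hf : IsMiller V p x y a b)
    (hP : V.Nonsingular x y) (ℓ ν : K) :
    lineProd V a b ℓ ν = (ℓ * x + ν - y) ^ p := by
  obtain ⟨hb0, hpq, ha⟩ := hf.degrees hp
  set q := b.natDegree with hq
  subst hpq
  have hlin : (linY V).natDegree ≤ 1 := natDegree_linear_le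
  have ha' : (a - b * linY V).natDegree ≤ q + 1 :=
    (natDegree_sub_le _ _).trans (max_le ha (natDegree_mul_le.trans
      (Nat.add_le_add_left hlin _)))
  have hb' : (-b).natDegree ≤ q := by rw [natDegree_neg]
  set s := y - ℓ * x with hs
  set s' := V.negY x y - ℓ * x with hs'
  set Φ := scaledRes V q a b ℓ ν
  set Ψ := scaledRes V q (a - b * linY V) (-b) ℓ ν
  set A : K[X] := (1 + C (ν - 1 - s) * X ^ 3) ^ (2 * q + 3) with hA
  set B : K[X] := (1 + C (ν - 1 - s') * X ^ 3) ^ (2 * q + 3) with hB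
  have hA0 : A.eval 0 = 1 := by simp [hA]
  have hB0 : B.eval 0 = 1 := by simp [hB]
  have hne : ∀ {e : K} {t : K}, (1 + C (ν - 1 - t) * X ^ 3 : K[X]).eval e = 0 → e ≠ 0 := by
    rintro e t h rfl
    simp at h
  have key : Φ * Ψ = -(A * B) := scaledRes_mul_conj ha le_rfl ha' hf.norm hP.1 ℓ ν
  -- no common roots
  have hroot : ∀ {e t : K}, (1 + C (ν - 1 - t) * X ^ 3 : K[X]).eval e = 0 → scaledNu ν e = t := by
    intro e t h
    have he := hne h
    simp at h
    simp only [scaledNu]
    field_simp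
    linear_combination h
  have hcopΦ : IsCoprime Φ B := by
    refine isCoprime_of_no_common_root (fun h ↦ by rw [h] at hB0; simp at hB0) fun e hΦ hBe ↦ ?_
    rw [IsRoot, hB, eval_pow, pow_eq_zero_iff (by omega)] at hBe
    rw [IsRoot, scaledRes_eval ha le_rfl ℓ ν (hne hBe), mul_eq_zero, hroot hBe] at hΦ
    refine lineProd_ne_zero hf.norm hf.ne (by rw [hs']; ring)
      (hΦ.resolve_left (pow_ne_zero _ (hne hBe)))
  have hcopΨ : IsCoprime Ψ A := by
    refine isCoprime_of_no_common_root (fun h ↦ by rw [h] at hA0; simp at hA0) fun e hΨ hAe ↦ ?_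
    rw [IsRoot, hA, eval_pow, pow_eq_zero_iff (by omega)] at hAe
    rw [IsRoot, scaledRes_eval ha' hb' ℓ ν (hne hAe), mul_eq_zero, hroot hAe] at hΨ
    have hnorm : normForm V (a - b * linY V) (-b) = -(X - C x) ^ (2 * q + 3) := by
      rw [← hf.norm]; simp only [normForm]; ring
    refine lineProd_ne_zero (y := y) hnorm (by rw [pairEval_conj]; exact hf.ne) (by rw [hs]; ring)
      (hΨ.resolve_left (pow_ne_zero _ (hne hAe)))
  obtain ⟨u, hu⟩ : Φ ∣ A :=
    hcopΦ.dvd_of_dvd_mul_right ⟨-Ψ, by linear_combination key⟩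
  obtain ⟨v, hv⟩ : Ψ ∣ B :=
    hcopΨ.dvd_of_dvd_mul_left ⟨-Φ, by linear_combination key⟩
  have hne0 : Φ * Ψ ≠ 0 := by
    rw [key, neg_ne_zero]
    intro h
    have := congrArg (eval 0) h
    rw [eval_mul, hA0, hB0, eval_zero, one_mul] at this
    exact one_ne_zero this
  have huv : u * -v = 1 := by
    apply mul_left_cancel₀ hne0
    rw [mul_one]
    calc Φ * Ψ * (u * -v) = -((Φ * u) * (Ψ * v)) := by ring
      _ = Φ * Ψ := by rw [← hu, ← hv, key]
  obtain ⟨c, -, hc⟩ := Polynomial.isUnit_iff.mp (IsUnit.of_mul_eq_one _ huv)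
  have hc1 : c = 1 := by
    have h0 := congrArg (eval 0) hu
    rw [hA0, eval_mul, scaledRes_eval_zero hq.symm hf.lead, one_mul, ← hc, eval_C] at h0
    exact h0.symm
  have h1 := congrArg (eval 1) hu
  rw [← hc, hc1, C_1, mul_one, scaledRes_eval ha le_rfl ℓ ν one_ne_zero, one_pow, one_mul] at h1
  simp only [hA, scaledNu, hs, eval_pow, eval_add, eval_one, eval_mul, eval_C, eval_X, one_pow,
    inv_one, mul_one, add_sub_cancel_right] at h1
  rw [← h1]
  ring

end Fermat.Agent.EC
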